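import Fermat.Agent.RT.TW.AddPrimeLevel
import Mathlib.LinearAlgebra.Dimension.Finrank
import Mathlib.Data.Fin.Tuple.Basic
import Mathlib.Algebra.BigOperators.Fin

/-!
# Adding a finite set of Taylor–Wiles primes to the level

At primes `q` with `q ≡ 1` and `Φ(q) ≡ 1` whose Hecke polynomial has residual roots `α`, `α⁻¹`
with `α² ≠ 1`, the part of `H¹(Γ₀(M))` at `a` is isomorphic to the part of `H¹(Γ₀(M ∏ Q))` at
the system with `a(q) = α`, compatibly with the operators outside `Q`.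
-/

set_option autoImplicit false

noncomputable section

namespace Fermat.Agent.RT.TW

open scoped MatrixGroups
open CongruenceSubgroup Periods MvPolynomial

variable {A : Type} [CommRing A] {N M : ℕ} {Φ : MulChar (ZMod N) A}

theorem IsLocalIdem.unique [IsLocalRing A] [IsNoetherianRing A] {P : Type*} [CommRing P]
    [Algebra A P] {H : Type*} [AddCommGroup H] [Module A H] [Module.Finite A H]
    {ρ : P →ₐ[A] Module.End A H} {m : Ideal P} {e e' : Module.End A H}
    (he : IsLocalIdem ρ m e) (he' : IsLocalIdem ρ m e') : e = e' :=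
  LinearMap.ext fun x =>
    he.natural he' (σ := RingHom.id A) LinearMap.id (RingHom.id P) Function.surjective_id
      (fun _ _ => rfl) (fun _ => Iff.rfl) x

theorem IsLocalIdem.eq_of_mem_range [IsLocalRing A] {P : Type*} [CommRing P] [Algebra A P]
    {H : Type*} [AddCommGroup H] [Module A H] {ρ : P →ₐ[A] Module.End A H} {m : Ideal P}
    {e : Module.End A H} (he : IsLocalIdem ρ m e) (x : LinearMap.range e) : e (x : H) = x := by
  obtain ⟨y, hy⟩ := x.2
  rw [← hy, he.idem_apply]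

/-- One prime, as an equivalence of the local parts. -/
theorem exists_addPrime_rangeEquiv [NeZero M] [IsLocalRing A] [IsNoetherianRing A]
    [IsAdicComplete (IsLocalRing.maximalIdeal A) A] (h : N ∣ M) (q : Nat.Primes)
    (hqM : ¬ (q : ℕ) ∣ M) (hcov : CoverHyp A M) {k : Type} [Field k] (res : A →+* k)
    (hres : Function.Surjective res) {G : Set Nat.Primes} (hqG : q ∈ G) (a : Nat.Primes → k)
    (haG : ∀ p, p ∉ G → a p = 0) (α : k)
    (hq1 : ((q : ℕ) : k) = 1) (hΦ : res (Φ ((q : ℕ) : ZMod N)) = 1)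
    (hα : α * α + 1 = a q * α) (hα2 : α * α ≠ 1)
    {e : Module.End A (heckeH1 Φ M h)} (he : IsLocalIdem (heckeActOn Φ h G) (residualIdeal res a) e)
    {e' : Module.End A (heckeH1 Φ (M * q) (h.mul_right q))}
    (he' : IsLocalIdem (heckeActOn Φ (h.mul_right (q : ℕ)) G)
      (residualIdeal res (Function.update a q α)) e') :
    ∃ v : LinearMap.range e ≃ₗ[A] LinearMap.range e', ∀ p : Nat.Primes, p ≠ q →
      ∀ x y : LinearMap.range e, (y : heckeH1 Φ M h) = heckeOp Φ h p x →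
        (v y : heckeH1 Φ (M * q) (h.mul_right q)) = heckeOp Φ (h.mul_right q) p (v x) := by
  obtain ⟨q, hq⟩ := q
  have hα0 : α ≠ 0 := by
    rintro rfl
    simp at hα
  have hne : 2 * α ≠ a ⟨q, hq⟩ := fun e0 => hα2 (by
    rw [← e0] at hα
    linear_combination -hα)
  obtain ⟨ψ, v, hψ, -, heq, hmem, hinj, hsurj⟩ := exists_addPrime_equiv h hq hqM hcov hqG res hres a haG α
    hα0 (by rw [map_mul, map_natCast, hq1, hΦ]; linear_combination hα) hne
    (by rw [hq1]; rwa [one_add_one_eq_two]) (by rwa [hΦ]) he he'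
  let v' : LinearMap.range e →ₗ[A] LinearMap.range e' :=
    (v ∘ₗ (LinearMap.range e).subtype).codRestrict _ fun x =>
      ⟨v x, hmem x (he.eq_of_mem_range x)⟩
  have hv' : Function.Bijective v' := by
    refine ⟨(injective_iff_map_eq_zero v').2 fun x hx => Subtype.ext ?_, fun y => ?_⟩
    · exact hinj x (he.eq_of_mem_range x) (congrArg Subtype.val hx)
    · obtain ⟨x, hx, hxy⟩ := hsurj y (he'.eq_of_mem_range y)
      exact ⟨⟨x, x, hx⟩, Subtype.ext hxy⟩
  refine ⟨LinearEquiv.ofBijective v' hv', fun p hp x y hy => ?_⟩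
  show v (y : heckeH1 Φ M h) = heckeOp Φ (h.mul_right q) p (v x)
  rw [hy, ← heckeAct_X, ← hψ p fun e0 => hp (Subtype.ext e0),
    heq _ _ (he.eq_of_mem_range x), heckeAct_X]

/-- The local part at `a` of level `M` is that at `a'` of level `M ∏ Q`. -/
theorem exists_addPrimes_equiv_on [IsLocalRing A] [IsNoetherianRing A]
    [IsAdicComplete (IsLocalRing.maximalIdeal A) A] {k : Type} [Field k]
    (res : A →+* k) (hres : Function.Surjective res) {r : ℕ} (qv : Fin r → Nat.Primes)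
    (hinj : Function.Injective qv) {G : Set Nat.Primes} (hqG : ∀ i, qv i ∈ G) {M : ℕ} [NeZero M] (hcov : CoverHyp A M) (h : N ∣ M)
    (hqM : ∀ i, ¬ (qv i : ℕ) ∣ M) {L : ℕ} (hL : L = M * ∏ i, (qv i : ℕ)) (h' : N ∣ L)
    (a a' : Nat.Primes → k) (haG : ∀ p, p ∉ G → a p = 0) (hoff : ∀ p, (∀ i, qv i ≠ p) → a' p = a p)
    (hq1 : ∀ i, ((qv i : ℕ) : k) = 1) (hΦ : ∀ i, res (Φ ((qv i : ℕ) : ZMod N)) = 1)
    (hα : ∀ i, a' (qv i) * a' (qv i) + 1 = a (qv i) * a' (qv i))
    (hα2 : ∀ i, a' (qv i) * a' (qv i) ≠ 1)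
    {e : Module.End A (heckeH1 Φ M h)} (he : IsLocalIdem (heckeActOn Φ h G) (residualIdeal res a) e)
    {e' : Module.End A (heckeH1 Φ L h')}
    (he' : IsLocalIdem (heckeActOn Φ h' G) (residualIdeal res a') e') :
    ∃ v : LinearMap.range e ≃ₗ[A] LinearMap.range e', ∀ p : Nat.Primes, (∀ i, qv i ≠ p) →
      ∀ x y : LinearMap.range e, (y : heckeH1 Φ M h) = heckeOp Φ h p x →
        (v y : heckeH1 Φ L h') = heckeOp Φ h' p (v x) := by
  induction r generalizing M a with
  | zero =>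
    obtain rfl : L = M := by simp [hL]
    obtain rfl : a' = a := funext fun p => hoff p fun i => i.elim0
    haveI := finite_heckeH1 (Φ := Φ) h hcov
    obtain rfl : e = e' := he.unique he'
    exact ⟨LinearEquiv.refl A _, fun p _ x y hy => hy⟩
  | succ r ih =>
    haveI : NeZero (M * (qv 0 : ℕ)) := ⟨mul_ne_zero (NeZero.ne M) (qv 0).2.ne_zero⟩
    haveI := finite_heckeH1 (Φ := Φ) (h.mul_right (qv 0 : ℕ)) (hcov.mono (dvd_mul_right _ _))
    haveI := residualIdeal_isMaximal res hres (Function.update a (qv 0) (a' (qv 0)))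
    obtain ⟨e₁, he₁⟩ := exists_isLocalIdem (heckeActOn Φ (h.mul_right (qv 0 : ℕ)) G)
      (residualIdeal res (Function.update a (qv 0) (a' (qv 0))))
    obtain ⟨v₁, hv₁⟩ := exists_addPrime_rangeEquiv h (qv 0) (hqM 0) hcov res hres (hqG 0) a haG _ (hq1 0)
      (hΦ 0) (hα 0) (hα2 0) he he₁
    have hne : ∀ i : Fin r, qv i.succ ≠ qv 0 := fun i e0 => Fin.succ_ne_zero i (hinj e0)
    obtain ⟨v₂, hv₂⟩ := ih (fun i => qv i.succ) (hinj.comp (Fin.succ_injective _))
      (fun i => hqG i.succ)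
      (hcov.mono (dvd_mul_right _ _))
      (h.mul_right (qv 0 : ℕ))
      (fun i hd => ((qv i.succ).2.dvd_mul.1 hd).elim (hqM _) fun hd' =>
        hne i (Subtype.ext ((Nat.prime_dvd_prime_iff_eq (qv i.succ).2 (qv 0).2).1 hd')))
      (by rw [hL, Fin.prod_univ_succ, mul_assoc])
      (Function.update a (qv 0) (a' (qv 0)))
      (fun p hp => by
        rw [Function.update_of_ne (fun e0 => hp (by rw [e0]; exact hqG 0)), haG p hp])
      (fun p hp => by
        rcases eq_or_ne p (qv 0) with rfl | hp0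
        · rw [Function.update_self]
        · rw [Function.update_of_ne hp0]
          exact hoff p fun i => Fin.cases (Ne.symm hp0) hp i)
      (fun i => hq1 i.succ) (fun i => hΦ i.succ)
      (fun i => by rw [Function.update_of_ne (hne i)]; exact hα i.succ)
      (fun i => hα2 i.succ) he₁
    refine ⟨v₁.trans v₂, fun p hp x y hy => ?_⟩
    exact hv₂ p (fun i => hp i.succ) (v₁ x) (v₁ y) (hv₁ p (Ne.symm (hp 0)) x y hy)

/-- The same for the operators at all primes. -/
theorem exists_addPrimes_equiv [IsLocalRing A] [IsNoetherianRing A]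
    [IsAdicComplete (IsLocalRing.maximalIdeal A) A] {k : Type} [Field k]
    (res : A →+* k) (hres : Function.Surjective res) {r : ℕ} (qv : Fin r → Nat.Primes)
    (hinj : Function.Injective qv) {M : ℕ} [NeZero M] (hcov : CoverHyp A M) (h : N ∣ M)
    (hqM : ∀ i, ¬ (qv i : ℕ) ∣ M) {L : ℕ} (hL : L = M * ∏ i, (qv i : ℕ)) (h' : N ∣ L)
    (a a' : Nat.Primes → k) (hoff : ∀ p, (∀ i, qv i ≠ p) → a' p = a p)
    (hq1 : ∀ i, ((qv i : ℕ) : k) = 1) (hΦ : ∀ i, res (Φ ((qv i : ℕ) : ZMod N)) = 1)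
    (hα : ∀ i, a' (qv i) * a' (qv i) + 1 = a (qv i) * a' (qv i))
    (hα2 : ∀ i, a' (qv i) * a' (qv i) ≠ 1)
    {e : Module.End A (heckeH1 Φ M h)} (he : IsLocalIdem (heckeAct Φ h) (residualIdeal res a) e)
    {e' : Module.End A (heckeH1 Φ L h')}
    (he' : IsLocalIdem (heckeAct Φ h') (residualIdeal res a') e') :
    ∃ v : LinearMap.range e ≃ₗ[A] LinearMap.range e', ∀ p : Nat.Primes, (∀ i, qv i ≠ p) →
      ∀ x y : LinearMap.range e, (y : heckeH1 Φ M h) = heckeOp Φ h p x →
        (v y : heckeH1 Φ L h') = heckeOp Φ h' p (v x) := by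
  rw [← heckeActOn_univ h] at he
  rw [← heckeActOn_univ h'] at he'
  exact exists_addPrimes_equiv_on res hres qv hinj (fun i => Set.mem_univ _) hcov h hqM hL h' a a'
    (fun p hp => absurd (Set.mem_univ p) hp) hoff hq1 hΦ hα hα2 he he'

/-- In particular the ranks agree. -/
theorem finrank_addPrimes_eq_on [IsLocalRing A] [IsNoetherianRing A]
    [IsAdicComplete (IsLocalRing.maximalIdeal A) A] {k : Type} [Field k]
    (res : A →+* k) (hres : Function.Surjective res) {r : ℕ} (qv : Fin r → Nat.Primes)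
    (hinj : Function.Injective qv) {G : Set Nat.Primes} (hqG : ∀ i, qv i ∈ G) {M : ℕ} [NeZero M] (hcov : CoverHyp A M) (h : N ∣ M)
    (hqM : ∀ i, ¬ (qv i : ℕ) ∣ M) {L : ℕ} (hL : L = M * ∏ i, (qv i : ℕ)) (h' : N ∣ L)
    (a a' : Nat.Primes → k) (haG : ∀ p, p ∉ G → a p = 0) (hoff : ∀ p, (∀ i, qv i ≠ p) → a' p = a p)
    (hq1 : ∀ i, ((qv i : ℕ) : k) = 1) (hΦ : ∀ i, res (Φ ((qv i : ℕ) : ZMod N)) = 1)
    (hα : ∀ i, a' (qv i) * a' (qv i) + 1 = a (qv i) * a' (qv i))
    (hα2 : ∀ i, a' (qv i) * a' (qv i) ≠ 1)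
    {e : Module.End A (heckeH1 Φ M h)} (he : IsLocalIdem (heckeActOn Φ h G) (residualIdeal res a) e)
    {e' : Module.End A (heckeH1 Φ L h')}
    (he' : IsLocalIdem (heckeActOn Φ h' G) (residualIdeal res a') e') :
    Module.finrank A (LinearMap.range e') = Module.finrank A (LinearMap.range e) ∧
      (e ≠ 0 → e' ≠ 0) := by
  obtain ⟨v, -⟩ :=
    exists_addPrimes_equiv_on res hres qv hinj hqG hcov h hqM hL h' a a' haG hoff hq1 hΦ hα hα2 he he'
  refine ⟨v.finrank_eq.symm, fun hne h0 => hne ?_⟩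
  have hsub : Subsingleton (LinearMap.range e') := by
    rw [h0, LinearMap.range_zero]
    infer_instance
  have := v.toEquiv.subsingleton
  exact LinearMap.range_eq_bot.1 (Submodule.subsingleton_iff_eq_bot.1 this)

/-- The ranks agree for the operators at all primes. -/
theorem finrank_addPrimes_eq [IsLocalRing A] [IsNoetherianRing A]
    [IsAdicComplete (IsLocalRing.maximalIdeal A) A] {k : Type} [Field k]
    (res : A →+* k) (hres : Function.Surjective res) {r : ℕ} (qv : Fin r → Nat.Primes)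
    (hinj : Function.Injective qv) {M : ℕ} [NeZero M] (hcov : CoverHyp A M) (h : N ∣ M)
    (hqM : ∀ i, ¬ (qv i : ℕ) ∣ M) {L : ℕ} (hL : L = M * ∏ i, (qv i : ℕ)) (h' : N ∣ L)
    (a a' : Nat.Primes → k) (hoff : ∀ p, (∀ i, qv i ≠ p) → a' p = a p)
    (hq1 : ∀ i, ((qv i : ℕ) : k) = 1) (hΦ : ∀ i, res (Φ ((qv i : ℕ) : ZMod N)) = 1)
    (hα : ∀ i, a' (qv i) * a' (qv i) + 1 = a (qv i) * a' (qv i))
    (hα2 : ∀ i, a' (qv i) * a' (qv i) ≠ 1)
    {e : Module.End A (heckeH1 Φ M h)} (he : IsLocalIdem (heckeAct Φ h) (residualIdeal res a) e)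
    {e' : Module.End A (heckeH1 Φ L h')}
    (he' : IsLocalIdem (heckeAct Φ h') (residualIdeal res a') e') :
    Module.finrank A (LinearMap.range e') = Module.finrank A (LinearMap.range e) ∧
      (e ≠ 0 → e' ≠ 0) := by
  rw [← heckeActOn_univ h] at he
  rw [← heckeActOn_univ h'] at he'
  exact finrank_addPrimes_eq_on res hres qv hinj (fun i => Set.mem_univ _) hcov h hqM hL h' a a'
    (fun p hp => absurd (Set.mem_univ p) hp) hoff hq1 hΦ hα hα2 he he'

end Fermat.Agent.RT.TW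

end
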