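import Fermat.Agent.RT.TW.Modules

/-!
# The operators at a set of primes

`heckeActOn Φ h G` lets the variable at a prime of `G` act as the Hecke operator and the others as
zero, so that the local part at a residual system supported on `G` only depends on `G`.
-/

set_option autoImplicit false

noncomputable section

namespace Fermat.Agent.RT.TW

open MvPolynomial

variable {A : Type} [CommRing A] {N M : ℕ} {Φ : MulChar (ZMod N) A}

open scoped Classical in
/-- Kill the variables outside `G`. -/
def killOff (G : Set Nat.Primes) : HeckePoly A →ₐ[A] HeckePoly A :=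
  aeval fun p => if p ∈ G then X p else 0

theorem killOff_X_of_mem {G : Set Nat.Primes} {p : Nat.Primes} (hp : p ∈ G) :
    killOff G (X p : HeckePoly A) = X p := by
  simp [killOff, hp]

theorem killOff_X_of_notMem {G : Set Nat.Primes} {p : Nat.Primes} (hp : p ∉ G) :
    killOff G (X p : HeckePoly A) = 0 := by
  simp [killOff, hp]

@[simp]
theorem killOff_C (G : Set Nat.Primes) (a : A) : killOff G (C a : HeckePoly A) = C a := by
  simp [killOff]

@[simp]
theorem killOff_univ : killOff (A := A) Set.univ = AlgHom.id A (HeckePoly A) :=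
  MvPolynomial.algHom_ext fun p => by simp [killOff]

theorem killOff_killOff (G : Set Nat.Primes) (P : HeckePoly A) :
    killOff G (killOff G P) = killOff G P := by
  refine AlgHom.congr_fun (φ₁ := (killOff G).comp (killOff G)) (φ₂ := killOff G) ?_ P
  refine MvPolynomial.algHom_ext fun p => ?_
  by_cases hp : p ∈ G
  · simp [killOff_X_of_mem hp]
  · simp [killOff_X_of_notMem hp]

theorem eval₂Hom_killOff {G : Set Nat.Primes} {k : Type} [CommRing k] (res : A →+* k)
    {a : Nat.Primes → k} (ha : ∀ p, p ∉ G → a p = 0) (P : HeckePoly A) :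
    eval₂Hom res a (killOff G P) = eval₂Hom res a P := by
  refine RingHom.congr_fun (f := (eval₂Hom res a).comp (killOff G).toRingHom) ?_ P
  refine MvPolynomial.ringHom_ext (fun r => by simp) fun p => ?_
  by_cases hp : p ∈ G
  · simp [killOff_X_of_mem hp]
  · simp [killOff_X_of_notMem hp, ha p hp]

theorem map_killOff {A' : Type} [CommRing A'] (f : A →+* A') (G : Set Nat.Primes)
    (P : HeckePoly A) : MvPolynomial.map f (killOff G P) = killOff G (MvPolynomial.map f P) := by
  refine RingHom.congr_fun (f := (MvPolynomial.map f).comp (killOff G).toRingHom)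
    (g := (killOff G).toRingHom.comp (MvPolynomial.map f)) ?_ P
  refine MvPolynomial.ringHom_ext (fun r => by simp) fun p => ?_
  by_cases hp : p ∈ G
  · simp [killOff_X_of_mem hp]
  · simp [killOff_X_of_notMem hp]

variable (Φ) in
/-- The action of the polynomials through the operators at the primes of `G`. -/
def heckeActOn (h : N ∣ M) (G : Set Nat.Primes) :
    HeckePoly A →ₐ[A] Module.End A (heckeH1 Φ M h) :=
  (heckeAct Φ h).comp (killOff G)

theorem heckeActOn_apply (h : N ∣ M) (G : Set Nat.Primes) (P : HeckePoly A) :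
    heckeActOn Φ h G P = heckeAct Φ h (killOff G P) := rfl

theorem heckeActOn_of_killOff (h : N ∣ M) {G : Set Nat.Primes} {P : HeckePoly A}
    (hP : killOff G P = P) : heckeActOn Φ h G P = heckeAct Φ h P := by
  rw [heckeActOn_apply, hP]

theorem heckeActOn_univ (h : N ∣ M) : heckeActOn Φ h Set.univ = heckeAct Φ h := by
  rw [heckeActOn, killOff_univ, AlgHom.comp_id]

theorem heckeActOn_C (h : N ∣ M) (G : Set Nat.Primes) (a : A) :
    heckeActOn Φ h G (C a) = a • 1 := by
  rw [heckeActOn_apply, killOff_C, heckeAct_C]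

theorem heckeActOn_X {G : Set Nat.Primes} (h : N ∣ M) {p : Nat.Primes} (hp : p ∈ G) :
    heckeActOn Φ h G (X p) = heckeOp Φ h p := by
  rw [heckeActOn_apply, killOff_X_of_mem hp, heckeAct_X]

theorem heckeBaseChange_heckeActOn {A' : Type} [CommRing A'] (f : A →+* A') (h : N ∣ M)
    (G : Set Nat.Primes) (P : HeckePoly A) (y : heckeH1 Φ M h) :
    heckeBaseChange Φ f h (heckeActOn Φ h G P y) =
      heckeActOn (Φ.ringHomComp f) h G (MvPolynomial.map f P) (heckeBaseChange Φ f h y) := by
  rw [heckeActOn_apply, heckeActOn_apply, heckeBaseChange_heckeAct, map_killOff]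

theorem IsLocalIdem.comm_heckeAct [IsLocalRing A] {h : N ∣ M} {G : Set Nat.Primes}
    {m : Ideal (HeckePoly A)} {e : Module.End A (heckeH1 Φ M h)}
    (he : IsLocalIdem (heckeActOn Φ h G) m e) (P : HeckePoly A) (x : heckeH1 Φ M h) :
    e (heckeAct Φ h P x) = heckeAct Φ h P (e x) := by
  obtain ⟨Q, rfl⟩ := he.mem
  rw [heckeActOn_apply, ← Module.End.mul_apply, ← Module.End.mul_apply, ← map_mul, ← map_mul,
    mul_comm]

theorem IsLocalIdem.comm_heckeOp [IsLocalRing A] {h : N ∣ M} {G : Set Nat.Primes}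
    {m : Ideal (HeckePoly A)} {e : Module.End A (heckeH1 Φ M h)}
    (he : IsLocalIdem (heckeActOn Φ h G) m e) (p : Nat.Primes) (x : heckeH1 Φ M h) :
    e (heckeOp Φ h p x) = heckeOp Φ h p (e x) := by
  rw [← heckeAct_X, he.comm_heckeAct]

/-- A map intertwining the operators at the primes of `G` intertwines their polynomials. -/
theorem heckeActOn_intertwine {N' M' : ℕ} {Φ' : MulChar (ZMod N') A} {h : N ∣ M} {h' : N' ∣ M'}
    {G : Set Nat.Primes} (f : heckeH1 Φ M h →ₗ[A] heckeH1 Φ' M' h')
    (hf : ∀ p ∈ G, ∀ x, f (heckeOp Φ h p x) = heckeOp Φ' h' p (f x)) (P : HeckePoly A)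
    (x : heckeH1 Φ M h) : f (heckeActOn Φ h G P x) = heckeActOn Φ' h' G P (f x) := by
  induction P using MvPolynomial.induction_on generalizing x with
  | C a => rw [heckeActOn_C, heckeActOn_C]; simp
  | add P Q hP hQ => rw [map_add, map_add, LinearMap.add_apply, map_add, hP, hQ]; rfl
  | mul_X P p hP =>
    rw [map_mul, map_mul, Module.End.mul_apply, Module.End.mul_apply, hP]
    congr 1
    by_cases hp : p ∈ G
    · rw [heckeActOn_X h hp, heckeActOn_X h' hp, hf p hp]
    · rw [heckeActOn_apply, heckeActOn_apply, killOff_X_of_notMem hp, map_zero, map_zero]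
      simp

/-- A range on which `T_ℓ - (ℓ + Φ ℓ)` is bijective is finite free. -/
theorem free_range_of_nonEis [IsLocalRing A] [NeZero M] (h : N ∣ M) (hcov : CoverHyp A M)
    {G : Set Nat.Primes} {m : Ideal (HeckePoly A)} {e : Module.End A (heckeH1 Φ M h)}
    (he : IsLocalIdem (heckeActOn Φ h G) m e)
    (hEis : ∃ ℓ ∈ G, (X ℓ - C (eisensteinValue Φ M ℓ) : HeckePoly A) ∉ m) :
    Module.Free A (LinearMap.range e) ∧ Module.Finite A (LinearMap.range e) := by
  obtain ⟨hproj, hfin⟩ := projective_Z1_level0 (Φ := Φ) h hcov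
  obtain ⟨ℓ, hℓG, hℓ⟩ := hEis
  obtain ⟨t, ht, ht'⟩ := exists_lift_heckeOp_sub (Φ := Φ) h ℓ
  set τ : HeckePoly A := X ℓ - C (eisensteinValue Φ M ℓ) with hτdef
  have hτ : ∀ y, heckeActOn Φ h G τ y = heckeOp Φ h ℓ y - eisensteinValue Φ M ℓ • y := fun y => by
    rw [hτdef, map_sub, heckeActOn_X h hℓG, heckeActOn_C]
    rfl
  obtain ⟨u, hu⟩ := he.bijective_restrict hℓ
  have hst : ∀ v : HeckePoly A, ∀ x ∈ LinearMap.range e,
      heckeActOn Φ h G v x ∈ LinearMap.range e := fun v x ⟨y, hy⟩ =>
    ⟨heckeActOn Φ h G v y, by rw [he.comm_apply, hy]⟩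
  let tP : LinearMap.range e →ₗ[A] LinearMap.range e :=
    (heckeActOn Φ h G τ).restrict (hst τ)
  have hfix : ∀ x : LinearMap.range e, e (x : heckeH1 Φ M h) = x := by
    rintro ⟨_, y, rfl⟩; exact he.idem_apply y
  have htP : Function.Bijective tP :=
    Function.bijective_iff_has_inverse.2
      ⟨(heckeActOn Φ h G u).restrict (hst u), fun x => Subtype.ext (hu x (hfix x)).1,
        fun x => Subtype.ext (hu x (hfix x)).2⟩
  refine free_of_bijective (LinearMap.range (coboundary (level0 Φ M h).char)) t ht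
    (LinearMap.range e).subtype e.rangeRestrict (fun x => Subtype.ext (hfix x)) tP htP
    fun x z hz => ?_
  rw [Submodule.subtype_apply] at hz ⊢
  show toH1 (level0 Φ M h).char (t z) = heckeActOn Φ h G τ (x : heckeH1 Φ M h)
  rw [ht', hτ, ← hz]

end Fermat.Agent.RT.TW

end
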