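import Fermat.Agent.RT.TW.AddPrime
import Fermat.Agent.RT.TW.PartialAct
import Mathlib.RingTheory.Int.Basic

/-!
# Adding a prime `q ∤ M` to the level

The two degeneracy maps, corestriction and the involution between `Γ₀(M)` and `Γ₀(M q)` as coset
families, their relations with `U_q` and `T_q`, and the resulting identification of the part of
`H¹(Γ₀(M))` at `m` with the part of `H¹(Γ₀(M q))` at `(m, U_q ≡ α)` when `α` is a simple root.
-/

set_option autoImplicit false

noncomputable section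

namespace Fermat.Agent.RT.TW

open scoped MatrixGroups
open CongruenceSubgroup Periods MvPolynomial

variable {A : Type} [CommRing A] {N M q : ℕ} {Φ : MulChar (ZMod N) A}

/-- Bezout coefficients. -/
structure AddPrimeBezout (M q : ℕ) where
  /-- coefficient of `q` -/
  x : ℤ
  /-- coefficient of `M` -/
  y : ℤ
  eq : (q : ℤ) * x - y * (M : ℤ) = 1

theorem exists_addPrimeBezout (hq : q.Prime) (hqM : ¬ q ∣ M) : Nonempty (AddPrimeBezout M q) := by
  obtain ⟨u, v, huv⟩ := Nat.isCoprime_iff_coprime.2 (hq.coprime_iff_not_dvd.2 hqM)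
  exact ⟨⟨u, -v, by linear_combination huv⟩⟩

theorem natCast_mul_dvd_of_dvd (hq : q.Prime) (hqM : ¬ q ∣ M) {c : ℤ} (h1 : (M : ℤ) ∣ c)
    (h2 : (q : ℤ) ∣ c) : ((M * q : ℕ) : ℤ) ∣ c := by
  push_cast
  exact IsCoprime.mul_dvd (Nat.isCoprime_iff_coprime.2 (hq.coprime_iff_not_dvd.2 hqM)).symm h1 h2

theorem isUnit_zmod_of_not_dvd (h : N ∣ M) (hq : q.Prime) (hqM : ¬ q ∣ M) :
    IsUnit ((q : ℕ) : ZMod N) :=
  (ZMod.unitOfCoprime q (hq.coprime_iff_not_dvd.2 fun hd => hqM (hd.trans h))).isUnit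

theorem AddPrimeBezout.isUnit_x (h : N ∣ M) (B : AddPrimeBezout M q) :
    IsUnit (B.x : ZMod N) ∧ ((q : ZMod N) * (B.x : ZMod N) = 1) := by
  have e := congrArg (Int.cast : ℤ → ZMod N) B.eq
  push_cast at e
  rw [show ((M : ℕ) : ZMod N) = 0 from (ZMod.natCast_eq_zero_iff M N).2 h, mul_zero,
    sub_zero] at e
  exact ⟨IsUnit.of_mul_eq_one_right _ e, e⟩

variable (Φ) in
/-- A matrix in the monoid, from its entries. -/
def mkS (a b c d : ℤ) (hc : (N : ℤ) ∣ c) (ha : IsUnit (a : ZMod N)) : (gamma0Weighting Φ).S :=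
  ⟨!![a, b; c, d], ⟨by simpa using hc, by simpa using ha⟩⟩

@[simp] theorem coe_mkS (a b c d : ℤ) (hc : (N : ℤ) ∣ c) (ha : IsUnit (a : ZMod N)) :
    ((mkS Φ a b c d hc ha : (gamma0Weighting Φ).S) : IntMat) = !![a, b; c, d] := rfl

theorem ψ_mkS (a b c d : ℤ) (hc : (N : ℤ) ∣ c) (ha : IsUnit (a : ZMod N)) :
    (gamma0Weighting Φ).ψ (mkS Φ a b c d hc ha) = Φ (a : ZMod N) := by
  rw [gamma0Weighting_ψ, coe_mkS]
  simp

section Families

variable (h : N ∣ M)

variable (Φ q) in
/-- Restriction to `Γ₀(M q)`. -/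
def degRes : CosetFamily (level0 Φ M h) (level0 Φ (M * q) (h.mul_right q)) Unit :=
  CosetFamily.ofSeparated (fun _ => 1) (fun _ => by simp) (fun _ _ _ _ => rfl) fun γ i => by
    obtain ⟨a, b, c, d, hγ, hdet, hc⟩ := gammaMat_entries (γ : Gamma0 (M * q))
    obtain ⟨g, hg⟩ := exists_gamma0_of_entries (N := M) hdet
      ((Int.natCast_dvd_natCast.2 (dvd_mul_right M q)).trans hc)
    exact ⟨i, g, by simpa [hγ] using hg.symm⟩

variable (Φ) in
/-- The degeneracy family `diag(q, 1)`. -/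
def degDiag (hq : q.Prime) (hqM : ¬ q ∣ M) :
    CosetFamily (level0 Φ M h) (level0 Φ (M * q) (h.mul_right q)) Unit :=
  CosetFamily.ofSeparated
    (fun _ => mkS Φ q 0 0 1 (dvd_zero _) (by exact_mod_cast isUnit_zmod_of_not_dvd h hq hqM))
    (fun _ => by simp [Matrix.det_fin_two_of, hq.ne_zero]) (fun _ _ _ _ => rfl) fun γ i => by
    obtain ⟨a, b, c, d, hγ, hdet, m, hm⟩ := gammaMat_entries (γ : Gamma0 (M * q))
    obtain ⟨g, hg⟩ := exists_gamma0_of_entries (N := M) (a := a) (b := q * b) (c := M * m) (d := d)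
      (by push_cast at hm; linear_combination hdet + b * hm) (dvd_mul_right _ _)
    refine ⟨i, g, ?_⟩
    have hg' : gammaMat (g : (level0 Φ M h).grp) = !![a, q * b; M * m, d] := hg
    rw [hγ, hg', coe_mkS, Matrix.mul_fin_two, Matrix.mul_fin_two]
    congrm !![?_, ?_; ?_, ?_]
    · ring
    · ring
    · push_cast at hm; linear_combination hm
    · ring

/-- Representatives of `Γ₀(M q) \ Γ₀(M)`. -/
def coresMat (B : AddPrimeBezout M q) : Option (Fin q) → IntMat
  | none => 1
  | some j => !![B.x, B.x * (j : ℕ) + B.y; (M : ℤ), (M : ℤ) * (j : ℕ) + q]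

theorem det_coresMat (B : AddPrimeBezout M q) (i : Option (Fin q)) : (coresMat B i).det = 1 := by
  cases i with
  | none => simp [coresMat]
  | some j => rw [coresMat, Matrix.det_fin_two_of]; linear_combination B.eq

theorem coresMat_separated [NeZero M] (hq : q.Prime) (hqM : ¬ q ∣ M) (B : AddPrimeBezout M q)
    (i j : Option (Fin q)) (g : Gamma0 (M * q))
    (hij : coresMat B i = gammaMat g * coresMat B j) : i = j := by
  obtain ⟨a, b, c, d, hg, hdet, hc⟩ := gammaMat_entries g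
  rw [hg] at hij
  obtain ⟨m, hm⟩ := hc
  push_cast at hm
  have hM : (M : ℤ) ≠ 0 := by exact_mod_cast NeZero.ne M
  have hq1 : ¬ (q : ℤ) ∣ 1 := fun hd => by
    have := Int.le_of_dvd one_pos hd
    have := hq.two_le
    omega
  cases i <;> cases j
  · rfl
  · rename_i j
    have e10 := congrFun (congrFun hij 1) 0
    simp [coresMat, Matrix.mul_apply, Fin.sum_univ_two] at e10
    rw [hm] at e10
    have hd : d = -(q * m * B.x) := mul_left_cancel₀ hM (by linear_combination -e10)
    exact absurd ⟨-a * m * B.x - b * M * m, by rw [← hdet, hd, hm]; ring⟩ hq1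
  · rename_i i
    have e10 := congrFun (congrFun hij 1) 0
    simp [coresMat, Matrix.mul_apply, Fin.sum_univ_two] at e10
    rw [hm] at e10
    exact absurd ⟨m, mul_left_cancel₀ hM (by linear_combination e10)⟩ hq1
  · rename_i i j
    have e10 := congrFun (congrFun hij 1) 0
    have e11 := congrFun (congrFun hij 1) 1
    simp [coresMat, Matrix.mul_apply, Fin.sum_univ_two] at e10 e11
    have hqm : (q : ℤ) * m = (M : ℤ) * ((j : ℕ) - (i : ℕ)) := mul_left_cancel₀ hM (by
      linear_combination -hm - c * B.eq - ((M : ℤ) * (j : ℕ) + q) * e10 + (M : ℤ) * e11)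
    have hdvd : (q : ℤ) ∣ ((j : ℕ) : ℤ) - (i : ℕ) :=
      (Nat.isCoprime_iff_coprime.2 (hq.coprime_iff_not_dvd.2 hqM)).dvd_of_dvd_mul_left
        ⟨m, hqm.symm⟩
    obtain ⟨t, ht⟩ := hdvd
    exact congrArg some (fin_eq_of_dvd_sub (x := t) (by linear_combination ht)).symm

variable (Φ) in
/-- Corestriction from `Γ₀(M q)` to `Γ₀(M)`. -/
def degCores [NeZero M] (hq : q.Prime) (hqM : ¬ q ∣ M) (B : AddPrimeBezout M q) :
    CosetFamily (level0 Φ (M * q) (h.mul_right q)) (level0 Φ M h) (Option (Fin q)) :=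
  CosetFamily.ofSeparated
    (fun i => ⟨coresMat B i, by
      cases i with
      | none => exact (gamma0Weighting Φ).S.one_mem
      | some j =>
        exact ⟨by simpa [coresMat] using (Int.natCast_dvd_natCast.2 h),
          by simpa [coresMat] using (B.isUnit_x h).1⟩⟩)
    (fun i => by show (coresMat B i).det ≠ 0; rw [det_coresMat]; exact one_ne_zero)
    (fun i j g hij => coresMat_separated hq hqM B i j g hij)
    fun γ i => by
      let g0 : IntMat := coresMat B i * gammaMat γ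
      obtain ⟨a, b, c, d, hγ, hdet, hc⟩ := gammaMat_entries (γ : Gamma0 M)
      obtain ⟨u₀, v₀, u, v, h0, hdet0, hu⟩ : ∃ u₀ v₀ u v : ℤ, g0 = !![u₀, v₀; u, v] ∧
          u₀ * v - v₀ * u = 1 ∧ (M : ℤ) ∣ u := by
        refine ⟨g0 0 0, g0 0 1, g0 1 0, g0 1 1, Matrix.eta_fin_two _, ?_, ?_⟩
        · rw [← Matrix.det_fin_two, Matrix.det_mul, det_coresMat, gammaMat_det, one_mul]
        · show (M : ℤ) ∣ (coresMat B i * gammaMat γ) 1 0
          rw [Matrix.mul_apply, Fin.sum_univ_two]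
          refine dvd_add (dvd_mul_of_dvd_left ?_ _) (dvd_mul_of_dvd_right ?_ _)
          · cases i <;> simp [coresMat]
          · rw [show gammaMat γ = !![a, b; c, d] from hγ]; simpa using hc
      by_cases hqu : (q : ℤ) ∣ u
      · obtain ⟨g, hg⟩ := exists_gamma0_of_entries (N := M * q) (b := v₀) (d := v) hdet0
          (natCast_mul_dvd_of_dvd hq hqM hu hqu)
        refine ⟨none, g, ?_⟩
        show g0 = gammaMat g * coresMat B none
        rw [coresMat, Matrix.mul_one, h0]
        exact hg.symm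
      · have hqp : Prime (q : ℤ) := Nat.prime_iff_prime_int.1 hq
        obtain ⟨k, m, hm⟩ :=
          exists_fin_mul_sub_dvd hq.ne_zero ((hqp.coprime_iff_not_dvd.2 hqu).symm) v
        obtain ⟨u', hu'⟩ := hu
        obtain ⟨g, hg⟩ := exists_gamma0_of_entries (N := M * q)
          (a := u₀ * ((M : ℤ) * (k : ℕ) + q) - v₀ * M) (b := -u₀ * (B.x * (k : ℕ) + B.y) + v₀ * B.x)
          (c := (M : ℤ) * q * (u' - m)) (d := -u * (B.x * (k : ℕ) + B.y) + v * B.x)
          (by
            have e : (M : ℤ) * q * (u' - m) = u * ((M : ℤ) * (k : ℕ) + q) - v * M := by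
              linear_combination (M : ℤ) * hm - (q : ℤ) * hu'
            rw [e]
            linear_combination hdet0 + (u₀ * v - v₀ * u) * B.eq)
          ⟨u' - m, by push_cast; ring⟩
        refine ⟨some k, g, ?_⟩
        show g0 = gammaMat g * coresMat B (some k)
        rw [h0, show gammaMat g = _ from hg, coresMat, Matrix.mul_fin_two]
        congrm !![?_, ?_; ?_, ?_]
        · linear_combination -u₀ * B.eq
        · linear_combination -v₀ * B.eq
        · linear_combination -u * B.eq + (-(M : ℤ) * B.x) * hm + (q : ℤ) * B.x * hu'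
        · linear_combination -v * B.eq + (-(M : ℤ) * (B.x * (k : ℕ) + B.y)) * hm +
            (q : ℤ) * (B.x * (k : ℕ) + B.y) * hu'

variable (Φ) in
/-- The involution at `q`. -/
def degInvol (hq : q.Prime) (B : AddPrimeBezout M q) :
    CosetFamily (level0 Φ (M * q) (h.mul_right q)) (level0 Φ (M * q) (h.mul_right q)) Unit :=
  CosetFamily.ofSeparated
    (fun _ => mkS Φ (q * B.x) B.y (q * M) q
      (dvd_mul_of_dvd_right (Int.natCast_dvd_natCast.2 h) _)
      (by push_cast; rw [(B.isUnit_x h).2]; exact isUnit_one))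
    (fun _ => by
      rw [coe_mkS, Matrix.det_fin_two_of]
      have : (q : ℤ) * B.x * q - B.y * (q * M) = q := by linear_combination (q : ℤ) * B.eq
      rw [this]
      exact_mod_cast hq.ne_zero) (fun _ _ _ _ => rfl) fun γ i => by
    obtain ⟨a, b, c, d, hγ, hdet, m, hm⟩ := gammaMat_entries (γ : Gamma0 (M * q))
    push_cast at hm
    obtain ⟨g, hg⟩ := exists_gamma0_of_entries (N := M * q)
      (a := q * B.x * a + B.y * c - M * (q * B.x * b + B.y * d))
      (b := -B.y * (B.x * a + B.y * M * m) + B.x * (q * B.x * b + B.y * d))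
      (c := (M : ℤ) * q * (a + q * m - M * b - d))
      (d := -B.y * M * (a + q * m) + q * B.x * (M * b + d))
      (by rw [hm]; linear_combination hdet +
        ((a * d - b * (M * q * m)) * (q * B.x - B.y * M + 1)) * B.eq + b * hm)
      ⟨a + q * m - M * b - d, by push_cast; ring⟩
    refine ⟨i, g, ?_⟩
    rw [hγ, show gammaMat (g : (level0 Φ (M * q) (h.mul_right q)).grp) = _ from hg, coe_mkS,
      Matrix.mul_fin_two, Matrix.mul_fin_two]
    congrm !![?_, ?_; ?_, ?_]
    · rw [hm]; linear_combination -(q * B.x * a + B.y * M * q * m) * B.eq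
    · linear_combination -(q * B.x * b + B.y * d) * B.eq + (-(B.y ^ 2)) * hm
    · rw [hm]; linear_combination -((q : ℤ) * M * a + q * M * q * m) * B.eq
    · linear_combination -((q : ℤ) * M * b + q * d) * B.eq

end Families

section Relations

open CosetFamily

theorem opH1_eq_of_exists {W : Weighting A} {L₁ L₂ : WLevel W} {ι κ : Type} [Fintype ι] [Fintype κ]
    (D : CosetFamily L₁ L₂ ι) (E : CosetFamily L₁ L₂ κ) (e : ι ≃ κ)
    (h : ∀ i, ∃ δ : L₁.grp, (E.mat (e i) : IntMat) = gammaMat δ * (D.mat i : IntMat)) :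
    E.opH1 = D.opH1 := by
  choose δ hδ using h
  exact opH1_eq_of_cosets D E e δ hδ

section Scalar

variable {L₁ L₂ : WLevel (gamma0Weighting Φ)} (hL : ∀ γ : L₂.grp, ∃ g : L₁.grp, gammaMat g = gammaMat γ)
  {s : ℕ} (hs : IsUnit ((s : ℤ) : ZMod N)) (hs0 : s ≠ 0) (ι : Type) [Fintype ι]

/-- A family of copies of a scalar matrix. -/
def scalarFamily : CosetFamily L₁ L₂ ι where
  mat _ := mkS Φ s 0 0 s (dvd_zero _) hs
  det_ne_zero _ := by simp [Matrix.det_fin_two_of, hs0]
  exists_step γ := by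
    obtain ⟨g, hg⟩ := hL γ
    refine ⟨1, fun _ => g, fun i => ?_⟩
    rw [hg, coe_mkS, Matrix.eta_fin_two (gammaMat γ), Matrix.mul_fin_two, Matrix.mul_fin_two]
    congrm !![?_, ?_; ?_, ?_] <;> ring

theorem scalarFamily_op_apply (c : L₁.Z1) (γ : L₂.grp) (g : L₁.grp)
    (hg : gammaMat g = gammaMat γ) :
    ((scalarFamily hL hs hs0 ι).op c : L₂.grp → A) γ =
      ((Fintype.card ι : A) * Φ ((s : ℤ) : ZMod N)) * (c : L₁.grp → A) g := by
  rw [(scalarFamily hL hs hs0 ι).op_apply_of_step c (σ := 1) (g := fun _ => g) fun i => ?_]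
  · show ∑ _i : ι, Φ ((s : ℤ) : ZMod N) * (c : L₁.grp → A) g = _
    rw [Finset.sum_const, Finset.card_univ, nsmul_eq_mul, mul_assoc]
  · show (!![(s : ℤ), 0; 0, (s : ℤ)] : IntMat) * gammaMat γ = gammaMat g * !![(s : ℤ), 0; 0, (s : ℤ)]
    rw [hg, Matrix.eta_fin_two (gammaMat γ), Matrix.mul_fin_two, Matrix.mul_fin_two]
    congrm !![?_, ?_; ?_, ?_] <;> ring

theorem scalarFamily_opH1_self {L : WLevel (gamma0Weighting Φ)}
    (hL : ∀ γ : L.grp, ∃ g : L.grp, gammaMat g = gammaMat γ) (y : L.H1) :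
    (scalarFamily hL hs hs0 ι).opH1 y = ((Fintype.card ι : A) * Φ ((s : ℤ) : ZMod N)) • y := by
  obtain ⟨c, rfl⟩ := Submodule.mkQ_surjective _ y
  show toH1 L.char ((scalarFamily hL hs hs0 ι).op c) = _ • toH1 L.char c
  rw [← map_smul]
  refine congrArg _ (Subtype.ext (funext fun γ => ?_))
  exact scalarFamily_op_apply hL hs hs0 ι c γ γ rfl

end Scalar

variable (h : N ∣ M)

theorem level0_incl (γ : (level0 Φ (M * q) (h.mul_right q)).grp) :
    ∃ g : (level0 Φ M h).grp, gammaMat g = gammaMat γ := by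
  obtain ⟨a, b, c, d, hγ, hdet, hc⟩ := gammaMat_entries (γ : Gamma0 (M * q))
  obtain ⟨g, hg⟩ := exists_gamma0_of_entries (N := M) hdet
    ((Int.natCast_dvd_natCast.2 (dvd_mul_right M q)).trans hc)
  exact ⟨g, hg.trans hγ.symm⟩

theorem exists_level0_grp {a b c d : ℤ} (hdet : a * d - b * c = 1) (hc : (M : ℤ) ∣ c) :
    ∃ g : (level0 Φ M h).grp, gammaMat g = !![a, b; c, d] :=
  exists_gamma0_of_entries hdet hc

theorem scalarFamily_opH1_degRes {s : ℕ} (hs : IsUnit ((s : ℤ) : ZMod N)) (hs0 : s ≠ 0) (ι : Type)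
    [Fintype ι] (y : heckeH1 Φ M h) :
    (scalarFamily (level0_incl (Φ := Φ) (q := q) h) hs hs0 ι).opH1 y =
      ((Fintype.card ι : A) * Φ ((s : ℤ) : ZMod N)) • (degRes q Φ h).opH1 y := by
  obtain ⟨c, rfl⟩ := Submodule.mkQ_surjective _ y
  show toH1 (level0 Φ (M * q) (h.mul_right q)).char ((scalarFamily (level0_incl (Φ := Φ) (q := q) h) hs hs0 ι).op c) =
    _ • toH1 (level0 Φ (M * q) (h.mul_right q)).char ((degRes q Φ h).op c)
  rw [← map_smul]
  refine congrArg _ (Subtype.ext (funext fun γ => ?_))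
  obtain ⟨g, hg⟩ := level0_incl h γ
  rw [scalarFamily_op_apply _ hs hs0 ι c γ g hg]
  refine congrArg (((Fintype.card ι : A) * Φ ((s : ℤ) : ZMod N)) * ·) ?_
  rw [(degRes q Φ h).op_apply_of_step c (σ := 1) (g := fun _ => g) fun i => ?_]
  · simp [CosetFamily.weight, degRes, CosetFamily.ofSeparated]
  · show (1 : IntMat) * gammaMat γ = gammaMat g * (1 : IntMat)
    rw [hg, Matrix.one_mul, Matrix.mul_one]

/-- `HeckeIdx` at a prime off the level. -/
def idxTop (hqM : ¬ q ∣ M) : HeckeIdx M q ≃ Option (Fin q) :=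
  Equiv.subtypeUnivEquiv fun _ _ => hqM

/-- `HeckeIdx` at a prime of the level. -/
def idxNew (M q : ℕ) : HeckeIdx (M * q) q ≃ Fin q where
  toFun x := x.1.get (Option.ne_none_iff_isSome.1 fun e => x.2 e (dvd_mul_left q M))
  invFun j := ⟨some j, by simp⟩
  left_inv x := Subtype.ext (Option.some_get _)
  right_inv j := rfl


theorem opU_degRes (hq : q.Prime) (hqM : ¬ q ∣ M) (x : heckeH1 Φ M h) :
    heckeOp Φ (h.mul_right q) ⟨q, hq⟩ ((degRes q Φ h).opH1 x) =
      (degRes q Φ h).opH1 (heckeOp Φ h ⟨q, hq⟩ x) - (degDiag Φ h hq hqM).opH1 x := by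
  rw [eq_sub_iff_add_eq]
  let e : HeckeIdx M q × Unit ≃ (Unit × HeckeIdx (M * q) q) ⊕ Unit :=
    (Equiv.prodPUnit _).trans ((idxTop hqM).trans ((Equiv.optionEquivSumPUnit _).trans
      (Equiv.sumCongr ((idxNew M q).symm.trans (Equiv.punitProd _).symm) (Equiv.refl _))))
  have key := opH1_eq_of_exists ((heckeFamily Φ h hq).comp (degRes q Φ h))
    (((degRes q Φ h).comp (heckeFamily Φ (h.mul_right q) hq)).add (degDiag Φ h hq hqM)) e (by
      rintro ⟨⟨_ | j, hx⟩, ⟨⟩⟩
      · refine ⟨1, ?_⟩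
        rw [gammaMat_one, Matrix.one_mul]
        show (!![(q : ℤ), 0; 0, 1] : IntMat) = !![(q : ℤ), 0; 0, 1] * 1
        rw [Matrix.mul_one]
      · refine ⟨1, ?_⟩
        rw [gammaMat_one, Matrix.one_mul]
        show (1 : IntMat) * !![1, (j : ℤ); 0, (q : ℤ)] = !![1, (j : ℤ); 0, (q : ℤ)] * 1
        rw [Matrix.mul_one, Matrix.one_mul])
  rw [opH1_add, ← opH1_comp, ← opH1_comp] at key
  exact LinearMap.congr_fun key x

theorem opU_degDiag (hq : q.Prime) (hqM : ¬ q ∣ M) (x : heckeH1 Φ M h) :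
    heckeOp Φ (h.mul_right q) ⟨q, hq⟩ ((degDiag Φ h hq hqM).opH1 x) =
      ((q : A) * Φ (q : ZMod N)) • (degRes q Φ h).opH1 x := by
  have hs : IsUnit (((q : ℕ) : ℤ) : ZMod N) := by
    exact_mod_cast isUnit_zmod_of_not_dvd h hq hqM
  have key := opH1_eq_of_exists (scalarFamily (level0_incl (Φ := Φ) (q := q) h) hs hq.ne_zero (Fin q))
    ((degDiag Φ h hq hqM).comp (heckeFamily Φ (h.mul_right q) hq))
    ((idxNew M q).symm.trans (Equiv.punitProd _).symm) (fun j => by
      obtain ⟨g, hg⟩ := exists_level0_grp (Φ := Φ) h (a := 1) (b := (j : ℕ)) (c := 0) (d := 1)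
        (by ring) (dvd_zero _)
      refine ⟨g, ?_⟩
      show (!![(q : ℤ), 0; 0, 1] : IntMat) * !![1, (j : ℤ); 0, (q : ℤ)] =
        gammaMat g * !![(q : ℤ), 0; 0, (q : ℤ)]
      rw [hg, Matrix.mul_fin_two, Matrix.mul_fin_two]
      congrm !![?_, ?_; ?_, ?_] <;> ring)
  rw [← opH1_comp] at key
  refine (LinearMap.congr_fun key x).trans ?_
  rw [scalarFamily_opH1_degRes, Fintype.card_fin, Int.cast_natCast]

theorem opU_add_degInvol (hq : q.Prime) (hqM : ¬ q ∣ M) [NeZero M] (B : AddPrimeBezout M q)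
    (y : heckeH1 Φ (M * q) (h.mul_right q)) :
    heckeOp Φ (h.mul_right q) ⟨q, hq⟩ y + (degInvol Φ h hq B).opH1 y =
      (degRes q Φ h).opH1 ((degCores Φ h hq hqM B).opH1 ((degInvol Φ h hq B).opH1 y)) := by
  let e : HeckeIdx (M * q) q ⊕ Unit ≃ (Unit × Option (Fin q)) × Unit :=
    (((Equiv.sumCongr (idxNew M q) (Equiv.refl _)).trans (Equiv.optionEquivSumPUnit _).symm).trans
      (Equiv.punitProd _).symm).trans (Equiv.prodPUnit _).symm
  have key := opH1_eq_of_exists ((heckeFamily Φ (h.mul_right q) hq).add (degInvol Φ h hq B))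
    (((degInvol Φ h hq B).comp (degCores Φ h hq hqM B)).comp (degRes q Φ h)) e (by
      rintro (⟨_ | j, hx⟩ | ⟨⟩)
      · exact absurd (dvd_mul_left q M) (hx rfl)
      · obtain ⟨g, hg⟩ := exists_level0_grp (Φ := Φ) (h.mul_right q)
          (a := q * B.x * B.x + B.y * M) (b := B.y * (B.x + 1)) (c := q * M * (B.x + 1))
          (d := B.y * M + q)
          (by linear_combination ((q : ℤ) * B.x - B.y * M + 1) * B.eq)
          ⟨B.x + 1, by push_cast; ring⟩
        refine ⟨g, ?_⟩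
        show ((!![(q : ℤ) * B.x, B.y; (q : ℤ) * M, (q : ℤ)] : IntMat) *
            !![B.x, B.x * (j : ℕ) + B.y; (M : ℤ), (M : ℤ) * (j : ℕ) + q]) * 1 =
          gammaMat g * !![1, (j : ℤ); 0, (q : ℤ)]
        rw [hg, Matrix.mul_one, Matrix.mul_fin_two, Matrix.mul_fin_two]
        congrm !![?_, ?_; ?_, ?_] <;> ring
      · refine ⟨1, ?_⟩
        rw [gammaMat_one, Matrix.one_mul]
        show ((!![(q : ℤ) * B.x, B.y; (q : ℤ) * M, (q : ℤ)] : IntMat) * 1) * 1 =
          !![(q : ℤ) * B.x, B.y; (q : ℤ) * M, (q : ℤ)]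
        rw [Matrix.mul_one, Matrix.mul_one])
  rw [opH1_add, ← opH1_comp, ← opH1_comp] at key
  exact (LinearMap.congr_fun key y).symm

theorem degInvol_degInvol (hq : q.Prime) (B : AddPrimeBezout M q) (y : heckeH1 Φ (M * q) (h.mul_right q))
    (hqM : ¬ q ∣ M) :
    (degInvol Φ h hq B).opH1 ((degInvol Φ h hq B).opH1 y) = Φ (q : ZMod N) • y := by
  have hs : IsUnit (((q : ℕ) : ℤ) : ZMod N) := by
    exact_mod_cast isUnit_zmod_of_not_dvd h hq hqM
  have key := opH1_eq_of_exists
    (scalarFamily (L₁ := level0 Φ (M * q) (h.mul_right q)) (fun γ => ⟨γ, rfl⟩) hs hq.ne_zero Unit)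
    ((degInvol Φ h hq B).comp (degInvol Φ h hq B)) (Equiv.punitProd _).symm (fun _ => by
      obtain ⟨g, hg⟩ := exists_level0_grp (Φ := Φ) (h.mul_right q)
        (a := q * B.x * B.x + B.y * M) (b := B.y * (B.x + 1)) (c := q * M * (B.x + 1))
        (d := B.y * M + q)
        (by linear_combination ((q : ℤ) * B.x - B.y * M + 1) * B.eq)
        ⟨B.x + 1, by push_cast; ring⟩
      refine ⟨g, ?_⟩
      show (!![(q : ℤ) * B.x, B.y; (q : ℤ) * M, (q : ℤ)] : IntMat) *
          !![(q : ℤ) * B.x, B.y; (q : ℤ) * M, (q : ℤ)] = gammaMat g * !![(q : ℤ), 0; 0, (q : ℤ)]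
      rw [hg, Matrix.mul_fin_two, Matrix.mul_fin_two]
      congrm !![?_, ?_; ?_, ?_] <;> ring)
  rw [← opH1_comp] at key
  refine (LinearMap.congr_fun key y).trans ?_
  rw [scalarFamily_opH1_self, Fintype.card_unit, Nat.cast_one, one_mul, Int.cast_natCast]

theorem degCores_degRes (hq : q.Prime) (hqM : ¬ q ∣ M) [NeZero M] (B : AddPrimeBezout M q) (x : heckeH1 Φ M h) :
    (degCores Φ h hq hqM B).opH1 ((degRes q Φ h).opH1 x) = ((q : A) + 1) • x := by
  have hs : IsUnit (((1 : ℕ) : ℤ) : ZMod N) := by simp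
  have key := opH1_eq_of_exists
    (scalarFamily (L₁ := level0 Φ M h) (fun γ => ⟨γ, rfl⟩) hs one_ne_zero (Option (Fin q)))
    ((degRes q Φ h).comp (degCores Φ h hq hqM B)) (Equiv.punitProd _).symm (fun i => by
      rcases i with _ | j
      · refine ⟨1, ?_⟩
        rw [gammaMat_one, Matrix.one_mul]
        show (1 : IntMat) * 1 = !![((1 : ℕ) : ℤ), 0; 0, ((1 : ℕ) : ℤ)]
        rw [Matrix.one_mul, Matrix.one_fin_two, Nat.cast_one]
      · obtain ⟨g, hg⟩ := exists_level0_grp (Φ := Φ) h (a := B.x)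
          (b := B.x * (j : ℕ) + B.y) (c := M) (d := (M : ℤ) * (j : ℕ) + q)
          (by linear_combination B.eq) dvd_rfl
        refine ⟨g, ?_⟩
        show (1 : IntMat) * !![B.x, B.x * (j : ℕ) + B.y; (M : ℤ), (M : ℤ) * (j : ℕ) + q] =
          gammaMat g * !![((1 : ℕ) : ℤ), 0; 0, ((1 : ℕ) : ℤ)]
        rw [hg, Matrix.one_mul, Matrix.mul_fin_two, Nat.cast_one]
        congrm !![?_, ?_; ?_, ?_] <;> ring)
  rw [← opH1_comp] at key
  refine (LinearMap.congr_fun key x).trans ?_
  rw [scalarFamily_opH1_self]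
  simp

theorem degCores_degDiag (hq : q.Prime) (hqM : ¬ q ∣ M) [NeZero M] (B : AddPrimeBezout M q) (x : heckeH1 Φ M h) :
    (degCores Φ h hq hqM B).opH1 ((degDiag Φ h hq hqM).opH1 x) = heckeOp Φ h ⟨q, hq⟩ x := by
  have key := opH1_eq_of_exists (heckeFamily Φ h hq)
    ((degDiag Φ h hq hqM).comp (degCores Φ h hq hqM B))
    ((idxTop hqM).trans (Equiv.punitProd _).symm) (by
      rintro ⟨_ | j, hx⟩
      · refine ⟨1, ?_⟩
        rw [gammaMat_one, Matrix.one_mul]
        show (!![(q : ℤ), 0; 0, 1] : IntMat) * 1 = !![(q : ℤ), 0; 0, 1]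
        rw [Matrix.mul_one]
      · obtain ⟨g, hg⟩ := exists_level0_grp (Φ := Φ) h (a := q * B.x) (b := B.y) (c := M)
          (d := 1) (by linear_combination B.eq) dvd_rfl
        refine ⟨g, ?_⟩
        show (!![(q : ℤ), 0; 0, 1] : IntMat) *
            !![B.x, B.x * (j : ℕ) + B.y; (M : ℤ), (M : ℤ) * (j : ℕ) + q] =
          gammaMat g * !![1, (j : ℤ); 0, (q : ℤ)]
        rw [hg, Matrix.mul_fin_two, Matrix.mul_fin_two]
        congrm !![?_, ?_; ?_, ?_] <;> ring)
  rw [← opH1_comp] at key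
  exact LinearMap.congr_fun key x

theorem dvd_mul_iff_of_ne {p : ℕ} (hp : p.Prime) (hq : q.Prime) (hpq : p ≠ q) :
    p ∣ M * q ↔ p ∣ M :=
  ⟨fun hd => (hp.dvd_mul.1 hd).resolve_right fun e =>
    hpq ((Nat.prime_dvd_prime_iff_eq hp hq).1 e), fun hd => hd.mul_right q⟩

theorem opH1_degRes_comm (hq : q.Prime) (p : Nat.Primes) (hpq : (p : ℕ) ≠ q) (x : heckeH1 Φ M h) :
    heckeOp Φ (h.mul_right q) p ((degRes q Φ h).opH1 x) =
      (degRes q Φ h).opH1 (heckeOp Φ h p x) := by
  let e : HeckeIdx M (p : ℕ) × Unit ≃ Unit × HeckeIdx (M * q) (p : ℕ) :=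
    ((Equiv.prodPUnit _).trans (Equiv.subtypeEquivRight fun x =>
      imp_congr_right fun _ => not_congr (dvd_mul_iff_of_ne p.2 hq hpq).symm)).trans
      (Equiv.punitProd _).symm
  have key := opH1_eq_of_exists ((heckeFamily Φ h p.2).comp (degRes q Φ h))
    ((degRes q Φ h).comp (heckeFamily Φ (h.mul_right q) p.2)) e (by
      rintro ⟨⟨i, hi⟩, ⟨⟩⟩
      refine ⟨1, ?_⟩
      rw [gammaMat_one, Matrix.one_mul]
      show (1 : IntMat) * i.elim !![((p : ℕ) : ℤ), 0; 0, 1] (fun j => !![1, (j : ℤ); 0, ((p : ℕ) : ℤ)]) =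
        i.elim !![((p : ℕ) : ℤ), 0; 0, 1] (fun j => !![1, (j : ℤ); 0, ((p : ℕ) : ℤ)]) * 1
      rw [Matrix.one_mul, Matrix.mul_one])
  rw [← opH1_comp, ← opH1_comp] at key
  exact LinearMap.congr_fun key x

theorem opH1_degDiag_comm (hq : q.Prime) (hqM : ¬ q ∣ M) (p : Nat.Primes) (hpq : (p : ℕ) ≠ q) (x : heckeH1 Φ M h) :
    heckeOp Φ (h.mul_right q) p ((degDiag Φ h hq hqM).opH1 x) =
      (degDiag Φ h hq hqM).opH1 (heckeOp Φ h p x) := by
  have hcop : IsCoprime (q : ℤ) ((p : ℕ) : ℤ) :=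
    Nat.isCoprime_iff_coprime.2 ((Nat.coprime_primes hq p.2).2 hpq.symm)
  choose k t ht using fun j : Fin (p : ℕ) =>
    exists_fin_mul_sub_dvd p.2.ne_zero isCoprime_one_left ((q : ℤ) * (j : ℕ))
  have hk : Function.Injective k := fun i j hij => by
    obtain ⟨s, hs⟩ : ((p : ℕ) : ℤ) ∣ ((i : ℕ) : ℤ) - ((j : ℕ) : ℤ) :=
      hcop.symm.dvd_of_dvd_mul_left ⟨t i - t j, by
        have hi := ht i
        rw [hij] at hi
        linear_combination hi - ht j⟩
    exact fin_eq_of_dvd_sub (x := s) (by linear_combination hs)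
  let K : Fin (p : ℕ) ≃ Fin (p : ℕ) := Equiv.ofBijective k (Finite.injective_iff_bijective.1 hk)
  let ei : HeckeIdx (M * q) (p : ℕ) ≃ HeckeIdx M (p : ℕ) :=
    Equiv.subtypeEquiv (Equiv.optionCongr K) fun x => by
      cases x <;> simp [dvd_mul_iff_of_ne p.2 hq hpq]
  let e : Unit × HeckeIdx (M * q) (p : ℕ) ≃ HeckeIdx M (p : ℕ) × Unit :=
    ((Equiv.punitProd _).trans ei).trans (Equiv.prodPUnit _).symm
  have key := opH1_eq_of_exists ((degDiag Φ h hq hqM).comp (heckeFamily Φ (h.mul_right q) p.2))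
    ((heckeFamily Φ h p.2).comp (degDiag Φ h hq hqM)) e (by
      rintro ⟨⟨⟩, ⟨_ | j, hj⟩⟩
      · refine ⟨1, ?_⟩
        rw [gammaMat_one, Matrix.one_mul]
        show (!![((p : ℕ) : ℤ), 0; 0, 1] : IntMat) * !![(q : ℤ), 0; 0, 1] =
          !![(q : ℤ), 0; 0, 1] * !![((p : ℕ) : ℤ), 0; 0, 1]
        rw [Matrix.mul_fin_two, Matrix.mul_fin_two]
        congrm !![?_, ?_; ?_, ?_] <;> ring
      · obtain ⟨g, hg⟩ := exists_level0_grp (Φ := Φ) h (a := 1) (b := -t j) (c := 0) (d := 1)
          (by ring) (dvd_zero _)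
        refine ⟨g, ?_⟩
        show (!![1, ((k j : ℕ) : ℤ); 0, ((p : ℕ) : ℤ)] : IntMat) * !![(q : ℤ), 0; 0, 1] =
          gammaMat g * (!![(q : ℤ), 0; 0, 1] * !![1, (j : ℤ); 0, ((p : ℕ) : ℤ)])
        rw [hg, Matrix.mul_fin_two, Matrix.mul_fin_two, Matrix.mul_fin_two]
        congrm !![?_, ?_; ?_, ?_]
        · ring
        · linear_combination -ht j
        · ring
        · ring)
  rw [← opH1_comp, ← opH1_comp] at key
  exact (LinearMap.congr_fun key x).symm

end Relations

section Stabilisation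

variable (h : N ∣ M) (hq : q.Prime) (hqM : ¬ q ∣ M)

variable (Φ) in
/-- The relations at the new prime. -/
def levelData [NeZero M] (B : AddPrimeBezout M q) :
    AddPrimeData A (heckeH1 Φ M h) (heckeH1 Φ (M * q) (h.mul_right q)) where
  i₁ := (degRes q Φ h).opH1
  i₂ := (degDiag Φ h hq hqM).opH1
  j₁ := (degCores Φ h hq hqM B).opH1
  U := heckeOp Φ (h.mul_right q) ⟨q, hq⟩
  W := (degInvol Φ h hq B).opH1
  W2 := Φ (q : ZMod N) • 1
  T := heckeOp Φ h ⟨q, hq⟩
  R := ((q : A) * Φ (q : ZMod N)) • 1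
  P := (degCores Φ h hq hqM B).opH1 ∘ₗ (degInvol Φ h hq B).opH1
  deg := (q : A) + 1
  U_i₁ := opU_degRes h hq hqM
  U_i₂ x := by rw [opU_degDiag h hq hqM, LinearMap.smul_apply, Module.End.one_apply, map_smul]
  U_add_W := opU_add_degInvol h hq hqM B
  W_W y := degInvol_degInvol h hq B y hqM
  j₁_i₁ := degCores_degRes h hq hqM B
  j₁_i₂ := degCores_degDiag h hq hqM B

variable (q) in
/-- Substitution of `b` for the variable at `q`. -/
def substAt (b : HeckePoly A) : HeckePoly A →ₐ[A] HeckePoly A :=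
  aeval fun p => if (p : ℕ) = q then b else X p

theorem substAt_X_of_ne (b : HeckePoly A) {p : Nat.Primes} (hpq : (p : ℕ) ≠ q) :
    substAt q b (X p) = X p := by
  simp [substAt, hpq]

theorem substAt_X_self (b : HeckePoly A) : substAt q b (X ⟨q, hq⟩) = b := by
  simp [substAt]

theorem eval₂Hom_substAt {k : Type} [CommRing k] (res : A →+* k) (a : Nat.Primes → k)
    (b : HeckePoly A) (P : HeckePoly A) :
    eval₂Hom res a (substAt q b P) =
      eval₂Hom res (Function.update a ⟨q, hq⟩ (eval₂Hom res a b)) P := by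
  refine RingHom.congr_fun (f := (eval₂Hom res a).comp (substAt q b).toRingHom) ?_ P
  refine MvPolynomial.ringHom_ext (fun r => ?_) fun p => ?_
  · simp [substAt]
  · rcases eq_or_ne p ⟨q, hq⟩ with rfl | hp
    · simp [substAt]
    · have hp' : (p : ℕ) ≠ q := fun e => hp (Subtype.ext e)
      simp [substAt, hp', hp]

variable (Φ) in
/-- The stabilisation attached to `b`. -/
def stabMap (b : HeckePoly A) : heckeH1 Φ M h →ₗ[A] heckeH1 Φ (M * q) (h.mul_right q) :=
  (degRes q Φ h).opH1 ∘ₗ heckeAct Φ h b - (degDiag Φ h hq hqM).opH1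

theorem stabMap_apply (b : HeckePoly A) (x : heckeH1 Φ M h) :
    stabMap Φ h hq hqM b x =
      (degRes q Φ h).opH1 (heckeAct Φ h b x) - (degDiag Φ h hq hqM).opH1 x := rfl

/-- A stabilisation at a root is equivariant. -/
theorem stabMap_heckeAct (b : HeckePoly A) {e : Module.End A (heckeH1 Φ M h)}
    (hcomm : ∀ P x, e (heckeAct Φ h P x) = heckeAct Φ h P (e x))
    (hb : ∀ x, e x = x → heckeAct Φ h
      (b * b - X ⟨q, hq⟩ * b + C ((q : A) * Φ (q : ZMod N))) x = 0)
    (P : HeckePoly A) (x : heckeH1 Φ M h) (hx : e x = x) :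
    stabMap Φ h hq hqM b (heckeAct Φ h (substAt q b P) x) =
      heckeAct Φ (h.mul_right q) P (stabMap Φ h hq hqM b x) := by
  induction P using MvPolynomial.induction_on generalizing x with
  | C r =>
    rw [show substAt q b (C r) = C r by simp [substAt], heckeAct_C, heckeAct_C]
    simp
  | add P Q hP hQ =>
    rw [map_add, map_add, LinearMap.add_apply, map_add, hP x hx, hQ x hx, map_add]
    rfl
  | mul_X P p hP =>
    rw [map_mul, map_mul, Module.End.mul_apply, hP _ (by rw [hcomm, hx]), map_mul,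
      Module.End.mul_apply]
    congr 1
    rw [heckeAct_X]
    rcases eq_or_ne p ⟨q, hq⟩ with rfl | hp
    · rw [substAt_X_self hq, stabMap_apply, stabMap_apply, map_sub, opU_degRes h hq hqM,
        opU_degDiag h hq hqM]
      have h0 := hb x hx
      rw [map_add, map_sub, map_mul, map_mul, heckeAct_X, heckeAct_C, LinearMap.add_apply,
        LinearMap.sub_apply, Module.End.mul_apply, Module.End.mul_apply, LinearMap.smul_apply,
        Module.End.one_apply] at h0
      rw [show heckeAct Φ h b (heckeAct Φ h b x) = heckeOp Φ h ⟨q, hq⟩ (heckeAct Φ h b x) -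
        ((q : A) * Φ (q : ZMod N)) • x by rw [← sub_eq_zero, ← h0]; abel, map_sub, map_smul]
      abel
    · have hp' : (p : ℕ) ≠ q := fun e => hp (Subtype.ext e)
      rw [substAt_X_of_ne b hp', stabMap_apply, stabMap_apply, map_sub,
        opH1_degRes_comm h hq p hp', opH1_degDiag_comm h hq hqM p hp']
      have hc : heckeAct Φ h b (heckeAct Φ h (X p) x) =
          heckeAct Φ h (X p) (heckeAct Φ h b x) := by
        rw [← Module.End.mul_apply, ← Module.End.mul_apply, ← map_mul, ← map_mul,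
          mul_comm b (X p)]
      rw [heckeAct_X] at hc ⊢
      rw [hc]

theorem killOff_substAt {G : Set Nat.Primes} (hqG : ⟨q, hq⟩ ∈ G) {b : HeckePoly A}
    (hb : killOff G b = b) (P : HeckePoly A) :
    killOff G (substAt q b P) = substAt q b (killOff G P) := by
  induction P using MvPolynomial.induction_on with
  | C a => simp [substAt]
  | add P Q hP hQ => simp only [map_add, hP, hQ]
  | mul_X P p hP =>
    simp only [map_mul, hP]
    congr 1
    rcases eq_or_ne p ⟨q, hq⟩ with rfl | hp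
    · rw [killOff_X_of_mem hqG, substAt_X_self hq, hb]
    · have hp' : (p : ℕ) ≠ q := fun e => hp (Subtype.ext e)
      rw [substAt_X_of_ne _ hp']
      by_cases hpG : p ∈ G
      · rw [killOff_X_of_mem hpG, substAt_X_of_ne _ hp']
      · rw [killOff_X_of_notMem hpG, map_zero]

theorem IsLocalIdem.eq_zero_of_eval [IsLocalRing A]
    {ρ : HeckePoly A →ₐ[A] Module.End A (heckeH1 Φ M h)} {e : Module.End A (heckeH1 Φ M h)}
    {m : Ideal (HeckePoly A)} (he : IsLocalIdem ρ m e) {t : HeckePoly A} (ht : t ∉ m)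
    {x : heckeH1 Φ M h} (hx : e x = x) (h0 : ρ t x = 0) : x = 0 := by
  obtain ⟨u, hu⟩ := he.bijective_restrict ht
  rw [← (hu x hx).1, h0, map_zero]

/-- Old classes outside the part at `a` miss the part at `(a, c)`. -/
theorem degMaps_compl [NeZero M] [IsLocalRing A] [IsNoetherianRing A] (hcov : CoverHyp A M)
    {G : Set Nat.Primes} (hqG : ⟨q, hq⟩ ∈ G)
    {k : Type} [Field k] (res : A →+* k) (a : Nat.Primes → k) (haG : ∀ p, p ∉ G → a p = 0)
    (c : k) (hc0 : c ≠ 0)
    (hroot : c * c - a ⟨q, hq⟩ * c + res ((q : A) * Φ (q : ZMod N)) = 0)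
    {e : Module.End A (heckeH1 Φ M h)} (he : IsLocalIdem (heckeActOn Φ h G) (residualIdeal res a) e)
    {e' : Module.End A (heckeH1 Φ (M * q) (h.mul_right q))}
    (he' : IsLocalIdem (heckeActOn Φ (h.mul_right q) G)
      (residualIdeal res (Function.update a ⟨q, hq⟩ c)) e')
    {x : heckeH1 Φ M h} (hx : e x = 0) :
    e' ((degRes q Φ h).opH1 x) = 0 ∧ e' ((degDiag Φ h hq hqM).opH1 x) = 0 := by
  haveI : NeZero (M * q) := ⟨mul_ne_zero (NeZero.ne M) hq.ne_zero⟩
  haveI := finite_heckeH1 (Φ := Φ) (h.mul_right q) (hcov.mono (dvd_mul_right M q))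
  have hXq : (X ⟨q, hq⟩ : HeckePoly A) ∉ residualIdeal res (Function.update a ⟨q, hq⟩ c) := by
    rw [mem_residualIdeal_iff, eval₂Hom_X', Function.update_self]
    exact hc0
  obtain ⟨v₀, hv₀⟩ := he'.bijective_restrict hXq
  set v' : HeckePoly A := killOff G v₀ with hv'
  have hv : ∀ x, e' x = x → heckeAct Φ (h.mul_right q) v' (heckeOp Φ (h.mul_right q) ⟨q, hq⟩ x) = x ∧
      heckeOp Φ (h.mul_right q) ⟨q, hq⟩ (heckeAct Φ (h.mul_right q) v' x) = x := fun x hx => by
    have := hv₀ x hx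
    rwa [heckeActOn_X _ hqG, heckeActOn_apply] at this
  set r : A := (q : A) * Φ (q : ZMod N) with hr
  have hi2 : ∀ z, e' ((degDiag Φ h hq hqM).opH1 z) =
      r • heckeAct Φ (h.mul_right q) v' (e' ((degRes q Φ h).opH1 z)) := fun z => by
    conv_lhs => rw [← (hv _ (he'.idem_apply _)).1, ← he'.comm_heckeOp,
      opU_degDiag h hq hqM]
    rw [map_smul, map_smul]
  suffices h1 : e' ((degRes q Φ h).opH1 x) = 0 from
    ⟨h1, by rw [hi2, h1, map_zero, smul_zero]⟩
  by_cases hvm : v' * X ⟨q, hq⟩ - 1 ∈ residualIdeal res (Function.update a ⟨q, hq⟩ c)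
  swap
  · refine IsLocalIdem.eq_zero_of_eval (h.mul_right q) he' hvm (he'.idem_apply _) ?_
    rw [map_sub, map_mul, map_one, LinearMap.sub_apply, Module.End.mul_apply,
      Module.End.one_apply, heckeActOn_X _ hqG, heckeActOn_apply, hv', killOff_killOff, ← hv',
      (hv _ (he'.idem_apply _)).1, sub_self]
  rw [mem_residualIdeal_iff, map_sub, map_mul, map_one, eval₂Hom_X', Function.update_self,
    sub_eq_zero] at hvm
  let φ := substAt q (X ⟨q, hq⟩ + C r * v')
  have hφ : ∀ P x, (e' ∘ₗ (degRes q Φ h).opH1) (heckeAct Φ h P x) =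
      heckeAct Φ (h.mul_right q) (φ P) ((e' ∘ₗ (degRes q Φ h).opH1) x) := by
    intro P
    induction P using MvPolynomial.induction_on with
    | C s => intro x; rw [show φ (C s) = C s by simp [φ, substAt], heckeAct_C, heckeAct_C]; simp
    | add P Q hP hQ =>
      intro x
      rw [map_add, map_add, map_add, LinearMap.add_apply, map_add, hP x, hQ x]
      rfl
    | mul_X P p hP =>
      intro x
      rw [map_mul, map_mul, map_mul, Module.End.mul_apply, Module.End.mul_apply, hP, heckeAct_X]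
      congr 1
      show e' ((degRes q Φ h).opH1 (heckeOp Φ h p x)) = _
      rcases eq_or_ne p ⟨q, hq⟩ with rfl | hp
      · rw [show φ (X ⟨q, hq⟩) = X ⟨q, hq⟩ + C r * v' from substAt_X_self hq _, map_add, map_mul,
          heckeAct_C, LinearMap.add_apply, Module.End.mul_apply, LinearMap.smul_apply,
          Module.End.one_apply, LinearMap.comp_apply, heckeAct_X, ← he'.comm_heckeOp, ← hi2,
          opU_degRes h hq hqM, ← map_add]
        exact congrArg e' (by abel)
      · have hp' : (p : ℕ) ≠ q := fun e => hp (Subtype.ext e)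
        rw [show φ (X p) = X p from substAt_X_of_ne _ hp', ← opH1_degRes_comm h hq p hp',
          LinearMap.comp_apply, heckeAct_X, ← he'.comm_heckeOp]
  have hm : ∀ P ∈ residualIdeal res a, φ.toRingHom P ∈
      residualIdeal res (Function.update a ⟨q, hq⟩ c) := by
    intro P hP
    rw [mem_residualIdeal_iff] at hP ⊢
    show eval₂Hom res _ (substAt q _ P) = 0
    rw [eval₂Hom_substAt hq, map_add, map_mul, eval₂Hom_X', eval₂Hom_C, Function.update_self,
      Function.update_idem]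
    rw [show Function.update a ⟨q, hq⟩ (c + res r *
      eval₂Hom res (Function.update a ⟨q, hq⟩ c) v') = a from ?_]
    · exact hP
    · refine Function.update_eq_self_iff.2 ?_
      refine mul_right_cancel₀ hc0 ?_
      rw [add_mul, mul_assoc, hvm, mul_one]
      linear_combination hroot
  have hcomm : ∀ P, φ (killOff G P) = killOff G (φ P) := AlgHom.congr_fun
    (φ₁ := φ.comp (killOff G)) (φ₂ := (killOff G).comp φ) (MvPolynomial.algHom_ext fun p => by
      simp only [AlgHom.comp_apply]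
      rcases eq_or_ne p ⟨q, hq⟩ with rfl | hp
      · simp only [killOff_X_of_mem hqG, φ, substAt_X_self hq, map_add, map_mul, killOff_C, hv',
          killOff_killOff]
      · have hp' : (p : ℕ) ≠ q := fun e => hp (Subtype.ext e)
        rw [substAt_X_of_ne _ hp']
        by_cases hpG : p ∈ G
        · rw [killOff_X_of_mem hpG, substAt_X_of_ne _ hp']
        · rw [killOff_X_of_notMem hpG, map_zero])
  have := he.map_compl he' (e' ∘ₗ (degRes q Φ h).opH1) φ.toRingHom (fun P x => by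
    rw [heckeActOn_apply, heckeActOn_apply, hφ]
    exact congrArg (fun Q => heckeAct Φ (h.mul_right q) Q _) (hcomm P)) hm hx
  rwa [LinearMap.comp_apply, he'.idem_apply] at this

include hqM in
/-- The part of `H¹(Γ₀(M))` at a residual system is mapped isomorphically to the part of `H¹(Γ₀(M q))`
where `U_q` reduces to a simple root `c` by the stabilisation at a lift of that root. -/
theorem exists_addPrime_equiv_stab [NeZero M] [IsLocalRing A] [IsNoetherianRing A]
    [IsAdicComplete (IsLocalRing.maximalIdeal A) A] (hcov : CoverHyp A M)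
    {G : Set Nat.Primes} (hqG : ⟨q, hq⟩ ∈ G)
    {k : Type} [Field k] (res : A →+* k) (hres : Function.Surjective res)
    (a : Nat.Primes → k) (haG : ∀ p, p ∉ G → a p = 0) (c : k) (hc0 : c ≠ 0)
    (hroot : c * c - a ⟨q, hq⟩ * c + res ((q : A) * Φ (q : ZMod N)) = 0)
    (hsimple : 2 * c ≠ a ⟨q, hq⟩) (hdeg : ((q : k) + 1) * c ≠ a ⟨q, hq⟩)
    (hsq : c * c ≠ res (Φ (q : ZMod N)))
    {e : Module.End A (heckeH1 Φ M h)} (he : IsLocalIdem (heckeActOn Φ h G) (residualIdeal res a) e)
    {e' : Module.End A (heckeH1 Φ (M * q) (h.mul_right q))}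
    (he' : IsLocalIdem (heckeActOn Φ (h.mul_right q) G)
      (residualIdeal res (Function.update a ⟨q, hq⟩ c)) e') :
    ∃ a' : HeckePoly A, killOff G a' = a' ∧ eval₂Hom res a a' = c ∧
      (∀ P, eval₂Hom res a (substAt q a' P) = eval₂Hom res (Function.update a ⟨q, hq⟩ c) P) ∧
      (∀ P x, e x = x → stabMap Φ h hq hqM a' (heckeAct Φ h (substAt q a' P) x) =
        heckeAct Φ (h.mul_right q) P (stabMap Φ h hq hqM a' x)) ∧
      (∀ x, e x = x → e' (stabMap Φ h hq hqM a' x) = stabMap Φ h hq hqM a' x) ∧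
      (∀ x, e x = x → stabMap Φ h hq hqM a' x = 0 → x = 0) ∧
      (∀ y, e' y = y → ∃ x, e x = x ∧ stabMap Φ h hq hqM a' x = y) := by
  haveI : NeZero (M * q) := ⟨mul_ne_zero (NeZero.ne M) hq.ne_zero⟩
  haveI := finite_heckeH1 (Φ := Φ) (h.mul_right q) (hcov.mono (dvd_mul_right M q))
  haveI := finite_heckeH1 (Φ := Φ) h hcov
  haveI := residualIdeal_isMaximal res hres a
  obtain ⟨B⟩ := exists_addPrimeBezout hq hqM
  obtain ⟨c0, hc⟩ := hres c
  set r : A := (q : A) * Φ (q : ZMod N) with hr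
  obtain ⟨a₀, ha, haroot₀⟩ := exists_root_localPart (heckeActOn Φ h G) (residualIdeal res a) he
    (X ⟨q, hq⟩) (C r) (C c0)
    (by rw [mem_residualIdeal_iff]; simpa [hc] using hroot)
    (by rw [mem_residualIdeal_iff]; simpa [hc, sub_eq_zero] using hsimple)
  set a' : HeckePoly A := killOff G a₀ with ha'
  have hev : eval₂Hom res a a' = c := by
    rw [mem_residualIdeal_iff, map_sub, eval₂Hom_C, hc, sub_eq_zero] at ha
    rw [ha', eval₂Hom_killOff res haG]
    exact ha
  have hkα : killOff G (a₀ * a₀ - X ⟨q, hq⟩ * a₀ + C r) =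
      a' * a' - X ⟨q, hq⟩ * a' + C r := by
    rw [map_add, map_sub, map_mul, map_mul, killOff_C, killOff_X_of_mem hqG]
  have haroot : heckeAct Φ h (a' * a' - X ⟨q, hq⟩ * a' + C r) * e = 0 := by
    rw [← hkα]
    exact haroot₀
  set β : HeckePoly A := X ⟨q, hq⟩ - a' with hβ
  have hrootα : ∀ x, e x = x → heckeAct Φ h (a' * a' - X ⟨q, hq⟩ * a' + C r) x = 0 := fun x hx => by
    rw [← hx, ← Module.End.mul_apply, haroot, LinearMap.zero_apply]
  have hrootβ : ∀ x, e x = x → heckeAct Φ h (β * β - X ⟨q, hq⟩ * β + C r) x = 0 := fun x hx => by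
    rw [show β * β - X ⟨q, hq⟩ * β + C r = a' * a' - X ⟨q, hq⟩ * a' + C r by rw [hβ]; ring]
    exact hrootα x hx
  have eqα := stabMap_heckeAct h hq hqM a' he.comm_heckeAct hrootα
  have eqβ := stabMap_heckeAct h hq hqM β he.comm_heckeAct hrootβ
  have hka : killOff G a' = a' := by rw [ha', killOff_killOff]
  have hkβ : killOff G β = β := by rw [hβ, map_sub, killOff_X_of_mem hqG, hka]
  have hevψ : ∀ P, eval₂Hom res a (substAt q a' P) =
      eval₂Hom res (Function.update a ⟨q, hq⟩ c) P := fun P => by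
    rw [eval₂Hom_substAt hq, hev]
  have hmap : ∀ x, e x = x → e' (stabMap Φ h hq hqM a' x) = stabMap Φ h hq hqM a' x := fun x hx =>
    he.map_part he' _ (substAt q a').toRingHom (fun P x hx => by
      rw [heckeActOn_apply, heckeActOn_apply]
      refine Eq.trans ?_ (eqα (killOff G P) x hx)
      exact congrArg (fun Q => stabMap Φ h hq hqM a' (heckeAct Φ h Q x)) (killOff_substAt hq hqG hka P))
      (fun P hP => by
      rw [mem_residualIdeal_iff] at hP ⊢
      exact (hevψ P).trans hP) hx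
  have hkill : ∀ x, e x = x → e' (stabMap Φ h hq hqM β x) = 0 := fun x hx =>
    he.kill_part he' _ (substAt q β).toRingHom (fun P x hx => by
      rw [heckeActOn_apply, heckeActOn_apply]
      refine Eq.trans ?_ (eqβ (killOff G P) x hx)
      exact congrArg (fun Q => stabMap Φ h hq hqM β (heckeAct Φ h Q x)) (killOff_substAt hq hqG hkβ P))
      (s := X ⟨q, hq⟩ - C c0) (by simp [mem_residualIdeal_iff, hc]) (fun hmem => by
        rw [mem_residualIdeal_iff, AlgHom.toRingHom_eq_coe, RingHom.coe_coe, eval₂Hom_substAt hq,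
          map_sub, eval₂Hom_C, hc, eval₂Hom_X', Function.update_self, hβ, map_sub, eval₂Hom_X',
          hev] at hmem
        exact hsimple (by linear_combination -hmem)) hx
  refine ⟨a', hka, hev, hevψ, eqα, hmap,
    fun x hx h0 => ?_, fun y hy => ?_⟩
  · refine IsLocalIdem.eq_zero_of_eval h he (t := C ((q : A) + 1) * a' - X ⟨q, hq⟩) (fun hmem => ?_)
      hx ?_
    · rw [mem_residualIdeal_iff, map_sub, map_mul, eval₂Hom_C, eval₂Hom_X', hev, map_add,
        map_natCast, map_one, sub_eq_zero] at hmem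
      exact hdeg hmem
    · have h1 := congrArg (degCores Φ h hq hqM B).opH1 h0
      rw [stabMap_apply, map_sub, map_zero, degCores_degRes h hq hqM B,
        degCores_degDiag h hq hqM B] at h1
      rw [heckeActOn_apply, map_sub, map_mul, killOff_C, hka, killOff_X_of_mem hqG, map_sub,
        map_mul, heckeAct_C, heckeAct_X]
      exact h1
  · obtain ⟨u, hu⟩ := he'.bijective_restrict
      (t := X ⟨q, hq⟩ * X ⟨q, hq⟩ - C (Φ (q : ZMod N))) (fun hmem => by
        rw [mem_residualIdeal_iff, map_sub, map_mul, eval₂Hom_C, eval₂Hom_X',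
          Function.update_self, sub_eq_zero] at hmem
        exact hsq hmem)
    have hy1 := (hu y hy).2
    obtain ⟨a1, b1, hab⟩ :=
      (levelData Φ h hq hqM B).exists_old (heckeActOn Φ (h.mul_right q) G u y)
    rw [map_sub, map_mul, heckeActOn_X _ hqG, heckeActOn_C] at hy1
    have hold : y = (degRes q Φ h).opH1 a1 + (degDiag Φ h hq hqM).opH1 b1 := hy1.symm.trans hab
    have hcompl := fun z => degMaps_compl h hq hqM hcov hqG res a haG c hc0 hroot he he'
      (x := z - e z) (by rw [map_sub, he.idem_apply, sub_self])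
    simp only [map_sub, sub_eq_zero] at hcompl
    obtain ⟨w₀, hw₀⟩ := he.bijective_restrict (t := a' - β) (fun hmem => by
      rw [mem_residualIdeal_iff, hβ, map_sub, map_sub, eval₂Hom_X', hev] at hmem
      exact hsimple (by linear_combination hmem))
    have hk : killOff G (a' - β) = a' - β := by rw [map_sub, hka, hkβ]
    obtain ⟨w, hw⟩ : ∃ w : HeckePoly A, ∀ x, e x = x →
        heckeAct Φ h w (heckeAct Φ h (a' - β) x) = x ∧
          heckeAct Φ h (a' - β) (heckeAct Φ h w x) = x := by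
      refine ⟨killOff G w₀, fun x hx => ?_⟩
      rw [← heckeActOn_of_killOff h hk, ← heckeActOn_apply h G w₀]
      exact hw₀ x hx
    set z0 := e a1 + heckeAct Φ h a' (e b1) with hz0
    have hz : e z0 = z0 := by
      rw [hz0, map_add, he.idem_apply, he.comm_heckeAct, he.idem_apply]
    set d := heckeAct Φ h w z0 with hd
    have hed : e d = d := by rw [hd, he.comm_heckeAct, hz]
    refine ⟨d - e b1, by rw [map_sub, hed, he.idem_apply], ?_⟩
    have e1 : (degRes q Φ h).opH1 (e a1) + (degDiag Φ h hq hqM).opH1 (e b1) =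
        stabMap Φ h hq hqM a' (d - e b1) - stabMap Φ h hq hqM β d := by
      have hd' := congrArg (degRes q Φ h).opH1 (hw z0 hz).2
      rw [← hd, map_sub, LinearMap.sub_apply, map_sub, hz0, map_add] at hd'
      rw [stabMap_apply, stabMap_apply, map_sub, map_sub, map_sub,
        eq_sub_of_add_eq hd'.symm]
      abel
    conv_rhs => rw [← hy, hold, map_add, (hcompl a1).1, (hcompl b1).2, ← map_add, e1, map_sub,
      hkill d hed, sub_zero, hmap _ (by rw [map_sub, hed, he.idem_apply])]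

include hqM in
/-- The part of `H¹(Γ₀(M))` at a residual system is the part of `H¹(Γ₀(M q))` where `U_q` reduces
to a simple root `c` of the Hecke polynomial at `q`. -/
theorem exists_addPrime_equiv [NeZero M] [IsLocalRing A] [IsNoetherianRing A]
    [IsAdicComplete (IsLocalRing.maximalIdeal A) A] (hcov : CoverHyp A M)
    {G : Set Nat.Primes} (hqG : ⟨q, hq⟩ ∈ G)
    {k : Type} [Field k] (res : A →+* k) (hres : Function.Surjective res)
    (a : Nat.Primes → k) (haG : ∀ p, p ∉ G → a p = 0) (c : k) (hc0 : c ≠ 0)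
    (hroot : c * c - a ⟨q, hq⟩ * c + res ((q : A) * Φ (q : ZMod N)) = 0)
    (hsimple : 2 * c ≠ a ⟨q, hq⟩) (hdeg : ((q : k) + 1) * c ≠ a ⟨q, hq⟩)
    (hsq : c * c ≠ res (Φ (q : ZMod N)))
    {e : Module.End A (heckeH1 Φ M h)} (he : IsLocalIdem (heckeActOn Φ h G) (residualIdeal res a) e)
    {e' : Module.End A (heckeH1 Φ (M * q) (h.mul_right q))}
    (he' : IsLocalIdem (heckeActOn Φ (h.mul_right q) G)
      (residualIdeal res (Function.update a ⟨q, hq⟩ c)) e') :
    ∃ (ψ : HeckePoly A →ₐ[A] HeckePoly A)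
      (v : heckeH1 Φ M h →ₗ[A] heckeH1 Φ (M * q) (h.mul_right q)),
      (∀ p : Nat.Primes, (p : ℕ) ≠ q → ψ (X p) = X p) ∧
      (∀ P, eval₂Hom res a (ψ P) = eval₂Hom res (Function.update a ⟨q, hq⟩ c) P) ∧
      (∀ P x, e x = x → v (heckeAct Φ h (ψ P) x) = heckeAct Φ (h.mul_right q) P (v x)) ∧
      (∀ x, e x = x → e' (v x) = v x) ∧
      (∀ x, e x = x → v x = 0 → x = 0) ∧
      (∀ y, e' y = y → ∃ x, e x = x ∧ v x = y) := by
  obtain ⟨a', -, -, hev, heq, hmem, hinj, hsurj⟩ := exists_addPrime_equiv_stab h hq hqM hcov hqG res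
    hres a haG c hc0 hroot hsimple hdeg hsq he he'
  exact ⟨substAt q a', stabMap Φ h hq hqM a', fun p hp => substAt_X_of_ne a' hp, hev, heq, hmem,
    hinj, hsurj⟩

end Stabilisation

end Fermat.Agent.RT.TW

end
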