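import Fermat.Agent.RT.TW.Modules
import Mathlib.LinearAlgebra.LinearIndependent.Basic
import Mathlib.LinearAlgebra.Basis.Basic

/-!
# Change of coefficients along an arbitrary ring homomorphism

`Z¹` of a level is a retract of a finite free module compatibly with every change of coefficients,
so functionals on it extend; applied to a section of the part at a non-Eisenstein maximal ideal,
a basis of that part stays linearly independent in the cohomology with the new coefficients.
-/

set_option autoImplicit false

noncomputable section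

namespace Fermat.Agent.RT.TW

open scoped MatrixGroups
open Periods MvPolynomial

namespace WLevel

variable {A : Type*} [CommRing A] {W : Weighting A} (L : WLevel W) [L.grp.FiniteIndex]
  (K : Subgroup SL(2, ℤ)) [K.FiniteIndex] [Fintype (L.CoverIdx K)] {A' : Type*} [CommRing A'] (f : A →+* A')

/-- A functional on cocycles extends to the cocycles with the new coefficients. -/
theorem exists_extend_functional (hK : ∀ γ ∈ L.grp ⊓ K, IsOfFinOrder γ → γ = 1) (hn : IsUnit (Fintype.card (L.CoverIdx K) : A)) (φ : L.Z1 →ₗ[A] A) :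
    ∃ φ' : twistedCocycles (mapChar f L.char) →ₗ[A'] A',
      ∀ z, φ' (mapCocycle f L.char z) = f (φ z) := by
  classical
  obtain ⟨n, hn⟩ := hn.exists_left_inv
  obtain ⟨r, ⟨b⟩⟩ := L.exists_cover_basis K hK
  let ψ : (L.cover K).Z1 × A →ₗ[A] A := φ ∘ₗ (L.coverRetr K) n
  let w : Fin r → A := fun i => ψ ((cocycleEquiv b (L.cover K).char).symm (Pi.single i 1), 0)
  refine ⟨
    { toFun := fun z => (∑ i, f (w i) * (z : L.grp → A') ((L.coverIncl K) (b i))) +
        f (ψ (0, 1)) * ∑ x, f ((L.cores K).weight x) * (z : L.grp → A') ((L.coverRep K) x)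
      map_add' := fun z z' => by simp [mul_add, Finset.sum_add_distrib]; ring
      map_smul' := fun a z => by simp [Finset.mul_sum, mul_left_comm, mul_add] }, fun z => ?_⟩
  have hres : ∀ y : (L.cover K).grp,
      ((L.res K).op z : (L.cover K).grp → A) y = (z : L.grp → A) ((L.coverIncl K) y) := by
    intro y
    rw [(L.res K).op_apply_of_step z (σ := Equiv.refl Unit) (g := fun _ => (L.coverIncl K) y)
      (fun _ => by simp [res, CosetFamily.ofSeparated, gammaMat_coverIncl])]
    simp [CosetFamily.weight, res, CosetFamily.ofSeparated]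
  have hdec : (L.coverEmb K) z =
      (∑ i, (z : L.grp → A) ((L.coverIncl K) (b i)) •
          ((cocycleEquiv b (L.cover K).char).symm (Pi.single i 1), (0 : A))) +
        (L.coverShift K) z • ((0 : (L.cover K).Z1), (1 : A)) := by
    refine Prod.ext ?_ ?_
    · simp only [coverEmb, LinearMap.prod_apply, Prod.fst_add, Prod.fst_sum,
        Prod.smul_fst, smul_zero, add_zero, ← map_smul, ← map_sum]
      refine (cocycleEquiv b (L.cover K).char).injective ?_
      rw [LinearEquiv.apply_symm_apply]
      ext j
      simp [hres, Finset.sum_apply, Pi.single_apply]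
    · simp [coverEmb, Prod.snd_sum]
  have hφ : φ z = ∑ i, (z : L.grp → A) ((L.coverIncl K) (b i)) * w i +
      (L.coverShift K) z * ψ (0, 1) := by
    rw [show φ z = ψ ((L.coverEmb K) z) by simp [ψ, L.coverRetr_coverEmb K hn], hdec]
    simp only [map_add, map_sum, map_smul, smul_eq_mul, w]
  rw [hφ]
  simp only [LinearMap.coe_mk, AddHom.coe_mk, mapCocycle_apply]
  simp [coverShift, mul_comm]

end WLevel

variable {A : Type} [CommRing A] {N M : ℕ} {Φ : MulChar (ZMod N) A} {A' : Type} [CommRing A']

/-- A basis of a part on which an operator `T_ℓ - eis_ℓ` is invertible stays linearly independent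
after any change of coefficients. -/
theorem linearIndependent_heckeBaseChange_of [IsLocalRing A] [NeZero M] (h : N ∣ M)
    (hcov : CoverHyp A M) (f : A →+* A')
    {act : HeckePoly A →ₐ[A] Module.End A (heckeH1 Φ M h)} {m : Ideal (HeckePoly A)}
    {e : Module.End A (heckeH1 Φ M h)} (he : IsLocalIdem act m e) {ℓ : Nat.Primes}
    (hact : act (X ℓ) = heckeOp Φ h ℓ)
    (hℓ : (X ℓ - C (eisensteinValue Φ M ℓ) : HeckePoly A) ∉ m)
    {ι : Type*} (b : Module.Basis ι A (LinearMap.range e)) :
    LinearIndependent A' fun i => heckeBaseChange Φ f h (b i) := by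
  classical
  obtain ⟨K, hn, hfi, hK, hu'⟩ := hcov.hasCover (Φ := Φ) h
  letI := Fintype.ofFinite ((level0 Φ M h).CoverIdx K)
  obtain ⟨t, ht, ht'⟩ := exists_lift_heckeOp_sub (Φ := Φ) h ℓ
  set τ : HeckePoly A := X ℓ - C (eisensteinValue Φ M ℓ) with hτdef
  have hτ : ∀ y, act τ y = heckeOp Φ h ℓ y - eisensteinValue Φ M ℓ • y := fun y => by
    rw [hτdef, map_sub, hact, ← algebraMap_eq, AlgHom.commutes, Algebra.algebraMap_eq_smul_one]
    rfl
  obtain ⟨u, hu⟩ := he.bijective_restrict hℓ
  choose z hz using fun i => Submodule.mkQ_surjective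
    (LinearMap.range (coboundary (level0 Φ M h).char)) (b i : heckeH1 Φ M h)
  have hfix : ∀ i, e (b i : heckeH1 Φ M h) = b i := fun i => by
    obtain ⟨y, hy⟩ := (b i).2
    rw [← hy, he.idem_apply]
  -- the coordinates of `u (T - eis)` on cocycles
  let g : (level0 Φ M h).Z1 →ₗ[A] LinearMap.range e :=
    e.rangeRestrict ∘ₗ act u ∘ₗ toH1 (level0 Φ M h).char
  have hg : ∀ i, g (t (z i)) = b i := fun i => by
    refine Subtype.ext ?_
    show e (act u (toH1 (level0 Φ M h).char (t (z i)))) = b i
    rw [ht', ← hτ, show toH1 (level0 Φ M h).char (z i) = (b i : heckeH1 Φ M h) from hz i,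
      (hu _ (hfix i)).1, hfix]
  rw [linearIndependent_iff']
  intro s c hsum j hj
  obtain ⟨φ', hφ'⟩ := (level0 Φ M h).exists_extend_functional K f hK
    ((level0 Φ M h).isUnit_card_coverIdx K hu') (b.coord j ∘ₗ g ∘ₗ t)
  -- the combination of the chosen cocycles is a coboundary
  have hsum' : toH1 (mapChar f (level0 Φ M h).char)
      (∑ i ∈ s, c i • mapCocycle f (level0 Φ M h).char (z i)) = 0 := by
    rw [map_sum]
    refine Eq.trans (Finset.sum_congr rfl fun i _ => ?_) hsum
    rw [map_smul]
    show _ • toH1 (mapChar f (level0 Φ M h).char) (mapCocycle f _ (z i)) = c i • _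
    congr 1
    rw [← hz i]
    rfl
  obtain ⟨x', hx'⟩ := (Submodule.Quotient.mk_eq_zero _).1 hsum'
  have h1 : coboundary (mapChar f (level0 Φ M h).char) x' =
      x' • mapCocycle f (level0 Φ M h).char (coboundary (level0 Φ M h).char 1) := by
    rw [mapCocycle_coboundary, map_one, ← map_smul, smul_eq_mul, mul_one]
  have h0 := congrArg φ' hx'
  rw [h1, map_smul, hφ', map_sum] at h0
  simp only [map_smul, hφ', LinearMap.comp_apply,
    ht _ (LinearMap.mem_range_self _ (1 : A)), hg, map_zero, Module.Basis.coord_apply,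
    Module.Basis.repr_self, smul_eq_mul, mul_zero] at h0
  rw [Finset.sum_eq_single j (fun i _ hij => by simp [Finsupp.single_eq_of_ne' hij])
    (fun hns => absurd hj hns)] at h0
  simpa using h0.symm

/-- A basis of the part at a non-Eisenstein maximal ideal stays linearly independent after any
change of coefficients. -/
theorem linearIndependent_heckeBaseChange [IsLocalRing A] [NeZero M] (h : N ∣ M)
    (hcov : CoverHyp A M) (f : A →+* A') {m : Ideal (HeckePoly A)}
    {e : Module.End A (heckeH1 Φ M h)} (he : IsLocalIdem (heckeAct Φ h) m e)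
    (hEis : ∃ ℓ : Nat.Primes, (X ℓ - C (eisensteinValue Φ M ℓ) : HeckePoly A) ∉ m)
    {ι : Type*} (b : Module.Basis ι A (LinearMap.range e)) :
    LinearIndependent A' fun i => heckeBaseChange Φ f h (b i) := by
  obtain ⟨ℓ, hℓ⟩ := hEis
  exact linearIndependent_heckeBaseChange_of h hcov f he (heckeAct_X (Φ := Φ) h ℓ) hℓ b

end Fermat.Agent.RT.TW

end
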