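import Fermat.Agent.RT.TW.TwistedHecke

/-!
# Transfer operators between twisted cohomology groups with unrelated characters

A `MixedFamily χ₁ χ₂ ι` consists of integral matrices `M i` with weights `w i` together with, for
each `γ ∈ Γ₂`, a multiplicative choice `M i * γ = g i * M (σ i)` with
`w i * χ₁ (g i) = χ₂ γ * w (σ i)`. Composites are again such families. If the cosets of a family
collapse along `e` onto those of a family with distinct cosets, the operators on `H¹` agree as soon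
as the weights add up along the fibres.
-/

set_option autoImplicit false

noncomputable section

namespace Fermat.Agent.RT.TW

open scoped MatrixGroups
open Periods

variable {A : Type*} [CommRing A] {Γ₁ Γ₂ Γ₃ : Subgroup SL(2, ℤ)}

/-- A weighted family of matrices with a multiplicative step. -/
structure MixedFamily (χ₁ : Γ₁ →* Aˣ) (χ₂ : Γ₂ →* Aˣ) (ι : Type*) where
  /-- the matrices -/
  mat : ι → IntMat
  /-- the weights -/
  wt : ι → A
  /-- the permutation -/
  perm : Γ₂ → Equiv.Perm ι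
  /-- the group elements -/
  elt : Γ₂ → ι → Γ₁
  perm_mul : ∀ g h i, perm (g * h) i = perm h (perm g i)
  elt_mul : ∀ g h i, elt (g * h) i = elt g i * elt h (perm g i)
  step : ∀ γ i, mat i * gammaMat γ = gammaMat (elt γ i) * mat (perm γ i)
  wt_step : ∀ γ i, wt i * (χ₁ (elt γ i) : A) = (χ₂ γ : A) * wt (perm γ i)

/-- A family of matrices in distinct left cosets of `Γ₁`. -/
def IsSepFamily (Γ₁ : Subgroup SL(2, ℤ)) {ι : Type*} (mat : ι → IntMat) : Prop :=
  (∀ i, (mat i).det ≠ 0) ∧ ∀ i j (g : Γ₁), mat i = gammaMat g * mat j → i = j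

theorem IsSepFamily.unique {ι : Type*} {mat : ι → IntMat} (h : IsSepFamily Γ₁ mat) {X : IntMat}
    {j j' : ι} {g g' : Γ₁} (e : X = gammaMat g * mat j) (e' : X = gammaMat g' * mat j') :
    j = j' ∧ g = g' := by
  have ee : gammaMat g * mat j = gammaMat g' * mat j' := e.symm.trans e'
  have hj : j = j' := h.2 _ _ (g⁻¹ * g') (by
    rw [gammaMat_mul, Matrix.mul_assoc, ← ee, ← Matrix.mul_assoc, ← gammaMat_mul, inv_mul_cancel,
      gammaMat_one, Matrix.one_mul])
  subst hj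
  exact ⟨rfl, gammaMat_injective (intMat_mul_right_cancel (h.1 j) ee)⟩

theorem IsSepFamily.eq_of_step {ι : Type*} {mat : ι → IntMat} (h : IsSepFamily Γ₁ mat) {γ : Γ₂}
    {a b j : ι} {g g' : Γ₁} (ha : mat a * gammaMat γ = gammaMat g * mat j)
    (hb : mat b * gammaMat γ = gammaMat g' * mat j) : a = b := by
  refine h.2 a b (g * g'⁻¹) (intMat_mul_right_cancel (M := gammaMat γ)
    (by rw [gammaMat_det]; exact one_ne_zero) ?_)
  rw [Matrix.mul_assoc, hb, ← Matrix.mul_assoc, ← gammaMat_mul, inv_mul_cancel_right, ha]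

theorem step_comp_mixed {ι : Type*} {mat : ι → IntMat} {γ δ : Γ₂} {g h : Γ₁} {i j k : ι}
    (h₁ : mat i * gammaMat γ = gammaMat g * mat j) (h₂ : mat j * gammaMat δ = gammaMat h * mat k) :
    mat i * gammaMat (γ * δ) = gammaMat (g * h) * mat k := by
  rw [gammaMat_mul, gammaMat_mul, ← Matrix.mul_assoc, h₁, Matrix.mul_assoc, h₂, Matrix.mul_assoc]

namespace MixedFamily

variable {χ₁ : Γ₁ →* Aˣ} {χ₂ : Γ₂ →* Aˣ} {χ₃ : Γ₃ →* Aˣ} {ι κ : Type*}

/-- The family attached to matrices in distinct cosets, stable under `Γ₂`. -/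
def ofSep [Finite ι] (mat : ι → IntMat) (wt : ι → A) (hsep : IsSepFamily Γ₁ mat)
    (hstep : ∀ (γ : Γ₂) (i : ι), ∃ (j : ι) (g : Γ₁), mat i * gammaMat γ = gammaMat g * mat j ∧
      wt i * (χ₁ g : A) = (χ₂ γ : A) * wt j) : MixedFamily χ₁ χ₂ ι :=
  have hs : ∀ γ i, mat i * gammaMat γ =
      gammaMat (hstep γ i).choose_spec.choose * mat (hstep γ i).choose :=
    fun γ i => (hstep γ i).choose_spec.choose_spec.1
  have hbij : ∀ γ : Γ₂, Function.Bijective fun i => (hstep γ i).choose := fun γ =>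
    Finite.injective_iff_bijective.1 fun a b hab => hsep.eq_of_step
      ((hs γ a).trans (congrArg (fun j => gammaMat (hstep γ a).choose_spec.choose * mat j) hab))
      (hs γ b)
  have hcomp : ∀ γ δ i, mat i * gammaMat (γ * δ) = gammaMat ((hstep γ i).choose_spec.choose *
      (hstep δ (hstep γ i).choose).choose_spec.choose) *
        mat (hstep δ (hstep γ i).choose).choose :=
    fun γ δ i => step_comp_mixed (hs γ i) (hs δ _)
  { mat := mat
    wt := wt
    perm := fun γ => Equiv.ofBijective _ (hbij γ)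
    elt := fun γ i => (hstep γ i).choose_spec.choose
    perm_mul := fun γ δ i => (hsep.unique (hs (γ * δ) i) (hcomp γ δ i)).1
    elt_mul := fun γ δ i => (hsep.unique (hs (γ * δ) i) (hcomp γ δ i)).2
    step := hs
    wt_step := fun γ i => (hstep γ i).choose_spec.choose_spec.2 }

@[simp] theorem ofSep_mat [Finite ι] (mat : ι → IntMat) (wt : ι → A) (hsep : IsSepFamily Γ₁ mat)
    (hstep : ∀ (γ : Γ₂) (i : ι), ∃ (j : ι) (g : Γ₁), mat i * gammaMat γ = gammaMat g * mat j ∧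
      wt i * (χ₁ g : A) = (χ₂ γ : A) * wt j) :
    (ofSep mat wt hsep hstep).mat = mat := rfl

@[simp] theorem ofSep_wt [Finite ι] (mat : ι → IntMat) (wt : ι → A) (hsep : IsSepFamily Γ₁ mat)
    (hstep : ∀ (γ : Γ₂) (i : ι), ∃ (j : ι) (g : Γ₁), mat i * gammaMat γ = gammaMat g * mat j ∧
      wt i * (χ₁ g : A) = (χ₂ γ : A) * wt j) :
    (ofSep mat wt hsep hstep).wt = wt := rfl

variable [Fintype ι] [Fintype κ]

/-- The operator on cocycles. -/
def op (D : MixedFamily χ₁ χ₂ ι) : twistedCocycles χ₁ →ₗ[A] twistedCocycles χ₂ where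
  toFun c := ⟨fun γ => ∑ i, D.wt i * (c : Γ₁ → A) (D.elt γ i), fun γ δ => by
    show ∑ i, D.wt i * (c : Γ₁ → A) (D.elt (γ * δ) i) = _
    have e : ∀ i, D.wt i * (c : Γ₁ → A) (D.elt (γ * δ) i)
        = D.wt i * (c : Γ₁ → A) (D.elt γ i) + (χ₂ γ : A) *
          (D.wt (D.perm γ i) * (c : Γ₁ → A) (D.elt δ (D.perm γ i))) := fun i => by
      rw [D.elt_mul, twistedCocycle_mul]
      linear_combination (c : Γ₁ → A) (D.elt δ (D.perm γ i)) * D.wt_step γ i
    rw [Finset.sum_congr rfl fun i _ => e i, Finset.sum_add_distrib, ← Finset.mul_sum,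
      Equiv.sum_comp (D.perm γ) (fun i => D.wt i * (c : Γ₁ → A) (D.elt δ i))]⟩
  map_add' c d := Subtype.ext (funext fun g => by simp [mul_add, Finset.sum_add_distrib])
  map_smul' a c := Subtype.ext (funext fun g => by simp [Finset.mul_sum, mul_left_comm])

theorem op_apply (D : MixedFamily χ₁ χ₂ ι) (c : twistedCocycles χ₁) (γ : Γ₂) :
    (D.op c : Γ₂ → A) γ = ∑ i, D.wt i * (c : Γ₁ → A) (D.elt γ i) := rfl

/-- On coboundaries: multiplication by the total weight. -/
theorem op_coboundary (D : MixedFamily χ₁ χ₂ ι) (x : A) :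
    D.op (coboundary χ₁ x) = coboundary χ₂ ((∑ i, D.wt i) * x) := by
  refine Subtype.ext (funext fun γ => ?_)
  simp only [op_apply, coboundary_apply]
  have e : ∀ i, D.wt i * (((χ₁ (D.elt γ i) : A) - 1) * x) =
      (χ₂ γ : A) * x * D.wt (D.perm γ i) - x * D.wt i := fun i => by
    linear_combination x * D.wt_step γ i
  rw [Finset.sum_congr rfl fun i _ => e i, Finset.sum_sub_distrib, ← Finset.mul_sum,
    ← Finset.mul_sum, Equiv.sum_comp (D.perm γ) D.wt]
  ring

/-- The operator on cohomology. -/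
def opH1 (D : MixedFamily χ₁ χ₂ ι) : twistedH1 χ₁ →ₗ[A] twistedH1 χ₂ :=
  Submodule.mapQ _ _ D.op (by
    rintro _ ⟨x, rfl⟩
    exact ⟨_, (D.op_coboundary x).symm⟩)

theorem opH1_toH1 (D : MixedFamily χ₁ χ₂ ι) (c : twistedCocycles χ₁) :
    D.opH1 (toH1 χ₁ c) = toH1 χ₂ (D.op c) := rfl

/-- The composite family: `D` first, then `E`. -/
def comp (D : MixedFamily χ₁ χ₂ ι) (E : MixedFamily χ₂ χ₃ κ) : MixedFamily χ₁ χ₃ (ι × κ) where
  mat x := D.mat x.1 * E.mat x.2
  wt x := D.wt x.1 * E.wt x.2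
  perm γ :=
    { toFun := fun x => (D.perm (E.elt γ x.2) x.1, E.perm γ x.2)
      invFun := fun y =>
        ((D.perm (E.elt γ ((E.perm γ).symm y.2))).symm y.1, (E.perm γ).symm y.2)
      left_inv := fun x => by simp
      right_inv := fun y => by simp }
  elt γ x := D.elt (E.elt γ x.2) x.1
  perm_mul g h x := by
    show (D.perm (E.elt (g * h) x.2) x.1, E.perm (g * h) x.2) = _
    rw [E.elt_mul, E.perm_mul, D.perm_mul]
    rfl
  elt_mul g h x := by
    show D.elt (E.elt (g * h) x.2) x.1 = _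
    rw [E.elt_mul, D.elt_mul]
    rfl
  step γ x := by
    show D.mat x.1 * E.mat x.2 * gammaMat γ = _
    rw [Matrix.mul_assoc, E.step, ← Matrix.mul_assoc, D.step, Matrix.mul_assoc]
    rfl
  wt_step γ x := by
    show D.wt x.1 * E.wt x.2 * (χ₁ (D.elt (E.elt γ x.2) x.1) : A) =
      (χ₃ γ : A) * (D.wt (D.perm (E.elt γ x.2) x.1) * E.wt (E.perm γ x.2))
    linear_combination E.wt x.2 * D.wt_step (E.elt γ x.2) x.1 +
      D.wt (D.perm (E.elt γ x.2) x.1) * E.wt_step γ x.2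

omit [Fintype ι] [Fintype κ] in
@[simp] theorem comp_mat (D : MixedFamily χ₁ χ₂ ι) (E : MixedFamily χ₂ χ₃ κ) (x : ι × κ) :
    (D.comp E).mat x = D.mat x.1 * E.mat x.2 := rfl

omit [Fintype ι] [Fintype κ] in
@[simp] theorem comp_wt (D : MixedFamily χ₁ χ₂ ι) (E : MixedFamily χ₂ χ₃ κ) (x : ι × κ) :
    (D.comp E).wt x = D.wt x.1 * E.wt x.2 := rfl

theorem op_comp (D : MixedFamily χ₁ χ₂ ι) (E : MixedFamily χ₂ χ₃ κ) :
    E.op ∘ₗ D.op = (D.comp E).op := by
  refine LinearMap.ext fun c => Subtype.ext (funext fun γ => ?_)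
  rw [LinearMap.comp_apply, op_apply, op_apply, Fintype.sum_prod_type_right]
  refine Finset.sum_congr rfl fun k _ => ?_
  rw [op_apply, Finset.mul_sum]
  refine Finset.sum_congr rfl fun i _ => ?_
  show _ = D.wt i * E.wt k * (c : Γ₁ → A) (D.elt (E.elt γ k) i)
  ring

theorem opH1_comp (D : MixedFamily χ₁ χ₂ ι) (E : MixedFamily χ₂ χ₃ κ) :
    E.opH1 ∘ₗ D.opH1 = (D.comp E).opH1 := by
  refine LinearMap.ext fun y => ?_
  obtain ⟨c, rfl⟩ := Submodule.mkQ_surjective _ y
  show toH1 χ₃ ((E.op ∘ₗ D.op) c) = _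
  rw [op_comp]
  rfl

/-- Moving every representative by `δ i` changes the operator by a coboundary. -/
theorem opH1_toH1_eq_of_shift (D : MixedFamily χ₁ χ₂ ι) (δ : ι → Γ₁) (c : twistedCocycles χ₁)
    (d : twistedCocycles χ₂) (hd : ∀ γ, (d : Γ₂ → A) γ = ∑ i, D.wt i * (χ₁ (δ i) : A) *
      (c : Γ₁ → A) ((δ i)⁻¹ * D.elt γ i * δ (D.perm γ i))) :
    D.opH1 (toH1 χ₁ c) = toH1 χ₂ d := by
  refine (Submodule.Quotient.eq _).2 ⟨-(∑ i, D.wt i * (c : Γ₁ → A) (δ i)), ?_⟩
  refine Subtype.ext (funext fun γ => ?_)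
  simp only [coboundary_apply, AddSubgroupClass.coe_sub, Pi.sub_apply, op_apply, hd]
  have key : ∀ i, D.wt i * (c : Γ₁ → A) (D.elt γ i) = D.wt i * (c : Γ₁ → A) (δ i)
      + D.wt i * (χ₁ (δ i) : A) * (c : Γ₁ → A) ((δ i)⁻¹ * D.elt γ i * δ (D.perm γ i))
      - (χ₂ γ : A) * (D.wt (D.perm γ i) * (c : Γ₁ → A) (δ (D.perm γ i))) := fun i => by
    have hE : D.elt γ i =
        δ i * ((δ i)⁻¹ * D.elt γ i * δ (D.perm γ i)) * (δ (D.perm γ i))⁻¹ := by group
    set u := (δ i)⁻¹ * D.elt γ i * δ (D.perm γ i)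
    have hw := D.wt_step γ i
    rw [hE, map_mul, map_mul, Units.val_mul, Units.val_mul, map_inv] at hw
    rw [hE, twistedCocycle_mul, twistedCocycle_mul, map_mul, Units.val_mul]
    have hu' : (χ₁ (δ (D.perm γ i)) : A) * (((χ₁ (δ (D.perm γ i)))⁻¹ : Aˣ) : A) = 1 := by simp
    linear_combination (χ₁ (δ (D.perm γ i)) : A) * (c : Γ₁ → A) (δ (D.perm γ i))⁻¹ * hw
      + (χ₂ γ : A) * D.wt (D.perm γ i) * twistedCocycle_inv c (δ (D.perm γ i))
      - D.wt i * (χ₁ (δ i) : A) * (χ₁ u : A) * (c : Γ₁ → A) (δ (D.perm γ i))⁻¹ * hu'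
  rw [Finset.sum_congr rfl fun i _ => key i, Finset.sum_sub_distrib, Finset.sum_add_distrib,
    ← Finset.mul_sum, Equiv.sum_comp (D.perm γ) (fun i => D.wt i * (c : Γ₁ → A) (δ i))]
  ring

omit [Fintype ι] [Fintype κ] in
theorem shift_step (D : MixedFamily χ₁ χ₂ ι) {P : κ → IntMat} {e : ι → κ} {δ : ι → Γ₁}
    (hmat : ∀ i, D.mat i = gammaMat (δ i) * P (e i)) (γ : Γ₂) (i : ι) :
    P (e i) * gammaMat γ =
      gammaMat ((δ i)⁻¹ * D.elt γ i * δ (D.perm γ i)) * P (e (D.perm γ i)) := by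
  have h : gammaMat (δ i) * (P (e i) * gammaMat γ) =
      gammaMat (D.elt γ i * δ (D.perm γ i)) * P (e (D.perm γ i)) := by
    rw [← Matrix.mul_assoc, ← hmat, D.step, hmat (D.perm γ i), ← Matrix.mul_assoc, ← gammaMat_mul]
  rw [mul_assoc, gammaMat_mul, Matrix.mul_assoc, ← h, ← Matrix.mul_assoc, ← gammaMat_mul,
    inv_mul_cancel, gammaMat_one, Matrix.one_mul]

/-- If the cosets of `D` collapse along `e` onto distinct cosets of `E` and the weights add up to
those of `E`, the two operators agree on cohomology. -/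
theorem opH1_eq_of_collapse (D : MixedFamily χ₁ χ₂ ι) (E : MixedFamily χ₁ χ₂ κ)
    [DecidableEq κ] (hsep : IsSepFamily Γ₁ E.mat) (e : ι → κ) (δ : ι → Γ₁)
    (hmat : ∀ i, D.mat i = gammaMat (δ i) * E.mat (e i))
    (hwt : ∀ k, ∑ i ∈ Finset.univ.filter (fun i => e i = k), D.wt i * (χ₁ (δ i) : A) = E.wt k) :
    D.opH1 = E.opH1 := by
  refine LinearMap.ext fun y => ?_
  obtain ⟨c, rfl⟩ := Submodule.mkQ_surjective _ y
  refine D.opH1_toH1_eq_of_shift δ c (E.op c) fun γ => ?_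
  rw [op_apply, ← Finset.sum_fiberwise Finset.univ e]
  refine Finset.sum_congr rfl fun k _ => ?_
  rw [← hwt k, Finset.sum_mul]
  refine Finset.sum_congr rfl fun i hi => ?_
  rw [← (hsep.unique (D.shift_step hmat γ i) (E.step γ (e i))).2.symm, (Finset.mem_filter.1 hi).2]

omit [Fintype κ] in
/-- A family all of whose fibres have total weight zero gives zero. -/
theorem opH1_eq_zero_of_collapse (D : MixedFamily χ₁ χ₂ ι) [DecidableEq κ] {P : κ → IntMat}
    (hsep : IsSepFamily Γ₁ P) (e : ι → κ) (δ : ι → Γ₁)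
    (hmat : ∀ i, D.mat i = gammaMat (δ i) * P (e i))
    (hwt : ∀ k, ∑ i ∈ Finset.univ.filter (fun i => e i = k), D.wt i * (χ₁ (δ i) : A) = 0) :
    D.opH1 = 0 := by
  refine LinearMap.ext fun y => ?_
  obtain ⟨c, rfl⟩ := Submodule.mkQ_surjective _ y
  rw [LinearMap.zero_apply, D.opH1_toH1_eq_of_shift δ c 0 fun γ => ?_, map_zero]
  have hzero : ∀ k ∈ Finset.univ.image e, ∑ i ∈ Finset.univ.filter (fun i => e i = k),
      D.wt i * (χ₁ (δ i) : A) * (c : Γ₁ → A) ((δ i)⁻¹ * D.elt γ i * δ (D.perm γ i)) = 0 := by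
    intro k hk
    obtain ⟨i₀, -, rfl⟩ := Finset.mem_image.1 hk
    rw [Finset.sum_congr rfl (g := fun i => D.wt i * (χ₁ (δ i) : A) *
      (c : Γ₁ → A) ((δ i₀)⁻¹ * D.elt γ i₀ * δ (D.perm γ i₀))) fun i hi => ?_,
      ← Finset.sum_mul, hwt, zero_mul]
    have h1 := D.shift_step hmat γ i
    rw [(Finset.mem_filter.1 hi).2] at h1
    rw [(hsep.unique h1 (D.shift_step hmat γ i₀)).2]
  rw [← Finset.sum_fiberwise_of_maps_to (g := e) (t := Finset.univ.image e)
    (fun i _ => Finset.mem_image_of_mem e (Finset.mem_univ i)), Finset.sum_eq_zero hzero]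
  rfl

omit [Fintype κ] in
/-- A family whose fibres have weight zero off one central class acts as a scalar. -/
theorem opH1_eq_smul_of_collapse {Γ : Subgroup SL(2, ℤ)} {χ : Γ →* Aˣ} [DecidableEq κ]
    (D : MixedFamily χ χ ι) {P : κ → IntMat} (hsep : IsSepFamily Γ P) (k₀ : κ)
    (hcomm : ∀ γ : Γ, P k₀ * gammaMat γ = gammaMat γ * P k₀) (e : ι → κ) (δ : ι → Γ)
    (hmat : ∀ i, D.mat i = gammaMat (δ i) * P (e i)) (a : A)
    (hwt : ∀ k, ∑ i ∈ Finset.univ.filter (fun i => e i = k), D.wt i * (χ (δ i) : A) =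
      if k = k₀ then a else 0) :
    D.opH1 = a • LinearMap.id := by
  refine LinearMap.ext fun y => ?_
  obtain ⟨c, rfl⟩ := Submodule.mkQ_surjective _ y
  rw [LinearMap.smul_apply, LinearMap.id_apply, D.opH1_toH1_eq_of_shift δ c (a • c) fun γ => ?_,
    map_smul]
  show a * (c : Γ → A) γ = _
  symm
  have hval : ∀ k ∈ Finset.univ.image e, ∑ i ∈ Finset.univ.filter (fun i => e i = k),
      D.wt i * (χ (δ i) : A) * (c : Γ → A) ((δ i)⁻¹ * D.elt γ i * δ (D.perm γ i)) =
      if k = k₀ then a * (c : Γ → A) γ else 0 := by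
    intro k hk
    obtain ⟨i₀, -, rfl⟩ := Finset.mem_image.1 hk
    rw [Finset.sum_congr rfl (g := fun i => D.wt i * (χ (δ i) : A) *
      (c : Γ → A) ((δ i₀)⁻¹ * D.elt γ i₀ * δ (D.perm γ i₀))) fun i hi => ?_, ← Finset.sum_mul, hwt]
    · split_ifs with hk0
      · have h1 := D.shift_step hmat γ i₀
        rw [hk0] at h1
        rw [(hsep.unique h1 (hcomm γ)).2]
      · rw [zero_mul]
    · have h1 := D.shift_step hmat γ i
      rw [(Finset.mem_filter.1 hi).2] at h1
      rw [(hsep.unique h1 (D.shift_step hmat γ i₀)).2]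
  rw [← Finset.sum_fiberwise_of_maps_to (g := e) (t := Finset.univ.image e)
    (fun i _ => Finset.mem_image_of_mem e (Finset.mem_univ i)), Finset.sum_congr rfl hval,
    Finset.sum_ite_eq']
  split_ifs with hk0
  · rfl
  · have h0 := hwt k₀
    have hemp : Finset.univ.filter (fun i => e i = k₀) = ∅ := Finset.filter_false_of_mem fun i _ h =>
      hk0 (by rw [← h]; exact Finset.mem_image_of_mem e (Finset.mem_univ i))
    rw [hemp, Finset.sum_empty, if_pos rfl] at h0
    rw [← h0, zero_mul]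

omit [Fintype ι] [Fintype κ] in
/-- Scaling the weights. -/
def scale (a : A) (D : MixedFamily χ₁ χ₂ ι) : MixedFamily χ₁ χ₂ ι where
  mat := D.mat
  wt i := a * D.wt i
  perm := D.perm
  elt := D.elt
  perm_mul := D.perm_mul
  elt_mul := D.elt_mul
  step := D.step
  wt_step γ i := by linear_combination a * D.wt_step γ i

theorem opH1_scale (a : A) (D : MixedFamily χ₁ χ₂ ι) : (D.scale a).opH1 = a • D.opH1 := by
  refine LinearMap.ext fun y => ?_
  obtain ⟨c, rfl⟩ := Submodule.mkQ_surjective _ y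
  show toH1 χ₂ ((D.scale a).op c) = a • toH1 χ₂ (D.op c)
  rw [← map_smul]
  refine congrArg _ (Subtype.ext (funext fun γ => ?_))
  simp [scale, op_apply, Finset.mul_sum, mul_assoc]

end MixedFamily

end Fermat.Agent.RT.TW

end
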