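import Mathlib.Analysis.Complex.UpperHalfPlane.MoebiusAction
import Mathlib.GroupTheory.CoprodI
import Mathlib.GroupTheory.FreeGroup.NielsenSchreier
import Mathlib.GroupTheory.Finiteness
import Mathlib.GroupTheory.Schreier
import Mathlib.Data.Finsupp.Basic
import Mathlib.Data.ZMod.Basic
import Mathlib.LinearAlgebra.Matrix.FixedDetMatrices
import Mathlib.GroupTheory.SemidirectProduct
import Mathlib.GroupTheory.OrderOfElement
import Mathlib.NumberTheory.Modular

/-!
# Torsion-free subgroups of `SL(2, ℤ)` are free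

`PSL(2, ℤ)` is the free product of a cyclic group of order two and one of order three
(ping-pong on the upper half plane); a subgroup meeting no conjugate of the two generators is
then free, by lifting its Schreier cocycle to a free group and Nielsen–Schreier.
-/

set_option autoImplicit false

noncomputable section

namespace Fermat.Agent.RT.TW

open scoped MatrixGroups Pointwise

section Abstract

variable {G : Type} [Group G]

/-- `G` behaves like the free product `⟨s⟩ * ⟨u⟩` with `s² = 1`, `u³ = 1`. -/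
structure IsTwoThreeGroup (s u : G) : Prop where
  sq : s ^ 2 = 1
  cube : u ^ 3 = 1
  closure_eq_top : Subgroup.closure ({s, u} : Set G) = ⊤
  exists_lift : ∀ (H : Type) [Group H] (a b : H), a ^ 2 = 1 → b ^ 3 = 1 →
    ∃ f : G →* H, f s = a ∧ f u = b

/-- The orbit setoid of a permutation of order dividing `n`. -/
theorem exists_orbit_base {α : Type*} (σ : Equiv.Perm α) :
    ∃ b : α → α, ∀ x, b (σ x) = b x ∧ ∃ k : ℤ, (σ ^ k) x = b x := by
  classical
  refine ⟨fun x => @Quotient.out _ (Equiv.Perm.SameCycle.setoid σ) ⟦x⟧, fun x => ⟨?_, ?_⟩⟩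
  · exact congrArg (@Quotient.out _ (Equiv.Perm.SameCycle.setoid σ))
      (Quotient.sound (s := Equiv.Perm.SameCycle.setoid σ)
        (Equiv.Perm.sameCycle_apply_left.2 (Equiv.Perm.SameCycle.refl σ x)))
  · exact (@Quotient.mk_out _ (Equiv.Perm.SameCycle.setoid σ) x).symm

variable {F : Type} [Group F]

/-- For an involution without fixed points, a map with `k x * k (σ x) = 1` lifts. -/
theorem exists_lift_involution {α : Type*} (π : F →* G) (hπ : Function.Surjective π)
    (σ : Equiv.Perm α) (hσ : ∀ x, σ (σ x) = x) (hfix : ∀ x, σ x ≠ x) (k : α → G)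
    (hk : ∀ x, k x * k (σ x) = 1) :
    ∃ f : α → F, (∀ x, π (f x) = k x) ∧ ∀ x, f x * f (σ x) = 1 := by
  classical
  obtain ⟨b, hb⟩ := exists_orbit_base σ
  choose l hl using hπ
  set f : α → F := fun x => if b x = x then l (k x) else (l (k (σ x)))⁻¹
  have hor : ∀ x, b x = x ∨ b x = σ x := by
    intro x
    obtain ⟨k, hk⟩ := (hb x).2
    rw [← hk]
    have h2 : σ ^ (2 : ℤ) = 1 := by
      rw [zpow_two]; ext y; exact hσ y
    rcases Int.emod_two_eq_zero_or_one k with h | h
    · left; rw [← Int.mul_ediv_add_emod k 2, h, add_zero, zpow_mul, h2, one_zpow]; rfl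
    · right; rw [← Int.mul_ediv_add_emod k 2, h, zpow_add, zpow_mul, h2, one_zpow, one_mul,
        zpow_one]
  refine ⟨f, fun x => ?_, fun x => ?_⟩
  · by_cases h : b x = x
    · simp [f, h, hl]
    · simp only [f, if_neg h, map_inv, hl]
      exact inv_eq_of_mul_eq_one_left (hk x)
  · rcases hor x with h | h
    · have h' : b (σ x) ≠ σ x := by rw [(hb x).1, h]; exact (hfix x).symm
      simp [f, h, h', hσ]
    · have h' : b (σ x) = σ x := by rw [(hb x).1, h]
      have h'' : b x ≠ x := by rw [h]; exact hfix x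
      simp [f, h'', h']

/-- For a fixed point free permutation with `τ³ = 1`, a map with `k x * k (τ x) * k (τ² x) = 1`
lifts. -/
theorem exists_lift_order_three {α : Type*} (π : F →* G) (hπ : Function.Surjective π)
    (τ : Equiv.Perm α) (hτ : ∀ x, τ (τ (τ x)) = x) (hfix : ∀ x, τ x ≠ x) (k : α → G)
    (hk : ∀ x, k x * k (τ x) * k (τ (τ x)) = 1) :
    ∃ f : α → F, (∀ x, π (f x) = k x) ∧ ∀ x, f x * f (τ x) * f (τ (τ x)) = 1 := by
  classical
  obtain ⟨b, hb⟩ := exists_orbit_base τ
  choose l hl using hπ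
  set f : α → F := fun x =>
    if b x = x then l (k x) else if b x = τ (τ x) then l (k x)
    else (l (k (τ x)) * l (k (τ (τ x))))⁻¹
  have hor : ∀ x, b x = x ∨ b x = τ x ∨ b x = τ (τ x) := by
    intro x
    obtain ⟨k, hk⟩ := (hb x).2
    rw [← hk]
    have h3 : τ ^ (3 : ℤ) = 1 := by
      rw [show (3 : ℤ) = ((3 : ℕ) : ℤ) from rfl, zpow_natCast, pow_succ, pow_two]
      ext y; exact hτ y
    rw [← Int.mul_ediv_add_emod k 3, zpow_add, zpow_mul, h3, one_zpow, one_mul]
    obtain h | h | h : k % 3 = 0 ∨ k % 3 = 1 ∨ k % 3 = 2 := by omega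
    · left; rw [h, zpow_zero]; rfl
    · right; left; rw [h, zpow_one]
    · right; right; rw [h, zpow_two]; rfl
  refine ⟨f, fun x => ?_, fun x => ?_⟩
  · simp only [f]
    split_ifs
    · exact hl _
    · exact hl _
    · rw [map_inv, map_mul, hl, hl, inv_eq_iff_mul_eq_one, ← hk (τ x), hτ]
  · have f2 : ∀ y, τ (τ y) ≠ y := fun y h => hfix y (by
      nth_rewrite 1 [← h]
      rw [hτ])
    have b1 : b (τ x) = b x := (hb x).1
    have b2 : b (τ (τ x)) = b x := ((hb (τ x)).1).trans b1
    rcases hor x with h | h | h <;>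
      simp [f, b1, b2, h, hτ, hfix x, (hfix x).symm, f2 x, (f2 x).symm, hfix (τ x),
        (hfix (τ x)).symm, mul_assoc]

/-- A subgroup of a two-three group meeting no conjugate of `s` or `u` is free. -/
theorem isFreeGroup_of_fixedPointFree {s u : G} (h : IsTwoThreeGroup s u) (Γ : Subgroup G)
    (hs : ∀ g : G, g⁻¹ * s * g ∉ Γ) (hu : ∀ g : G, g⁻¹ * u * g ∉ Γ) : IsFreeGroup Γ := by
  classical
  let r : G ⧸ Γ → G := fun x => if x = QuotientGroup.mk 1 then 1 else Quotient.out x
  have hr : ∀ x : G ⧸ Γ, QuotientGroup.mk (r x) = x := fun x => by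
    by_cases hx : x = QuotientGroup.mk 1
    · simp [r, hx]
    · simp [r, hx, QuotientGroup.out_eq']
  have hmem : ∀ (g : G) (x : G ⧸ Γ), (r x)⁻¹ * g * r (g⁻¹ • x) ∈ Γ := fun g x => by
    rw [mul_assoc, ← QuotientGroup.eq, hr, ← smul_eq_mul g, ← MulAction.Quotient.smul_coe Γ g, hr, smul_inv_smul]
  let k : G → (G ⧸ Γ) → Γ := fun g x => ⟨_, hmem g x⟩
  have kmul : ∀ g g' x, k (g * g') x = k g x * k g' (g⁻¹ • x) := fun g g' x => by
    apply Subtype.ext
    simp only [k, Subgroup.coe_mul, mul_inv_rev, mul_smul]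
    group
  have kone : ∀ x, k 1 x = 1 := fun x => by
    apply Subtype.ext
    show (r x)⁻¹ * 1 * r ((1 : G)⁻¹ • x) = 1
    rw [inv_one, one_smul]
    group
  let π : FreeGroup Γ →* Γ := FreeGroup.lift id
  have hπ : Function.Surjective π := fun g => ⟨FreeGroup.of g, by simp [π]⟩
  let ρ : G →* Equiv.Perm (G ⧸ Γ) := MulAction.toPermHom G (G ⧸ Γ)
  have ρ_apply : ∀ g x, ρ g x = g • x := fun _ _ => rfl
  have fixfree : ∀ g : G, (∀ a : G, a⁻¹ * g * a ∉ Γ) → ∀ x : G ⧸ Γ, g • x ≠ x := by
    intro g hg x hx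
    obtain ⟨a, rfl⟩ := QuotientGroup.mk_surjective x
    rw [MulAction.Quotient.smul_coe, eq_comm, QuotientGroup.eq, smul_eq_mul] at hx
    exact hg a (by rwa [← mul_assoc] at hx)
  -- lifts of the cocycle on the generators
  obtain ⟨fs, hfs, hfs'⟩ := exists_lift_involution (G := Γ) π hπ (ρ s)⁻¹
    (fun x => by
      show (ρ s)⁻¹ ((ρ s)⁻¹ x) = x
      rw [← Equiv.Perm.mul_apply, ← mul_inv_rev, ← map_mul, ← sq, h.sq, map_one, inv_one]; rfl)
    (fun x hx => fixfree s hs x (by
      have := Equiv.Perm.inv_eq_iff_eq.1 hx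
      rw [ρ_apply] at this
      exact this.symm))
    (k s) (fun x => by
      rw [← map_inv, ρ_apply, ← kmul, ← sq, h.sq, kone])
  obtain ⟨fu, hfu, hfu'⟩ := exists_lift_order_three (G := Γ) π hπ (ρ u)⁻¹
    (fun x => by
      show (ρ u)⁻¹ ((ρ u)⁻¹ ((ρ u)⁻¹ x)) = x
      rw [← Equiv.Perm.mul_apply, ← Equiv.Perm.mul_apply, ← mul_inv_rev, ← mul_inv_rev, ← map_mul,
        ← map_mul, ← sq, ← pow_succ', h.cube, map_one, inv_one]; rfl)
    (fun x hx => fixfree u hu x (by
      have := Equiv.Perm.inv_eq_iff_eq.1 hx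
      rw [ρ_apply] at this
      exact this.symm))
    (k u) (fun x => by
      rw [← map_inv, ρ_apply, ρ_apply, ← kmul, ← mul_smul, ← mul_inv_rev, ← kmul, ← sq,
        ← pow_succ, h.cube, kone])
  letI := arrowMulDistribMulAction (G := Equiv.Perm (G ⧸ Γ)) (A := G ⧸ Γ) (M := FreeGroup Γ)
  let φF : Equiv.Perm (G ⧸ Γ) →* MulAut ((G ⧸ Γ) → FreeGroup Γ) := mulAutArrow
  have mulF : ∀ (a b : (G ⧸ Γ → FreeGroup Γ) ⋊[φF] Equiv.Perm (G ⧸ Γ)) (x : G ⧸ Γ),
      (a * b).left x = a.left x * b.left (a.right⁻¹ x) := fun _ _ _ => rfl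
  obtain ⟨ψ, hψs, hψu⟩ := h.exists_lift
    ((G ⧸ Γ → FreeGroup Γ) ⋊[φF] Equiv.Perm (G ⧸ Γ)) ⟨fs, ρ s⟩ ⟨fu, ρ u⟩
    (SemidirectProduct.ext (funext fun x => by
        rw [sq, mulF]; exact hfs' x)
      (by rw [← SemidirectProduct.rightHom_eq_right, map_pow]
          show ρ s ^ 2 = 1
          rw [← map_pow, h.sq, map_one]))
    (SemidirectProduct.ext (funext fun x => by
        rw [pow_succ, sq, mulF, mulF]
        show fu x * fu ((ρ u)⁻¹ x) * fu ((ρ u * ρ u)⁻¹ x) = 1
        rw [mul_inv_rev]; exact hfu' x)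
      (by rw [← SemidirectProduct.rightHom_eq_right, map_pow]
          show ρ u ^ 3 = 1
          rw [← map_pow, h.cube, map_one]))
  have key : ∀ g : G, (ψ g).right = ρ g ∧ ∀ x, π ((ψ g).left x) = k g x := by
    let Gs : Subgroup G :=
      { carrier := {g | (ψ g).right = ρ g ∧ ∀ x, π ((ψ g).left x) = k g x}
        one_mem' := ⟨by simp, fun x => by simp [kone]⟩
        mul_mem' := by
          rintro a b ⟨ha, ha'⟩ ⟨hb, hb'⟩
          refine ⟨by simp [ha, hb], fun x => ?_⟩
          rw [map_mul, mulF, map_mul, ha', hb', kmul, ha, ← map_inv, ρ_apply]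
        inv_mem' := by
          rintro a ⟨ha, ha'⟩
          refine ⟨by simp [ha], fun x => ?_⟩
          have e : (ψ a⁻¹ * ψ a).left x = 1 := by rw [← map_mul, inv_mul_cancel, map_one]; rfl
          have e' := congrArg π e
          have hr' : ((ψ a⁻¹).right)⁻¹ = ρ a := by rw [map_inv ψ]; simp [ha]
          rw [mulF, map_mul, map_one, hr', ρ_apply, ha'] at e'
          rw [eq_inv_of_mul_eq_one_left e']
          refine (eq_inv_of_mul_eq_one_left ?_).symm
          have e'' := kmul a⁻¹ a x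
          rwa [inv_mul_cancel, kone, inv_inv, eq_comm] at e'' }
    intro g
    have : Gs = ⊤ := by
      rw [eq_top_iff, ← h.closure_eq_top, Subgroup.closure_le]
      rintro x (rfl | rfl)
      · exact ⟨by rw [hψs], fun x => by rw [hψs]; exact hfs x⟩
      · exact ⟨by rw [hψu], fun x => by rw [hψu]; exact hfu x⟩
    exact (this ▸ Subgroup.mem_top g : g ∈ Gs)
  let x₀ : G ⧸ Γ := QuotientGroup.mk 1
  have hfix₀ : ∀ γ : Γ, ((γ : G))⁻¹ • x₀ = x₀ := fun γ => by
    show (γ : G)⁻¹ • (QuotientGroup.mk 1 : G ⧸ Γ) = QuotientGroup.mk 1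
    rw [MulAction.Quotient.smul_coe, QuotientGroup.eq]
    simp
  let Θ : Γ →* FreeGroup Γ :=
    MonoidHom.mk' (fun γ => (ψ (γ : G)).left x₀) fun a b => by
      show (ψ ((a : G) * (b : G))).left x₀ = _
      rw [map_mul, mulF, (key a).1, ← map_inv, ρ_apply, hfix₀]
  have hΘ : ∀ γ, π (Θ γ) = γ := fun γ => by
    show π ((ψ (γ : G)).left x₀) = γ
    rw [(key γ).2]
    apply Subtype.ext
    show (r x₀)⁻¹ * (γ : G) * r ((γ : G)⁻¹ • x₀) = γ
    rw [hfix₀]
    simp [r, x₀]
  exact IsFreeGroup.ofMulEquiv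
    (MonoidHom.ofInjective (f := Θ) (fun a b hab => by rw [← hΘ a, ← hΘ b, hab])).symm

end Abstract

section Modular

open UpperHalfPlane ModularGroup

/-- The action of `SL(2, ℤ)` on the upper half plane. -/
def toPermH : SL(2, ℤ) →* Equiv.Perm ℍ := MulAction.toPermHom _ _

theorem toPermH_apply (g : SL(2, ℤ)) (z : ℍ) : toPermH g z = g • z := rfl

theorem toPermH_neg (g : SL(2, ℤ)) : toPermH (-g) = toPermH g := by
  ext1 z
  rw [toPermH_apply, toPermH_apply, SL_neg_smul]

/-- The image of `SL(2, ℤ)` in the permutations of `ℍ`, that is `PSL(2, ℤ)`. -/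
abbrev PSL2Z : Type := toPermH.range

/-- The projection. -/
abbrev toPSL2Z : SL(2, ℤ) →* PSL2Z := toPermH.rangeRestrict

/-- The element of order three. -/
def U : SL(2, ℤ) := S * T

theorem coe_S' : (S : Matrix (Fin 2) (Fin 2) ℤ) = !![0, -1; 1, 0] := ModularGroup.coe_S

theorem coe_U : (U : Matrix (Fin 2) (Fin 2) ℤ) = !![0, -1; 1, 1] := by
  rw [U, Matrix.SpecialLinearGroup.coe_mul, coe_S', ModularGroup.coe_T, Matrix.mul_fin_two]
  norm_num

theorem S_sq : S ^ 2 = -1 := by
  ext i j
  simp [sq, coe_S']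
  fin_cases i <;> fin_cases j <;> simp

theorem U_cube : U ^ 3 = -1 := by
  ext i j
  simp [pow_succ, coe_U]
  fin_cases i <;> fin_cases j <;> simp

theorem U_sq_coe : ((U ^ 2 : SL(2, ℤ)) : Matrix (Fin 2) (Fin 2) ℤ) = !![-1, -1; 1, 0] := by
  simp [sq, coe_U]

theorem coe_smul_of_entries (g : SL(2, ℤ)) {a b c d : ℤ}
    (hg : (g : Matrix (Fin 2) (Fin 2) ℤ) = !![a, b; c, d]) (z : ℍ) :
    ((g • z : ℍ) : ℂ) = ((a : ℂ) * z + b) / ((c : ℂ) * z + d) := by
  rw [coe_specialLinearGroup_apply, hg]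
  simp

/-- The orders of the two factors. -/
abbrev factorOrder : Bool → ℕ := fun b => bif b then 2 else 3

/-- The two cyclic factors. -/
abbrev Factor (b : Bool) : Type := Multiplicative (ZMod (factorOrder b))

/-- The hom from a cyclic group determined by an element of suitable order. -/
def zmodHom {H : Type*} [Group H] (n : ℕ) (g : H) (hg : g ^ n = 1) :
    Multiplicative (ZMod n) →* H :=
  AddMonoidHom.toMultiplicativeLeft
    (ZMod.lift n ⟨zmultiplesHom (Additive H) (Additive.ofMul g), by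
      show ((n : ℤ) • Additive.ofMul g : Additive H) = 0
      rw [← ofMul_zpow, zpow_natCast, hg, ofMul_one]⟩)

theorem zmodHom_apply {H : Type*} [Group H] (n : ℕ) (g : H) (hg : g ^ n = 1) (m : ℤ) :
    zmodHom n g hg (Multiplicative.ofAdd (m : ZMod n)) = g ^ m := by
  show Additive.toMul (ZMod.lift n _ (m : ZMod n)) = g ^ m
  rw [ZMod.lift_coe]
  show Additive.toMul (m • Additive.ofMul g) = g ^ m
  rw [← ofMul_zpow, toMul_ofMul]

/-- The two generators in `PSL(2, ℤ)`. -/
def factorGen : Bool → PSL2Z := fun b => bif b then toPSL2Z S else toPSL2Z U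

theorem toPSL2Z_neg_one : toPSL2Z (-1) = 1 := by
  apply Subtype.ext
  show toPermH (-1) = 1
  rw [toPermH_neg, map_one]

theorem factorGen_pow (b : Bool) : factorGen b ^ factorOrder b = 1 := by
  cases b
  · show toPSL2Z U ^ 3 = 1
    rw [← map_pow, U_cube, toPSL2Z_neg_one]
  · show toPSL2Z S ^ 2 = 1
    rw [← map_pow, S_sq, toPSL2Z_neg_one]

/-- The map from the free product. -/
def coprodToPSL : Monoid.CoprodI Factor →* PSL2Z :=
  Monoid.CoprodI.lift fun b => zmodHom _ (factorGen b) (factorGen_pow b)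

theorem coprodToPSL_of (b : Bool) :
    coprodToPSL (Monoid.CoprodI.of (Multiplicative.ofAdd (1 : ZMod (factorOrder b)))) =
      factorGen b := by
  rw [coprodToPSL, Monoid.CoprodI.lift_of]
  simpa using zmodHom_apply _ (factorGen b) (factorGen_pow b) 1

theorem closure_S_U : Subgroup.closure ({S, U} : Set SL(2, ℤ)) = ⊤ := by
  rw [eq_top_iff, ← SpecialLinearGroup.SL2Z_generators, Subgroup.closure_le]
  rintro x (rfl | rfl)
  · exact Subgroup.subset_closure (by simp)
  · show T ∈ _
    have : T = S⁻¹ * U := by simp [U]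
    rw [this]
    exact mul_mem (inv_mem (Subgroup.subset_closure (by simp)))
      (Subgroup.subset_closure (by simp))

theorem closure_factorGen : Subgroup.closure ({toPSL2Z S, toPSL2Z U} : Set PSL2Z) = ⊤ := by
  rw [show ({toPSL2Z S, toPSL2Z U} : Set PSL2Z) = toPSL2Z '' {S, U} by simp [Set.image_pair],
    ← MonoidHom.map_closure, closure_S_U]
  exact Subgroup.map_top_of_surjective _ toPermH.rangeRestrict_surjective

theorem coprodToPSL_surjective : Function.Surjective coprodToPSL := by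
  rw [← MonoidHom.range_eq_top, eq_top_iff, ← closure_factorGen, Subgroup.closure_le]
  rintro x (rfl | rfl)
  · exact ⟨_, coprodToPSL_of true⟩
  · exact ⟨_, coprodToPSL_of false⟩

theorem coprodToPSL_injective : Function.Injective coprodToPSL := by
  let Xs : Bool → Set ℍ := fun b => bif b then {z | 0 < z.re} else {z | z.re < 0}
  have hS : ∀ z : ℍ, z.re < 0 → 0 < (S • z).re := fun z hz => by
    show 0 < ((S • z : ℍ) : ℂ).re
    rw [coe_smul_of_entries S coe_S' z]
    have h0 := Complex.normSq_pos.2 z.ne_zero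
    simp only [Int.cast_zero, Int.cast_neg, Int.cast_one, zero_mul, one_mul, zero_add, add_zero,
      Complex.div_re, Complex.neg_re, Complex.one_re, Complex.neg_im, Complex.one_im, neg_zero,
      zero_mul, zero_div, add_zero]
    exact div_pos (by nlinarith [show (z : ℂ).re = z.re from rfl]) h0
  have hU : ∀ z : ℍ, 0 < z.re → (U • z).re < 0 := fun z hz => by
    show ((U • z : ℍ) : ℂ).re < 0
    rw [coe_smul_of_entries U coe_U z]
    simp [Complex.div_re]
    exact div_neg_of_neg_of_pos (by nlinarith [show (z : ℂ).re = z.re from rfl])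
      (Complex.normSq_pos.2 fun h => by
        have := congrArg Complex.im h
        simp at this
        exact absurd this z.im_pos.ne')
  have hU2 : ∀ z : ℍ, 0 < z.re → ((U ^ 2 : SL(2, ℤ)) • z).re < 0 := fun z hz => by
    show (((U ^ 2 : SL(2, ℤ)) • z : ℍ) : ℂ).re < 0
    rw [coe_smul_of_entries (U ^ 2) U_sq_coe z]
    have h0 := Complex.normSq_pos.2 z.ne_zero
    simp [Complex.div_re]
    rw [← add_div]
    exact div_neg_of_neg_of_pos (by nlinarith [sq_nonneg z.im, show (z : ℂ).re = z.re from rfl,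
      show (z : ℂ).im = z.im from rfl]) h0
  refine Monoid.CoprodI.lift_injective_of_ping_pong (G := PSL2Z)
    (fun b => zmodHom _ (factorGen b) (factorGen_pow b))
    (Or.inr ⟨false, by simp [Cardinal.mk_fintype, ZMod.card]⟩) Xs ?_ ?_ ?_
  · intro b
    cases b
    · exact ⟨⟨⟨-1, 1⟩, one_pos⟩, by show ((-1 : ℝ)) < 0; norm_num⟩
    · exact ⟨⟨⟨1, 1⟩, one_pos⟩, by show (0 : ℝ) < 1; norm_num⟩
  · intro i j hij
    cases i <;> cases j <;> simp at hij <;>
      exact Set.disjoint_left.2 fun z h1 h2 => lt_asymm (α := ℝ) h1 h2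
  · intro i j hij h hne
    obtain ⟨m, rfl⟩ : ∃ m : ZMod (factorOrder i), Multiplicative.ofAdd m = h := ⟨h.toAdd, rfl⟩
    rintro _ ⟨z, hz, rfl⟩
    cases i <;> cases j <;> simp at hij
    · have hm : m = 1 ∨ m = 2 := by
        have hm0 : m ≠ 0 := fun e => hne (by rw [e]; rfl)
        have key : ∀ x : ZMod 3, x ≠ 0 → x = 1 ∨ x = 2 := by decide
        exact key m hm0
      rcases hm with rfl | rfl
      · have e := zmodHom_apply _ (factorGen false) (factorGen_pow false) 1
        rw [Int.cast_one, zpow_one] at e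
        show (zmodHom _ _ _ _ • z).re < 0
        rw [e]; exact hU z hz
      · have e := zmodHom_apply _ (factorGen false) (factorGen_pow false) 2
        rw [Int.cast_ofNat] at e
        show (zmodHom _ _ _ _ • z).re < 0
        rw [e, zpow_two]
        have : (U • U • z).re < 0 := by rw [← mul_smul, ← sq]; exact hU2 z hz
        exact this
    · have hm : m = 1 := by
        have hm0 : m ≠ 0 := fun e => hne (by rw [e]; rfl)
        have key : ∀ x : ZMod 2, x ≠ 0 → x = 1 := by decide
        exact key m hm0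
      subst hm
      have e := zmodHom_apply _ (factorGen true) (factorGen_pow true) 1
      rw [Int.cast_one, zpow_one] at e
      show 0 < (zmodHom _ _ _ _ • z).re
      rw [e]; exact hS z hz

theorem isTwoThreeGroup_PSL2Z : IsTwoThreeGroup (toPSL2Z S) (toPSL2Z U) where
  sq := factorGen_pow true
  cube := factorGen_pow false
  closure_eq_top := closure_factorGen
  exists_lift H _ a b ha hb := by
    let gen : Bool → H := fun x => bif x then a else b
    have hgen : ∀ x, gen x ^ factorOrder x = 1 := by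
      intro x; cases x
      · exact hb
      · exact ha
    let e := MulEquiv.ofBijective coprodToPSL ⟨coprodToPSL_injective, coprodToPSL_surjective⟩
    let f₀ : Monoid.CoprodI Factor →* H :=
      Monoid.CoprodI.lift (M := Factor) fun x => zmodHom (factorOrder x) (gen x) (hgen x)
    have key : ∀ x, f₀ (e.symm (factorGen x)) = gen x := by
      intro x
      rw [show e.symm (factorGen x) =
        Monoid.CoprodI.of (M := Factor) (i := x)
          (Multiplicative.ofAdd (1 : ZMod (factorOrder x))) from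
          e.symm_apply_eq.2 (coprodToPSL_of x).symm]
      rw [Monoid.CoprodI.lift_of]
      simpa using zmodHom_apply _ (gen x) (hgen x) 1
    exact ⟨f₀.comp e.symm.toMonoidHom, key true, key false⟩

/-- The kernel of the action on the upper half plane is `±1`. -/
theorem eq_one_or_neg_one_of_toPermH {g : SL(2, ℤ)} (h : toPermH g = 1) : g = 1 ∨ g = -1 := by
  obtain ⟨a, b, c, d, hg, hdet⟩ : ∃ a b c d : ℤ,
      (g : Matrix (Fin 2) (Fin 2) ℤ) = !![a, b; c, d] ∧ a * d - b * c = 1 := by
    refine ⟨_, _, _, _, Matrix.eta_fin_two _, ?_⟩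
    rw [← Matrix.det_fin_two]; exact g.2
  have hz : ∀ z : ℍ, (a : ℂ) * z + b = (z : ℂ) * ((c : ℂ) * z + d) := by
    intro z
    have e : g • z = z := by rw [← toPermH_apply, h]; rfl
    have e' := congrArg (fun w : ℍ => (w : ℂ)) e
    simp only [coe_smul_of_entries g hg] at e'
    have hden : (c : ℂ) * z + d ≠ 0 := by
      intro h0
      rw [h0, div_zero] at e'
      exact z.ne_zero e'.symm
    rw [div_eq_iff hden] at e'
    exact e'
  have h1 := hz ⟨⟨0, 1⟩, one_pos⟩
  have h2 := hz ⟨⟨0, 2⟩, two_pos⟩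
  simp [Complex.ext_iff] at h1 h2
  obtain ⟨h1r, h1i⟩ := h1
  obtain ⟨h2r, h2i⟩ := h2
  have hc : c = 0 := by exact_mod_cast (by linarith : (c : ℝ) = 0)
  have hb : b = 0 := by
    have : (b : ℝ) = -(c : ℝ) := by linarith
    subst hc; exact_mod_cast (by simpa using this : (b : ℝ) = 0)
  have had : a = d := by exact_mod_cast (by linarith : (a : ℝ) = d)
  subst hc; subst hb; subst had
  rw [mul_zero, sub_zero] at hdet
  rcases Int.eq_one_or_neg_one_of_mul_eq_one hdet with rfl | rfl
  · left; apply Subtype.ext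
    rw [hg, Matrix.SpecialLinearGroup.coe_one]
    ext i j; fin_cases i <;> fin_cases j <;> simp
  · right; apply Subtype.ext
    rw [hg, Matrix.SpecialLinearGroup.coe_neg, Matrix.SpecialLinearGroup.coe_one]
    ext i j; fin_cases i <;> fin_cases j <;> simp

theorem toPSL2Z_eq_one_iff {g : SL(2, ℤ)} : toPSL2Z g = 1 ↔ g = 1 ∨ g = -1 := by
  refine ⟨fun h => eq_one_or_neg_one_of_toPermH (congrArg Subtype.val h), ?_⟩
  rintro (rfl | rfl)
  · exact map_one _
  · exact toPSL2Z_neg_one

/-- A torsion-free subgroup of `SL(2, ℤ)` is free. -/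
theorem isFreeGroup_of_torsionFree (Γ : Subgroup SL(2, ℤ))
    (hΓ : ∀ γ ∈ Γ, IsOfFinOrder γ → γ = 1) : IsFreeGroup Γ := by
  have hneg : (-1 : SL(2, ℤ)) ∉ Γ := fun h => by
    have h1 : IsOfFinOrder (-1 : SL(2, ℤ)) :=
      isOfFinOrder_iff_pow_eq_one.2 ⟨2, two_pos, by simp⟩
    have := congrArg (fun g : SL(2, ℤ) => (g : Matrix (Fin 2) (Fin 2) ℤ) 0 0) (hΓ _ h h1)
    simp at this
  let π : Γ →* PSL2Z := toPSL2Z.comp Γ.subtype
  have hπ : Function.Injective π := (injective_iff_map_eq_one π).2 fun γ h => by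
    rcases toPSL2Z_eq_one_iff.1 h with h | h
    · exact Subtype.ext h
    · exact absurd (h ▸ γ.2) hneg
  have hconj : ∀ (x : SL(2, ℤ)) (n : ℕ), 0 < n → x ^ n = -1 → toPSL2Z x ≠ 1 →
      ∀ g : PSL2Z, g⁻¹ * toPSL2Z x * g ∉ π.range := by
    rintro x n hn hx hne g ⟨γ, hγ⟩
    obtain ⟨g, rfl⟩ := toPermH.rangeRestrict_surjective g
    change toPSL2Z γ = _ at hγ
    have h' : toPSL2Z ((γ : SL(2, ℤ)) * (g⁻¹ * x * g)⁻¹) = 1 := by
      rw [map_mul, map_inv, map_mul, map_mul, map_inv, hγ, mul_inv_cancel]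
    have hfin : (γ : SL(2, ℤ)) ^ (2 * n) = 1 := by
      have hy : (g⁻¹ * x * g) ^ n = -1 := by
        have e := conj_pow (i := n) (a := g⁻¹) (b := x)
        rw [inv_inv] at e
        rw [e, hx]; simp
      rcases toPSL2Z_eq_one_iff.1 h' with h | h <;> rw [mul_inv_eq_iff_eq_mul] at h <;> rw [h]
      · rw [one_mul, mul_comm 2 n, pow_mul, hy]; simp
      · rw [neg_mul, one_mul, pow_mul, neg_sq, ← pow_mul, mul_comm 2 n, pow_mul, hy]; simp
    have hγ1 : (γ : SL(2, ℤ)) = 1 :=
      hΓ _ γ.2 (isOfFinOrder_iff_pow_eq_one.2 ⟨2 * n, by omega, hfin⟩)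
    rw [hγ1, map_one, eq_comm, mul_assoc, inv_mul_eq_one, eq_comm, mul_eq_right] at hγ
    exact hne hγ
  have : IsFreeGroup π.range := by
    refine isFreeGroup_of_fixedPointFree isTwoThreeGroup_PSL2Z π.range
      (hconj S 2 two_pos S_sq ?_) (hconj U 3 three_pos U_cube ?_)
    · intro h
      rcases toPSL2Z_eq_one_iff.1 h with h | h <;>
        · have := congrArg (fun g : SL(2, ℤ) => (g : Matrix (Fin 2) (Fin 2) ℤ) 0 0) h
          simp [coe_S'] at this
    · intro h
      rcases toPSL2Z_eq_one_iff.1 h with h | h <;>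
        · have := congrArg (fun g : SL(2, ℤ) => (g : Matrix (Fin 2) (Fin 2) ℤ) 0 0) h
          simp [coe_U] at this
  exact IsFreeGroup.ofMulEquiv (MonoidHom.ofInjective hπ).symm

theorem groupFG_SL2Z : Group.FG SL(2, ℤ) :=
  Group.fg_def.mpr ((Subgroup.fg_iff _).mpr
    ⟨_, SpecialLinearGroup.SL2Z_generators, Set.toFinite _⟩)

/-- The number of generators of a finitely generated free group is finite. -/
theorem finite_generators_of_fg (H : Type*) [Group H] [IsFreeGroup H] [Group.FG H] :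
    Finite (IsFreeGroup.Generators H) := by
  classical
  let ab : H →* Multiplicative (IsFreeGroup.Generators H →₀ ℤ) :=
    IsFreeGroup.lift fun a => Multiplicative.ofAdd (Finsupp.single a 1)
  obtain ⟨S, hS⟩ := Group.fg_def.1 ‹Group.FG H›
  let T : Finset (IsFreeGroup.Generators H) := S.biUnion fun g => (ab g).toAdd.support
  let K : Subgroup H :=
    { carrier := {g | (ab g).toAdd.support ⊆ T}
      one_mem' := by simp
      mul_mem' := fun {a b} ha hb => by
        show (ab (a * b)).toAdd.support ⊆ T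
        rw [map_mul, toAdd_mul]
        exact Finsupp.support_add.trans (Finset.union_subset ha hb)
      inv_mem' := fun {a} ha => by
        show (ab a⁻¹).toAdd.support ⊆ T
        rw [map_inv, toAdd_inv, Finsupp.support_neg]
        exact ha }
  have hK : K = ⊤ := by
    rw [eq_top_iff, ← hS, Subgroup.closure_le]
    intro g hg
    exact Finset.subset_biUnion_of_mem (fun g => (ab g).toAdd.support) hg
  refine @Finite.of_fintype _ ⟨T, fun a => ?_⟩
  have h : IsFreeGroup.of a ∈ K := hK ▸ Subgroup.mem_top _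
  have e : (ab (IsFreeGroup.of a)).toAdd = Finsupp.single a 1 := by
    simp [ab, IsFreeGroup.lift_of]
  have h' : (ab (IsFreeGroup.of a)).toAdd.support ⊆ T := h
  rw [e, Finsupp.support_single_ne_zero a one_ne_zero] at h'
  exact h' (Finset.mem_singleton_self a)

/-- A torsion-free subgroup of finite index has a finite free basis. -/
theorem exists_freeGroupBasis (Γ : Subgroup SL(2, ℤ)) [Γ.FiniteIndex]
    (hΓ : ∀ γ ∈ Γ, IsOfFinOrder γ → γ = 1) :
    ∃ r : ℕ, Nonempty (FreeGroupBasis (Fin r) Γ) := by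
  have := isFreeGroup_of_torsionFree Γ hΓ
  have := groupFG_SL2Z
  have : Group.FG Γ := Subgroup.fg_of_index_ne_zero Γ
  have := finite_generators_of_fg Γ
  obtain ⟨r, ⟨e⟩⟩ := Finite.exists_equiv_fin (IsFreeGroup.Generators Γ)
  exact ⟨r, ⟨(IsFreeGroup.basis Γ).reindex e⟩⟩

end Modular

end Fermat.Agent.RT.TW

end
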