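import Fermat.Agent.RT.TW.Modules

/-!
# `H¹(Γ₀(M), A)` with trivial nebentypus

It is the module of homomorphisms; over a domain it has no torsion.
-/

set_option autoImplicit false

noncomputable section

namespace Fermat.Agent.RT.TW

open scoped MatrixGroups
open CongruenceSubgroup Periods

variable {A : Type} [CommRing A] {M : ℕ}

theorem char_level0_one (h : 1 ∣ M) : (level0 (1 : MulChar (ZMod 1) A) M h).char = 1 :=
  MonoidHom.ext fun _ => Units.ext (MulChar.one_apply (isUnit_of_subsingleton _))

theorem coboundary_level0_one (h : 1 ∣ M) (x : A) :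
    coboundary (level0 (1 : MulChar (ZMod 1) A) M h).char x = 0 :=
  Subtype.ext (funext fun g => by simp [char_level0_one])

theorem toH1_level0_one_eq_zero_iff {h : 1 ∣ M} {c : (level0 (1 : MulChar (ZMod 1) A) M h).Z1} :
    toH1 (level0 (1 : MulChar (ZMod 1) A) M h).char c = 0 ↔ c = 0 :=
  ⟨fun hc => by
    obtain ⟨x, hx⟩ := (Submodule.Quotient.mk_eq_zero _).1 hc
    rw [← hx, coboundary_level0_one], fun hc => by rw [hc, map_zero]⟩

theorem twistedH1_one_smul_eq_zero [IsDomain A] {h : 1 ∣ M}
    {y : heckeH1 (1 : MulChar (ZMod 1) A) M h} {a : A} (ha : a • y = 0) (ha0 : a ≠ 0) : y = 0 := by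
  obtain ⟨c, rfl⟩ := Submodule.mkQ_surjective _ y
  rw [← map_smul] at ha
  have hc := toH1_level0_one_eq_zero_iff.1 ha
  refine toH1_level0_one_eq_zero_iff.2 (Subtype.ext (funext fun g => ?_))
  simpa [ha0] using congrFun (congrArg Subtype.val hc) g

end Fermat.Agent.RT.TW

end
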