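import Fermat.Agent.RT.TW.TrivialChar
import Fermat.Agent.EichlerShimura.FiniteDVR
import Mathlib.RingTheory.Ideal.AssociatedPrime.Localization
import Mathlib.RingTheory.Ideal.GoingUp

/-!
# Residual eigenclasses lift to characteristic zero (Deligne–Serre)

For the Hecke operators on `H¹(Γ₀(M), O)` with trivial nebentypus, a system of eigenvalues over
the residue field is the reduction of the system of an eigenclass over a finite extension of `O`.
-/

set_option autoImplicit false

noncomputable section

namespace Fermat.Agent.RT.TW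

open IsLocalRing MvPolynomial

/-- A prime containing the annihilator of a finite module without torsion over the base contains
an associated prime meeting the base in `0`. -/
theorem exists_colon_prime_le {V : Type*} [CommRing V] {T : Type*} [CommRing T] [Algebra V T]
    [IsNoetherianRing T] {H : Type*} [AddCommGroup H] [Module T H] [Module.Finite T H]
    (htf : ∀ (a : V) (y : H), algebraMap V T a • y = 0 → a ≠ 0 → y = 0)
    (J : Ideal T) [J.IsPrime] (hann : Module.annihilator T H ≤ J) :
    ∃ (P : Ideal T) (y : H), P.IsPrime ∧ P ≤ J ∧ y ≠ 0 ∧ (∀ t, t ∈ P ↔ t • y = 0) ∧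
      ∀ a : V, algebraMap V T a ∈ P → a = 0 := by
  obtain ⟨P, hP, hPJ⟩ := Ideal.exists_minimalPrimes_le hann
  obtain ⟨hPp, y, hy⟩ := Submodule.isAssociatedPrime_iff.1
    (Module.associatedPrimes.minimalPrimes_annihilator_subset_associatedPrimes T H hP)
  have hmem : ∀ t, t ∈ P ↔ t • y = 0 := fun t => by
    rw [hy, Submodule.mem_colon_singleton, Submodule.mem_bot]
  have hy0 : y ≠ 0 := fun h => hPp.ne_top ((Ideal.eq_top_iff_one P).2 ((hmem 1).2 (by simp [h])))
  refine ⟨P, y, hPp, hPJ, hy0, hmem, fun a ha => ?_⟩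
  by_contra ha0
  exact hy0 (htf a y ((hmem _).1 ha) ha0)

section Operators

variable {V : Type*} [CommRing V] [IsDomain V] [IsNoetherianRing V] {R : Type*} [CommRing R]
  [Algebra V R] {H : Type*} [AddCommGroup H] [Module V H] [Module.Finite V H]

/-- A character killed by the kernel of a family of commuting operators on a finite module without
torsion has an eigenvector. -/
theorem exists_eigenvector_of_ker_le (htf : ∀ (a : V) (y : H), a • y = 0 → a ≠ 0 → y = 0)
    (act : R →ₐ[V] Module.End V H) (χ : R →ₐ[V] V)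
    (hker : ∀ r, act r = 0 → χ r = 0) :
    ∃ y : H, y ≠ 0 ∧ ∀ r, act r y = χ r • y := by
  let T := R ⧸ RingHom.ker act.toRingHom
  let φ : T →ₐ[V] Module.End V H := Ideal.Quotient.liftₐ _ act fun r hr => hr
  have hφ : Function.Injective φ := RingHom.kerLift_injective act.toRingHom
  let _ : Module T H := Module.compHom H φ.toRingHom
  have : IsScalarTower V T H := IsScalarTower.of_algebraMap_smul fun a y => by
    show φ (algebraMap V T a) y = a • y
    rw [AlgHom.commutes]
    rfl
  have : Module.Finite V T := Module.Finite.of_injective φ.toLinearMap hφ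
  have : IsNoetherianRing T := IsNoetherianRing.of_finite V T
  have : Module.Finite T H := Module.Finite.of_restrictScalars_finite V T H
  let ψ : T →ₐ[V] V := Ideal.Quotient.liftₐ _ χ fun r hr => hker r hr
  have : (RingHom.ker ψ.toRingHom).IsPrime := RingHom.ker_isPrime _
  have hann : Module.annihilator T H ≤ RingHom.ker ψ.toRingHom := fun t ht => by
    have : φ t = 0 := LinearMap.ext fun y => Module.mem_annihilator.1 ht y
    rw [hφ (this.trans (map_zero φ).symm)]
    exact zero_mem _
  obtain ⟨P, y, hP, hPJ, hy0, hmem, hP0⟩ := exists_colon_prime_le (V := V)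
    (fun a z hz ha => htf a z (by rwa [algebraMap_smul] at hz) ha) _ hann
  have hPeq : P = RingHom.ker ψ.toRingHom := by
    refine le_antisymm hPJ fun x hx => ?_
    by_contra hxP
    obtain ⟨g, hg, hgx⟩ := Algebra.IsIntegral.isIntegral (R := V) x
    have h := Ideal.comap_lt_comap_of_integral_mem_sdiff (R := V) hPJ ⟨hx, hxP⟩
      ⟨g, hg, hgx⟩
    obtain ⟨a, haJ, haP⟩ := SetLike.exists_of_lt h
    rw [Ideal.mem_comap, RingHom.mem_ker] at haJ
    have : a = 0 := by simpa using haJ
    exact haP (by rw [this]; exact zero_mem _)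
  refine ⟨y, hy0, fun r => ?_⟩
  have h : (Ideal.Quotient.mk _ r - algebraMap V T (χ r) : T) • y = 0 := by
    refine (hmem _).1 (hPeq ▸ ?_)
    rw [RingHom.mem_ker, map_sub]
    show χ r - ψ (algebraMap V T (χ r)) = 0
    rw [AlgHom.commutes]
    simp
  rw [sub_smul, sub_eq_zero, algebraMap_smul] at h
  exact h

end Operators

/-- A residual character killed by the kernel of a family of commuting operators is the reduction
of a character killed by it, over a finite extension. -/
theorem exists_char_lift {V : Type} [CommRing V] [IsDomain V] [IsDiscreteValuationRing V]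
    [IsAdicComplete (maximalIdeal V) V] [Finite (ResidueField V)] [CharZero V]
    {R : Type} [CommRing R] [Algebra V R] {H : Type} [AddCommGroup H] [Module V H]
    [Module.Finite V H] (htf : ∀ (a : V) (y : H), a • y = 0 → a ≠ 0 → y = 0)
    (act : R →ₐ[V] Module.End V H) (ψ : R →+* ResidueField V)
    (hψ : ∀ v, ψ (algebraMap V R v) = residue V v) (hker : ∀ r, act r = 0 → ψ r = 0) :
    ∃ (V' : Type) (_ : CommRing V') (_ : IsDomain V') (_ : IsDiscreteValuationRing V')
      (_ : IsAdicComplete (maximalIdeal V') V') (_ : Finite (ResidueField V')) (_ : CharZero V')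
      (_ : Algebra V V') (_ : Module.Finite V V') (_ : IsLocalHom (algebraMap V V'))
      (χ : R →ₐ[V] V'), Function.Injective (algebraMap V V') ∧ (∀ r, act r = 0 → χ r = 0) ∧
      ∀ r, residue V' (χ r) = ResidueField.map (algebraMap V V') (ψ r) := by
  let T := R ⧸ RingHom.ker act.toRingHom
  let φ : T →ₐ[V] Module.End V H := Ideal.Quotient.liftₐ _ act fun r hr => hr
  have hφ : Function.Injective φ := RingHom.kerLift_injective act.toRingHom
  let _ : Module T H := Module.compHom H φ.toRingHom
  have : IsScalarTower V T H := IsScalarTower.of_algebraMap_smul fun a y => by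
    show φ (algebraMap V T a) y = a • y
    rw [AlgHom.commutes]
    rfl
  have : Module.Finite V T := Module.Finite.of_injective φ.toLinearMap hφ
  have : IsNoetherianRing T := IsNoetherianRing.of_finite V T
  have : Module.Finite T H := Module.Finite.of_restrictScalars_finite V T H
  let ψT : T →+* ResidueField V := Ideal.Quotient.lift _ ψ fun r hr => hker r hr
  have hψT : ∀ v, ψT (algebraMap V T v) = residue V v := hψ
  have hψsurj : Function.Surjective ψT := fun z => by
    obtain ⟨v, rfl⟩ := residue_surjective z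
    exact ⟨_, hψT v⟩
  set m := RingHom.ker ψT
  have hm : m.IsMaximal := RingHom.ker_isMaximal_of_surjective ψT hψsurj
  have hann : Module.annihilator T H ≤ m := fun t ht => by
    have : φ t = 0 := LinearMap.ext fun y => Module.mem_annihilator.1 ht y
    rw [hφ (this.trans (map_zero φ).symm)]
    exact zero_mem _
  obtain ⟨P, -, hP, hPm, -, -, hP0⟩ := exists_colon_prime_le (V := V)
    (fun a z hz ha => htf a z (by rwa [algebraMap_smul] at hz) ha) m hann
  obtain ⟨V', i1, i2, i3, i4, i5, i6, i7, i8, i9, hinj, f, hf⟩ :=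
    EichlerShimura.exists_finiteDVR_extension V T P hP0
  let g : T →+* ResidueField V' := (residue V').comp f.toRingHom
  have hgV : ∀ v, g (algebraMap V T v) = ResidueField.map (algebraMap V V') (residue V v) :=
    fun v => by
      show residue V' (f (algebraMap V T v)) = _
      rw [f.commutes]
      rfl
  have hg : RingHom.ker g = m := by
    have : IsLocalRing (T ⧸ P) :=
      EichlerShimura.isLocalRing_of_isDomain_of_module_finite V (T ⧸ P)
    have hmax : ∀ J : Ideal T, P ≤ J → J.IsMaximal →
        J = (maximalIdeal (T ⧸ P)).comap (Ideal.Quotient.mk P) := by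
      intro J hPJ hJ
      have h1 : (J.map (Ideal.Quotient.mk P)).IsMaximal :=
        hJ.map_of_surjective_of_ker_le Ideal.Quotient.mk_surjective (by rwa [Ideal.mk_ker])
      rw [← IsLocalRing.eq_maximalIdeal h1,
        Ideal.comap_map_of_surjective' _ Ideal.Quotient.mk_surjective, Ideal.mk_ker,
        sup_eq_left.mpr hPJ]
    have : (RingHom.ker g).IsPrime := RingHom.ker_isPrime g
    have hgmax : (RingHom.ker g).IsMaximal := by
      refine Ideal.isMaximal_of_isIntegral_of_isMaximal_comap (R := V) _ ?_
      have : (RingHom.ker g).comap (algebraMap V T) = maximalIdeal V := by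
        ext v
        rw [Ideal.mem_comap, RingHom.mem_ker, hgV, map_eq_zero, residue_eq_zero_iff]
      rw [this]
      infer_instance
    have hle : P ≤ RingHom.ker g := by
      rw [← hf]
      intro r hr
      rw [RingHom.mem_ker] at hr ⊢
      show residue V' (f r) = 0
      rw [hr, map_zero]
    rw [hmax _ hPm hm, hmax _ hle hgmax]
  refine ⟨V', i1, i2, i3, i4, i5, i6, i7, i8, i9, f.comp (Ideal.Quotient.mkₐ V _), hinj,
    fun r hr => ?_, fun r => ?_⟩
  · show f (Ideal.Quotient.mk _ r) = 0
    rw [show (Ideal.Quotient.mk (RingHom.ker act.toRingHom) r : T) = 0 from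
      Ideal.Quotient.eq_zero_iff_mem.2 hr, map_zero]
  · obtain ⟨v, hv⟩ := residue_surjective (ψ r)
    have hmem : (Ideal.Quotient.mk _ r - algebraMap V T v : T) ∈ RingHom.ker g := by
      rw [hg, RingHom.mem_ker, map_sub, hψT, hv]
      exact sub_self _
    rw [RingHom.mem_ker, map_sub, hgV, hv, sub_eq_zero] at hmem
    exact hmem

theorem heckeAct_congr_eq_zero {A : Type} [CommRing A] {N M : ℕ} {Φ Φ' : MulChar (ZMod N) A}
    (e : Φ' = Φ) (h : N ∣ M) (P : HeckePoly A) (hP : heckeAct Φ h P = 0) : heckeAct Φ' h P = 0 := by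
  subst e
  exact hP

/-- A common eigenvector of some operators is one of the polynomials in them. -/
theorem heckeAct_rename_eigen {A : Type} [CommRing A] {N M : ℕ} {Φ : MulChar (ZMod N) A}
    (h : N ∣ M) {ι : Type} (r : ι → Nat.Primes) (a : ι → A) {z : heckeH1 Φ M h}
    (hz : ∀ i, heckeOp Φ h (r i) z = a i • z) (P : MvPolynomial ι A) :
    heckeAct Φ h (rename r P) z = eval a P • z := by
  induction P using MvPolynomial.induction_on with
  | C v => rw [rename_C, heckeAct_C, eval_C]; rfl
  | add P Q hP hQ =>
    rw [map_add, map_add (heckeAct Φ h), LinearMap.add_apply, hP, hQ, eval_add, add_smul]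
  | mul_X P i hP =>
    rw [map_mul, rename_X, map_mul (heckeAct Φ h), Module.End.mul_apply, heckeAct_X, hz, map_smul,
      hP, smul_smul, eval_mul, eval_X, mul_comm]

variable {V : Type} [CommRing V] [IsDomain V] [IsDiscreteValuationRing V] {M : ℕ}

/-- Operators vanishing over the base vanish on the eigen system over an extension, coefficient by
coefficient. -/
theorem eval_eq_zero_of_heckeAct_eq_zero {V' : Type} [CommRing V'] [IsDomain V'] [Algebra V V']
    [Module.Finite V V'] (hinj : Function.Injective (algebraMap V V')) {ι : Type}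
    (r : ι → Nat.Primes) (h : 1 ∣ M) (χ : MvPolynomial ι V →ₐ[V] V')
    (hker : ∀ P, heckeAct (1 : MulChar (ZMod 1) V) h (rename r P) = 0 → χ P = 0)
    (Q : MvPolynomial ι V')
    (hQ : heckeAct ((1 : MulChar (ZMod 1) V).ringHomComp (algebraMap V V')) h (rename r Q) = 0) :
    aeval (fun i => χ (X i)) Q = 0 := by
  classical
  have : FaithfulSMul V V' := (faithfulSMul_iff_algebraMap_injective V V').mpr hinj
  have : Module.IsTorsionFree V V' := inferInstance
  obtain ⟨b⟩ : Nonempty (Module.Basis (Module.Free.ChooseBasisIndex V V') V V') :=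
    ⟨Module.Free.chooseBasis V V'⟩
  let Qi : Module.Free.ChooseBasisIndex V V' → MvPolynomial ι V := fun j =>
    ∑ d ∈ Q.support, monomial d (b.repr (Q.coeff d) j)
  have hsum : Q = ∑ j, C (b j) * MvPolynomial.map (algebraMap V V') (Qi j) := by
    conv_lhs => rw [Q.as_sum]
    simp only [Qi, map_sum, MvPolynomial.map_monomial, Finset.mul_sum, C_mul_monomial]
    rw [Finset.sum_comm]
    refine Finset.sum_congr rfl fun d _ => ?_
    rw [← map_sum]
    congr 1
    conv_lhs => rw [← b.sum_repr (Q.coeff d)]
    exact Finset.sum_congr rfl fun j _ => by rw [Algebra.smul_def, mul_comm]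
  have hQi : ∀ j, heckeAct (1 : MulChar (ZMod 1) V) h (rename r (Qi j)) = 0 := by
    intro j₀
    refine LinearMap.ext fun y => ?_
    have e := LinearMap.congr_fun hQ (heckeBaseChange _ (algebraMap V V') h y)
    rw [hsum] at e
    simp only [map_sum, map_mul, rename_C, ← map_rename, LinearMap.coe_sum, Finset.sum_apply,
      heckeAct_C, Module.End.mul_apply, LinearMap.smul_apply, Module.End.one_apply,
      LinearMap.zero_apply, ← heckeBaseChange_heckeAct] at e
    let L₀ := level0 (1 : MulChar (ZMod 1) V) M h
    choose c hc using fun j => Submodule.mkQ_surjective (LinearMap.range (coboundary L₀.char))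
      (heckeAct (1 : MulChar (ZMod 1) V) h (rename r (Qi j)) y)
    have e' : toH1 (mapChar (algebraMap V V') L₀.char)
        (∑ j, b j • mapCocycle (algebraMap V V') L₀.char (c j)) = 0 := by
      rw [map_sum]
      refine Eq.trans (Finset.sum_congr rfl fun j _ => ?_) e
      rw [map_smul, ← hc j]
      rfl
    obtain ⟨x, hx⟩ := (Submodule.Quotient.mk_eq_zero _).1 e'
    rw [LinearMap.zero_apply, ← hc j₀]
    refine toH1_level0_one_eq_zero_iff.2 (Subtype.ext (funext fun g => ?_))
    have eg := congrFun (congrArg Subtype.val hx) g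
    have hL' : ((mapChar (algebraMap V V') L₀.char g : V'ˣ) : V') = 1 := by
      show algebraMap V V' ((level0 (1 : MulChar (ZMod 1) V) M h).char g : V) = 1
      rw [char_level0_one, MonoidHom.one_apply, Units.val_one, map_one]
    rw [coboundary_apply, hL', sub_self, zero_mul] at eg
    have hz : ∑ j, (c j : (level0 (1 : MulChar (ZMod 1) V) M h).grp → V) g • b j = 0 := by
      refine Eq.trans ?_ eg.symm
      rw [AddSubmonoidClass.coe_finsetSum, Finset.sum_apply]
      refine Finset.sum_congr rfl fun j _ => ?_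
      rw [Algebra.smul_def, mul_comm]
      rfl
    exact Fintype.linearIndependent_iff.1 b.linearIndependent _ hz j₀
  have hχ : ∀ P, aeval (fun i => χ (X i)) (MvPolynomial.map (algebraMap V V') P) = χ P := fun P => by
    rw [aeval_map_algebraMap]
    exact DFunLike.congr_fun (aeval_unique χ).symm P
  rw [hsum, map_sum]
  exact Finset.sum_eq_zero fun j _ => by rw [map_mul, hχ, hker _ (hQi j), mul_zero]

/-- A residual eigenclass with trivial nebentypus lifts to an eigenclass over an extension. -/
theorem exists_eigen_lift [IsAdicComplete (maximalIdeal V) V] [Finite (ResidueField V)]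
    [CharZero V] [NeZero M] (h : 1 ∣ M) (hcov : CoverHyp V M)
    (S : Finset ℕ) (a : Nat.Primes → ResidueField V)
    {z : heckeH1 ((1 : MulChar (ZMod 1) V).ringHomComp (residue V)) M h} (hz0 : z ≠ 0)
    (hz : ∀ ℓ : Nat.Primes, (ℓ : ℕ) ∉ S →
      heckeOp ((1 : MulChar (ZMod 1) V).ringHomComp (residue V)) h ℓ z = a ℓ • z) :
    ∃ (V' : Type) (_ : CommRing V') (_ : IsDomain V') (_ : IsDiscreteValuationRing V')
      (_ : IsAdicComplete (maximalIdeal V') V') (_ : Finite (ResidueField V')) (_ : CharZero V')
      (_ : Algebra V V') (_ : IsLocalHom (algebraMap V V')) (c : Nat.Primes → V')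
      (y : heckeH1 (1 : MulChar (ZMod 1) V') M h),
      (∀ v : V', v ≠ 0 → v • y ≠ 0) ∧
      (∀ ℓ : Nat.Primes, (ℓ : ℕ) ∉ S → heckeOp (1 : MulChar (ZMod 1) V') h ℓ y = c ℓ • y) ∧
      ∀ ℓ : Nat.Primes, (ℓ : ℕ) ∉ S →
        residue V' (c ℓ) = ResidueField.map (algebraMap V V') (a ℓ) := by
  classical
  let ι := {ℓ : Nat.Primes // (ℓ : ℕ) ∉ S}
  have := finite_heckeH1 (Φ := (1 : MulChar (ZMod 1) V)) (M := M) h hcov
  let act : MvPolynomial ι V →ₐ[V] Module.End V (heckeH1 (1 : MulChar (ZMod 1) V) M h) :=
    (heckeAct _ h).comp (rename Subtype.val)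
  let ψ : MvPolynomial ι V →+* ResidueField V := eval₂Hom (residue V) fun i => a i.1
  have hz' : ∀ P : MvPolynomial ι V,
      heckeAct ((1 : MulChar (ZMod 1) V).ringHomComp (residue V)) h
        (MvPolynomial.map (residue V) (rename Subtype.val P)) z = ψ P • z := fun P => by
    rw [map_rename, heckeAct_rename_eigen h _ (fun i : ι => a i.1) (fun i => hz _ i.2), eval_map]
    rfl
  have hker : ∀ P, act P = 0 → ψ P = 0 := fun P hP => by
    obtain ⟨y, rfl⟩ := heckeBaseChange_surjective (residue V) h hcov residue_surjective z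
    have e := hz' P
    rw [← heckeBaseChange_heckeAct,
      show heckeAct (1 : MulChar (ZMod 1) V) h (rename Subtype.val P) = 0 from hP,
      LinearMap.zero_apply, map_zero] at e
    exact (smul_eq_zero.1 e.symm).resolve_right hz0
  obtain ⟨V', i1, i2, i3, i4, i5, i6, i7, i8, i9, χ, hinj, hχker, hχres⟩ :=
    exists_char_lift (fun a y ha ha0 => twistedH1_one_smul_eq_zero ha ha0) act ψ
      (fun v => eval₂Hom_C _ _ v) hker
  let χ' : MvPolynomial ι V' →ₐ[V'] V' := aeval fun i => χ (X i)
  let Φ' := (1 : MulChar (ZMod 1) V).ringHomComp (algebraMap V V')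
  have hΦ' : Φ' = 1 := MulChar.ext fun u => by simp [Φ']
  have := finite_heckeH1 (Φ := (1 : MulChar (ZMod 1) V')) (M := M) h (hcov.map (algebraMap V V'))
  obtain ⟨y, hy0, hy⟩ := exists_eigenvector_of_ker_le
    (fun a y ha ha0 => twistedH1_one_smul_eq_zero ha ha0)
    ((heckeAct (1 : MulChar (ZMod 1) V') h).comp (rename (Subtype.val : ι → Nat.Primes))) χ'
    (fun Q hQ => eval_eq_zero_of_heckeAct_eq_zero hinj Subtype.val h χ hχker Q
      (heckeAct_congr_eq_zero hΦ' h _ hQ))
  refine ⟨V', i1, i2, i3, i4, i5, i6, i7, i9,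
    fun ℓ => if hℓ : (ℓ : ℕ) ∉ S then χ (X ⟨ℓ, hℓ⟩) else 0, y,
    fun v hv hvy => hy0 (twistedH1_one_smul_eq_zero hvy hv), fun ℓ hℓ => ?_, fun ℓ hℓ => ?_⟩
  · beta_reduce
    rw [dif_pos hℓ]
    have e := hy (X ⟨ℓ, hℓ⟩)
    simpa [χ', heckeAct_X] using e
  · beta_reduce
    rw [dif_pos hℓ, hχres]
    simp [ψ]

end Fermat.Agent.RT.TW

end
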