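import Fermat.Agent.RT.TW.Modules
import Mathlib.RingTheory.DiscreteValuationRing.Basic
import Mathlib.RingTheory.LocalRing.ResidueField.Basic

/-!
# The residual class of an eigenclass

An eigenclass in `H¹(Γ₀(M), V_Φ)` over a discrete valuation ring, whose value at one operator is
not residually Eisenstein, gives a nonzero class with the residual eigenvalues over the residue
field. No hypothesis on the torsion of the level is needed: the classes concerned have canonical
cocycles.
-/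

set_option autoImplicit false

noncomputable section

namespace Fermat.Agent.RT.TW

open IsLocalRing Periods

variable {V : Type} [CommRing V] [IsDomain V] [IsDiscreteValuationRing V] {N M : ℕ}
  {Φ : MulChar (ZMod N) V}

/-- An eigenclass, not residually Eisenstein at `ℓ₀`, has a nonzero residual class. -/
theorem exists_residual_class (h : N ∣ M) (S : Finset ℕ) (v : Nat.Primes → V)
    {ℓ₀ : Nat.Primes} (hℓ₀ : (ℓ₀ : ℕ) ∉ S) (hne : IsUnit (v ℓ₀ - eisensteinValue Φ M ℓ₀))
    {y : heckeH1 Φ M h} (hy : ∀ ℓ : Nat.Primes, (ℓ : ℕ) ∉ S → heckeOp Φ h ℓ y = v ℓ • y)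
    (hy0 : y ≠ 0) :
    ∃ z : heckeH1 (Φ.ringHomComp (residue V)) M h, z ≠ 0 ∧
      ∀ ℓ : Nat.Primes, (ℓ : ℕ) ∉ S →
        heckeOp (Φ.ringHomComp (residue V)) h ℓ z = residue V (v ℓ) • z := by
  obtain ⟨u, hu⟩ := hne
  let L := level0 Φ M h
  obtain ⟨t, ht, ht'⟩ : ∃ t : Module.End V L.Z1,
      (∀ c ∈ LinearMap.range (coboundary L.char), t c = 0) ∧
      ∀ c, toH1 L.char (t c) = heckeOp Φ h ℓ₀ (toH1 L.char c) -
        eisensteinValue Φ M ℓ₀ • toH1 L.char c := exists_lift_heckeOp_sub h ℓ₀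
  -- the canonical cocycle of a class
  let s : heckeH1 Φ M h →ₗ[V] L.Z1 :=
    (u⁻¹ : Vˣ).val • Submodule.liftQ (LinearMap.range (coboundary L.char)) t
      fun c hc => LinearMap.mem_ker.2 (ht c hc)
  have hs : ∀ c : L.Z1, s (toH1 L.char c) = (u⁻¹ : Vˣ).val • t c := fun c => rfl
  have hclass : ∀ x : heckeH1 Φ M h, toH1 L.char (s x) =
      (u⁻¹ : Vˣ).val • (heckeOp Φ h ℓ₀ x - eisensteinValue Φ M ℓ₀ • x) := fun x => by
    obtain ⟨c, rfl⟩ := Submodule.mkQ_surjective _ x
    rw [show s _ = _ from hs c, map_smul, ht']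
  have hfix : ∀ x : heckeH1 Φ M h, heckeOp Φ h ℓ₀ x = v ℓ₀ • x → toH1 L.char (s x) = x :=
    fun x hx => by
      rw [hclass, hx, ← sub_smul, ← hu, smul_smul, Units.inv_mul, one_smul]
  obtain ⟨ϖ, hϖ⟩ := IsDiscreteValuationRing.exists_irreducible V
  have hmax : maximalIdeal V = Ideal.span {ϖ} := hϖ.maximalIdeal_eq
  -- descent to a class with a cocycle which is nonzero modulo the maximal ideal
  have key : ∀ (n : ℕ) (x : heckeH1 Φ M h),
      (∀ ℓ : Nat.Primes, (ℓ : ℕ) ∉ S → heckeOp Φ h ℓ x = v ℓ • x) →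
      (∃ γ, ¬ ϖ ^ n ∣ (s x : L.grp → V) γ) →
      ∃ x : heckeH1 Φ M h, (∀ ℓ : Nat.Primes, (ℓ : ℕ) ∉ S → heckeOp Φ h ℓ x = v ℓ • x) ∧
        ∃ γ, residue V ((s x : L.grp → V) γ) ≠ 0 := by
    intro n
    induction n with
    | zero => rintro x - ⟨γ, hγ⟩; exact absurd (pow_zero ϖ ▸ one_dvd _) hγ
    | succ n ih =>
      intro x hx hγ
      by_cases hall : ∀ γ, ϖ ∣ (s x : L.grp → V) γ
      · choose w hw using hall
        have hwmem : w ∈ L.Z1 := fun g g' => mul_left_cancel₀ hϖ.ne_zero (by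
          rw [← hw, mul_add, ← hw, mul_left_comm, ← hw]
          exact (s x).2 g g')
        have hsw : s x = ϖ • (⟨w, hwmem⟩ : L.Z1) := Subtype.ext (funext hw)
        set x' := toH1 L.char ⟨w, hwmem⟩
        have hx' : ϖ • x' = x := by rw [← map_smul, ← hsw, hfix x (hx ℓ₀ hℓ₀)]
        have hsx' : s x' = ⟨w, hwmem⟩ := by
          refine Subtype.ext (funext fun g => mul_left_cancel₀ hϖ.ne_zero ?_)
          have e : ϖ • s x' = s x := by rw [← map_smul, hx']
          have e' := congrFun (congrArg Subtype.val e) g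
          rw [← hw g]
          simpa using e'
        -- the divided class is again in the system, as its torsion error dies under `s`
        have htor : ∀ a : heckeH1 Φ M h, ϖ • a = 0 → toH1 L.char (s a) = 0 := fun a ha => by
          have e : s a = 0 := Subtype.ext (funext fun g => mul_left_cancel₀ hϖ.ne_zero (by
            have e1 : ϖ • s a = 0 := by rw [← map_smul, ha, map_zero]
            have e2 := congrFun (congrArg Subtype.val e1) g
            simpa using e2))
          rw [e, map_zero]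
        have hsysx' : ∀ ℓ : Nat.Primes, (ℓ : ℕ) ∉ S → heckeOp Φ h ℓ x' = v ℓ • x' := by
          intro ℓ hℓ
          have h0 := htor (heckeOp Φ h ℓ x' - v ℓ • x') (by
            rw [smul_sub, ← map_smul, hx', smul_comm, hx', hx ℓ hℓ, sub_self])
          have hx'0 : toH1 L.char (s x') = x' := by rw [hsx']
          rw [hclass] at h0 hx'0
          rw [← sub_eq_zero]
          refine Eq.trans ?_ h0
          have hc : heckeOp Φ h ℓ₀ (heckeOp Φ h ℓ x') = heckeOp Φ h ℓ (heckeOp Φ h ℓ₀ x') :=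
            LinearMap.congr_fun (heckeOp_commute h ℓ₀ ℓ) x'
          conv_lhs => rw [← hx'0]
          simp only [map_sub, map_smul, hc, smul_sub, smul_comm (v ℓ) (u⁻¹ : Vˣ).val,
            smul_comm (v ℓ) (eisensteinValue Φ M ℓ₀)]
          abel
        obtain ⟨γ, hγ⟩ := hγ
        refine ih x' hsysx' ⟨γ, fun hd => hγ ?_⟩
        rw [hsx'] at hd
        rw [hw γ, pow_succ']
        exact mul_dvd_mul_left ϖ hd
      · push Not at hall
        obtain ⟨γ, hγ'⟩ := hall
        refine ⟨x, hx, γ, fun h0 => hγ' ?_⟩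
        rw [residue_eq_zero_iff, hmax, Ideal.mem_span_singleton] at h0
        exact h0
  obtain ⟨γ, hγ⟩ : ∃ γ, (s y : L.grp → V) γ ≠ 0 := by
    by_contra! hall
    have e : s y = 0 := Subtype.ext (funext hall)
    exact hy0 (by rw [← hfix y (hy ℓ₀ hℓ₀), e, map_zero])
  obtain ⟨n, hn⟩ : ∃ n : ℕ, ¬ ϖ ^ n ∣ (s y : L.grp → V) γ := by
    obtain ⟨m, w, hw⟩ := IsDiscreteValuationRing.eq_unit_mul_pow_irreducible hγ hϖ
    refine ⟨m + 1, fun hd => ?_⟩
    rw [hw, IsUnit.dvd_mul_left w.isUnit] at hd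
    have := (pow_dvd_pow_iff hϖ.ne_zero hϖ.not_isUnit).1 hd
    omega
  obtain ⟨x, hx, γ, hγ⟩ := key n y hy ⟨γ, hn⟩
  refine ⟨heckeBaseChange Φ (residue V) h x, fun h0 => ?_, fun ℓ hℓ => ?_⟩
  · -- a cocycle which is residually a coboundary is residually killed by `t`
    rw [← hfix x (hx ℓ₀ hℓ₀)] at h0
    obtain ⟨b, hb⟩ := (Submodule.Quotient.mk_eq_zero _).1 h0
    obtain ⟨b, rfl⟩ := residue_surjective b
    set d : L.Z1 := s x - coboundary L.char b
    have hd : ∀ g, ϖ ∣ (d : L.grp → V) g := fun g => by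
      rw [← Ideal.mem_span_singleton, ← hmax, ← residue_eq_zero_iff]
      have e := congrFun (congrArg Subtype.val (hb.symm.trans
        (mapCocycle_coboundary (residue V) L.char b).symm)) g
      simp only [d, Submodule.coe_sub, Pi.sub_apply, map_sub]
      exact sub_eq_zero.2 e
    choose w hw using hd
    have hwmem : w ∈ L.Z1 := fun g g' => mul_left_cancel₀ hϖ.ne_zero (by
      rw [← hw, mul_add, ← hw, mul_left_comm, ← hw]
      exact d.2 g g')
    have hdw : d = ϖ • (⟨w, hwmem⟩ : L.Z1) := Subtype.ext (funext hw)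
    have e : toH1 L.char d = x := by
      rw [map_sub, hfix x (hx ℓ₀ hℓ₀),
        show toH1 L.char (coboundary L.char b) = 0 from
          (Submodule.Quotient.mk_eq_zero _).2 ⟨b, rfl⟩, sub_zero]
    rw [← e, hdw, map_smul, map_smul] at hγ
    refine hγ ?_
    rw [residue_eq_zero_iff, hmax, Ideal.mem_span_singleton]
    exact ⟨_, rfl⟩
  · rw [← heckeBaseChange_heckeOp, hx ℓ hℓ, LinearMap.map_smulₛₗ]

end Fermat.Agent.RT.TW

end
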