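import Fermat.Agent.RT.TW.TwistedHecke
import Fermat.Agent.Periods.HeckeComm
import Mathlib.NumberTheory.MulChar.Basic
import Mathlib.Algebra.MvPolynomial.Eval

/-!
# The Hecke modules `H¹(Γ₀(M), A_Φ)`

For `Φ : MulChar (ZMod N) A` and `N ∣ M` we have `H¹(Γ₀(M), A)` twisted by `Φ(d)`, with the
commuting operators `T_p` (`p ∤ M`), `U_p` (`p ∣ M`), assembled in an action of the polynomial ring
on the primes. On coboundaries `T_p` is `p + Φ(p)`.
-/

set_option autoImplicit false

noncomputable section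

namespace Fermat.Agent.RT.TW

open scoped MatrixGroups
open CongruenceSubgroup Periods

variable {A : Type} [CommRing A] {N : ℕ}

/-- Matrices with `N ∣ c` and `a` prime to `N`, weighted by `Φ(a)`. -/
def gamma0Weighting (Φ : MulChar (ZMod N) A) : Weighting A where
  S :=
    { carrier := {M | (N : ℤ) ∣ M 1 0 ∧ IsUnit ((M 0 0 : ℤ) : ZMod N)}
      one_mem' := by simp
      mul_mem' := by
        rintro X Y ⟨hX, hXu⟩ ⟨hY, hYu⟩
        refine ⟨?_, ?_⟩
        · rw [Matrix.mul_apply, Fin.sum_univ_two]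
          exact dvd_add (hX.mul_right _) (hY.mul_left _)
        · rw [Matrix.mul_apply, Fin.sum_univ_two]
          push_cast
          rw [(ZMod.intCast_zmod_eq_zero_iff_dvd (Y 1 0) N).2 hY, mul_zero, add_zero]
          exact hXu.mul hYu }
  ψ :=
    { toFun := fun M => Φ (((M : IntMat) 0 0 : ℤ) : ZMod N)
      map_one' := by simp
      map_mul' := fun X Y => by
        rw [Submonoid.coe_mul, Matrix.mul_apply, Fin.sum_univ_two]
        push_cast
        rw [(ZMod.intCast_zmod_eq_zero_iff_dvd _ N).2 Y.2.1, mul_zero, add_zero, map_mul] }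

theorem gamma0Weighting_ψ (Φ : MulChar (ZMod N) A) (M : (gamma0Weighting Φ).S) :
    (gamma0Weighting Φ).ψ M = Φ (((M : IntMat) 0 0 : ℤ) : ZMod N) := rfl

theorem gammaMat_mem_gamma0Weighting (Φ : MulChar (ZMod N) A) {Γ : Subgroup SL(2, ℤ)}
    (γ : Γ) (hc : (N : ℤ) ∣ gammaMat γ 1 0) : gammaMat γ ∈ (gamma0Weighting Φ).S := by
  refine ⟨hc, IsUnit.of_mul_eq_one ((gammaMat γ 1 1 : ℤ) : ZMod N) ?_⟩
  have h := gammaMat_det γ
  rw [Matrix.det_fin_two] at h
  have h' := congrArg (Int.cast : ℤ → ZMod N) h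
  push_cast at h'
  rwa [(ZMod.intCast_zmod_eq_zero_iff_dvd _ N).2 hc, mul_zero, sub_zero] at h'

/-- `Γ₀(M)` as a level, for `N ∣ M`. -/
def level0 (Φ : MulChar (ZMod N) A) (M : ℕ) (h : N ∣ M) : WLevel (gamma0Weighting Φ) where
  grp := Gamma0 M
  mem γ := gammaMat_mem_gamma0Weighting Φ γ ((Int.natCast_dvd_natCast.2 h).trans
    ((ZMod.intCast_zmod_eq_zero_iff_dvd _ M).1 (Gamma0_mem.1 γ.2)))

variable {Φ : MulChar (ZMod N) A} {M p : ℕ}

theorem heckeMat_mem (h : N ∣ M) (hp : p.Prime) (i : HeckeIdx M p) :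
    heckeMat M p i ∈ (gamma0Weighting Φ).S := by
  obtain ⟨_ | j, hi⟩ := i
  · refine ⟨by simp [heckeMat], ?_⟩
    have hcop : p.Coprime N := hp.coprime_iff_not_dvd.2 fun hd => hi rfl (hd.trans h)
    simpa [heckeMat] using (ZMod.unitOfCoprime p hcop).isUnit
  · exact ⟨by simp [heckeMat], by simp [heckeMat]⟩

variable (Φ) in
/-- The coset family of `T_p` (`p ∤ M`) or `U_p` (`p ∣ M`). -/
def heckeFamily (h : N ∣ M) (hp : p.Prime) :
    CosetFamily (level0 Φ M h) (level0 Φ M h) (HeckeIdx M p) :=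
  CosetFamily.ofSeparated (fun i => ⟨heckeMat M p i, heckeMat_mem h hp i⟩)
    (fun i => heckeMat_det_ne_zero hp i) (fun i j g hij => heckeMat_separated hp i j g hij)
    (fun γ i => exists_transfer hp γ i)

/-- `H¹(Γ₀(M), A_Φ)`. -/
abbrev heckeH1 (Φ : MulChar (ZMod N) A) (M : ℕ) (h : N ∣ M) : Type :=
  (level0 Φ M h).H1

variable (Φ) in
/-- `T_p` or `U_p` on cohomology. -/
def heckeOp (h : N ∣ M) (p : Nat.Primes) : Module.End A (heckeH1 Φ M h) :=
  (heckeFamily Φ h p.2).opH1

theorem heckeOp_commute (h : N ∣ M) (p q : Nat.Primes) :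
    Commute (heckeOp Φ h p) (heckeOp Φ h q) := by
  rcases eq_or_ne p q with rfl | hpq
  · exact Commute.refl _
  have hpq' : (p : ℕ) ≠ q := fun e => hpq (Subtype.ext e)
  choose e δ hδ using heckeProd_swap (N := M) p.2 q.2 hpq'
  have hbij : Function.Bijective e := by
    refine (Fintype.bijective_iff_injective_and_card e).2 ⟨fun x y hxy => ?_, ?_⟩
    · refine heckeProd_separated p.2 q.2 hpq' x y (δ x * (δ y)⁻¹) ?_
      rw [hδ x, hδ y, ← Matrix.mul_assoc, ← gammaMat_mul, inv_mul_cancel_right, hxy]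
    · simp [Fintype.card_prod, mul_comm]
  let E := Equiv.ofBijective e hbij
  -- the products of representatives, with the first factor applied first
  refine (CosetFamily.opH1_comm_of_cosets (heckeFamily Φ h p.2) (heckeFamily Φ h q.2)
    ((Equiv.prodComm _ _).trans (E.symm.trans (Equiv.prodComm _ _)))
    (fun x => δ (E.symm x.swap)) fun x => ?_).symm
  have hx := hδ (E.symm x.swap)
  have hs : e (E.symm x.swap) = x.swap := E.apply_symm_apply _
  rw [hs] at hx
  exact hx

/-- The value of `T_p` on coboundaries. -/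
def eisensteinValue (Φ : MulChar (ZMod N) A) (M p : ℕ) : A :=
  p + if p ∣ M then 0 else Φ (p : ZMod N)

theorem sum_weight_heckeFamily (h : N ∣ M) (hp : p.Prime) :
    ∑ i, (heckeFamily Φ h hp).weight i = eisensteinValue Φ M p := by
  have hw : ∀ i : HeckeIdx M p, (heckeFamily Φ h hp).weight i =
      i.1.elim (Φ (p : ZMod N)) (fun _ => 1) := by
    rintro ⟨_ | j, hi⟩
    · show Φ ((((heckeMat M p ⟨none, hi⟩ : IntMat) 0 0 : ℤ) : ZMod N)) = _
      simp [heckeMat]
    · show Φ ((((heckeMat M p ⟨some j, hi⟩ : IntMat) 0 0 : ℤ) : ZMod N)) = _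
      simp [heckeMat]
  rw [Finset.sum_congr rfl fun i _ => hw i, eisensteinValue]
  have h1 := Finset.sum_subtype (p := fun x : Option (Fin p) => x = none → ¬ p ∣ M)
    (F := inferInstance) (Finset.univ.filter fun x : Option (Fin p) => x = none → ¬ p ∣ M) (by simp)
    (fun x => x.elim (Φ (p : ZMod N)) (fun _ => (1 : A)))
  rw [← h1, Finset.sum_filter, Fintype.sum_option, add_comm]
  split_ifs with hpM <;> simp_all

theorem heckeOp_toH1 (h : N ∣ M) (p : Nat.Primes) (c : (level0 Φ M h).Z1) :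
    heckeOp Φ h p (toH1 (level0 Φ M h).char c) = toH1 (level0 Φ M h).char ((heckeFamily Φ h p.2).op c) := rfl

/-- The cocycle level lift of `T_p - (p + Φ p)`, which kills coboundaries. -/
theorem exists_lift_heckeOp_sub (h : N ∣ M) (p : Nat.Primes) :
    ∃ t : Module.End A (level0 Φ M h).Z1,
      (∀ c ∈ LinearMap.range (coboundary (level0 Φ M h).char), t c = 0) ∧
      ∀ c, toH1 (level0 Φ M h).char (t c) = heckeOp Φ h p (toH1 (level0 Φ M h).char c) - eisensteinValue Φ M p • toH1 (level0 Φ M h).char c := by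
  refine ⟨(heckeFamily Φ h p.2).op - (∑ i, (heckeFamily Φ h p.2).weight i) •
    (LinearMap.id (R := A) (M := (level0 Φ M h).Z1)), fun c hc =>
      (heckeFamily Φ h p.2).op_sub_smul_coboundary hc, fun c => ?_⟩
  rw [LinearMap.sub_apply, LinearMap.smul_apply, LinearMap.id_apply, map_sub, map_smul,
    sum_weight_heckeFamily, heckeOp_toH1]

theorem isMulCommutative_adjoin_heckeOp (h : N ∣ M) :
    IsMulCommutative (Algebra.adjoin A (Set.range (heckeOp Φ h))) :=
  Algebra.isMulCommutative_adjoin A (by rintro _ ⟨a, rfl⟩ _ ⟨b, rfl⟩; exact heckeOp_commute h a b)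

variable (Φ) in
open scoped IsMulCommutative in
/-- The action of the polynomial ring on the primes. -/
def heckeAct (h : N ∣ M) : MvPolynomial Nat.Primes A →ₐ[A] Module.End A (heckeH1 Φ M h) :=
  haveI := isMulCommutative_adjoin_heckeOp (Φ := Φ) h
  (Algebra.adjoin A (Set.range (heckeOp Φ h))).val.comp
    (MvPolynomial.aeval fun p =>
      (⟨heckeOp Φ h p, Algebra.subset_adjoin (Set.mem_range_self p)⟩ :
        Algebra.adjoin A (Set.range (heckeOp Φ h))))

end Fermat.Agent.RT.TW

end
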