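import Fermat.Agent.RT.TW.MixedFamily

/-!
# Conversions of weighted coset families

Changing the names of the characters, changing the representatives, and viewing a separated
`CosetFamily` as a `MixedFamily`.
-/

set_option autoImplicit false

noncomputable section

namespace Fermat.Agent.RT.TW

open scoped MatrixGroups
open Periods

variable {A : Type*} [CommRing A] {Γ₁ Γ₂ : Subgroup SL(2, ℤ)}

namespace MixedFamily

variable {χ₁ χ₁' : Γ₁ →* Aˣ} {χ₂ χ₂' : Γ₂ →* Aˣ} {ι κ : Type*}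

/-- The same family for equal characters. -/
def castChar (D : MixedFamily χ₁ χ₂ ι) (h₁ : χ₁ = χ₁') (h₂ : χ₂ = χ₂') :
    MixedFamily χ₁' χ₂' ι where
  mat := D.mat
  wt := D.wt
  perm := D.perm
  elt := D.elt
  perm_mul := D.perm_mul
  elt_mul := D.elt_mul
  step := D.step
  wt_step γ i := by rw [← h₁, ← h₂]; exact D.wt_step γ i

@[simp] theorem castChar_mat (D : MixedFamily χ₁ χ₂ ι) (h₁ : χ₁ = χ₁') (h₂ : χ₂ = χ₂') :
    (D.castChar h₁ h₂).mat = D.mat := rfl

@[simp] theorem castChar_wt (D : MixedFamily χ₁ χ₂ ι) (h₁ : χ₁ = χ₁') (h₂ : χ₂ = χ₂') :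
    (D.castChar h₁ h₂).wt = D.wt := rfl

/-- The family with representative `δ i * M (e i)` at `i`. -/
def reindex (D : MixedFamily χ₁ χ₂ κ) (e : ι ≃ κ) (δ : ι → Γ₁) : MixedFamily χ₁ χ₂ ι where
  mat i := gammaMat (δ i) * D.mat (e i)
  wt i := D.wt (e i) * (((χ₁ (δ i))⁻¹ : Aˣ) : A)
  perm γ := (e.trans (D.perm γ)).trans e.symm
  elt γ i := δ i * D.elt γ (e i) * (δ (((e.trans (D.perm γ)).trans e.symm) i))⁻¹
  perm_mul g h i := by simp [D.perm_mul]
  elt_mul g h i := by
    simp only [Equiv.trans_apply, Equiv.apply_symm_apply, D.perm_mul, D.elt_mul]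
    group
  step γ i := by
    rw [Matrix.mul_assoc, D.step, ← Matrix.mul_assoc, ← gammaMat_mul, ← Matrix.mul_assoc,
      ← gammaMat_mul, inv_mul_cancel_right]
    simp
  wt_step γ i := by
    simp only [Equiv.trans_apply, Equiv.apply_symm_apply, map_mul, map_inv, Units.val_mul]
    have hu : (((χ₁ (δ i))⁻¹ : Aˣ) : A) * (χ₁ (δ i) : A) = 1 := (χ₁ (δ i)).inv_mul
    have hw := D.wt_step γ (e i)
    set j := e.symm (D.perm γ (e i))
    linear_combination
      (D.wt (e i) * (χ₁ (D.elt γ (e i)) : A) * (((χ₁ (δ j))⁻¹ : Aˣ) : A)) * hu +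
        (((χ₁ (δ j))⁻¹ : Aˣ) : A) * hw

@[simp] theorem reindex_mat (D : MixedFamily χ₁ χ₂ κ) (e : ι ≃ κ) (δ : ι → Γ₁) :
    (D.reindex e δ).mat = fun i => gammaMat (δ i) * D.mat (e i) := rfl

@[simp] theorem reindex_wt (D : MixedFamily χ₁ χ₂ κ) (e : ι ≃ κ) (δ : ι → Γ₁) :
    (D.reindex e δ).wt = fun i => D.wt (e i) * (((χ₁ (δ i))⁻¹ : Aˣ) : A) := rfl

theorem opH1_reindex [Fintype ι] [Fintype κ] [DecidableEq κ] (D : MixedFamily χ₁ χ₂ κ)
    (hsep : IsSepFamily Γ₁ D.mat) (e : ι ≃ κ) (δ : ι → Γ₁) :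
    (D.reindex e δ).opH1 = D.opH1 := by
  refine opH1_eq_of_collapse _ _ hsep e δ (fun i => rfl) fun k => ?_
  rw [show Finset.univ.filter (fun i => e i = k) = {e.symm k} by
    ext i; simp [Equiv.eq_symm_apply], Finset.sum_singleton]
  show D.wt (e (e.symm k)) * _ * _ = _
  rw [Equiv.apply_symm_apply, mul_assoc, Units.inv_mul, mul_one]

end MixedFamily

section OfCoset

variable {W : Weighting A} {L₁ L₂ : WLevel W} {ι : Type*}

/-- A coset family in distinct cosets, as a mixed family. -/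
def CosetFamily.toMixed [Finite ι] (D : CosetFamily L₁ L₂ ι)
    (hsep : IsSepFamily L₁.grp (fun i => (D.mat i : IntMat))) :
    MixedFamily L₁.char L₂.char ι :=
  MixedFamily.ofSep (fun i => (D.mat i : IntMat)) D.weight hsep fun γ i =>
    ⟨(D.exists_step γ).choose i, D.elt γ i, D.isStep_elt γ i, D.weight_step (D.isStep_elt γ i)⟩

theorem CosetFamily.toMixed_opH1 [Fintype ι] (D : CosetFamily L₁ L₂ ι)
    (hsep : IsSepFamily L₁.grp (fun i => (D.mat i : IntMat))) :
    (D.toMixed hsep).opH1 = D.opH1 := by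
  refine LinearMap.ext fun y => ?_
  obtain ⟨c, rfl⟩ := Submodule.mkQ_surjective _ y
  show toH1 L₂.char ((D.toMixed hsep).op c) = toH1 L₂.char (D.op c)
  refine congrArg _ (Subtype.ext (funext fun γ => ?_))
  rw [MixedFamily.op_apply, D.op_apply_of_step c (σ := (D.toMixed hsep).perm γ)
    (g := (D.toMixed hsep).elt γ) ((D.toMixed hsep).step γ)]
  rfl

@[simp] theorem CosetFamily.toMixed_mat [Finite ι] (D : CosetFamily L₁ L₂ ι)
    (hsep : IsSepFamily L₁.grp (fun i => (D.mat i : IntMat))) :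
    (D.toMixed hsep).mat = fun i => (D.mat i : IntMat) := rfl

@[simp] theorem CosetFamily.toMixed_wt [Finite ι] (D : CosetFamily L₁ L₂ ι)
    (hsep : IsSepFamily L₁.grp (fun i => (D.mat i : IntMat))) :
    (D.toMixed hsep).wt = fun i => W.ψ (D.mat i) := rfl

end OfCoset

end Fermat.Agent.RT.TW

end
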