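import Mathlib.RingTheory.Filtration
import Mathlib.RingTheory.Nakayama
import Mathlib.LinearAlgebra.Quotient.Basic
import Mathlib.RingTheory.LocalRing.MaximalIdeal.Basic
import Mathlib.RingTheory.Finiteness.Basic
import Mathlib.Tactic.Module
import Mathlib.Tactic.Abel

/-!
# Adding a Taylor–Wiles prime to the level

`H` is (the `m`-part of) `H¹` of a level prime to `q`, `H'` that of the level with `Γ₀(q)` added,
`i₁, i₂` the two degeneracy maps and `j₁` the corestriction. If the Frobenius eigenvalues
`α ≢ β`, then `x ↦ i₁ (α x) - i₂ x` identifies `H` with the part of `H'` where `U ≡ α`.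
The surjectivity is algebraic: `U + W ∈ im i₁` for the involution `W`, so
`U² - W²` maps `H'` into the old space.
-/

set_option autoImplicit false

namespace Fermat.Agent.RT.TW

section Filtration

variable {A : Type*} [CommRing A] {M : Type*} [AddCommGroup M] [Module A M]

/-- `f - c`. -/
def shiftEnd (f : Module.End A M) (c : A) : Module.End A M := f - c • 1

theorem shiftEnd_apply (f : Module.End A M) (c : A) (x : M) : shiftEnd f c x = f x - c • x := rfl

theorem mem_pow_smul_map {N : Type*} [AddCommGroup N] [Module A N] (J : Ideal A) (f : M →ₗ[A] N)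
    {x : M} (hx : x ∈ J • (⊤ : Submodule A M)) : f x ∈ J • (⊤ : Submodule A N) := by
  have h := Submodule.mem_map_of_mem (f := f) hx
  rw [Submodule.map_smul''] at h
  exact Submodule.smul_mono le_rfl le_top h

/-- An endomorphism nilpotent modulo `I` on the range of an idempotent commuting with it. -/
theorem pow_mem_pow_smul (I : Ideal A) (f π : Module.End A M) (hπ : ∀ y, π (π y) = π y)
    (hcomm : ∀ (k : ℕ) (y : M), π ((f ^ k) y) = (f ^ k) (π y)) {m : ℕ}
    (hnil : ∀ y, (f ^ m) (π y) ∈ I • (⊤ : Submodule A M)) (k : ℕ) (y : M) :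
    (f ^ (m * k)) (π y) ∈ I ^ k • (⊤ : Submodule A M) := by
  induction k generalizing y with
  | zero => simp
  | succ k ih =>
    rw [show m * (k + 1) = m + m * k by ring, pow_add f m (m * k), Module.End.mul_apply]
    have h := Submodule.mem_map_of_mem (f := (f ^ m) * π) (ih y)
    rw [Submodule.map_smul'', Submodule.map_top] at h
    have hr : LinearMap.range ((f ^ m) * π) ≤ I • (⊤ : Submodule A M) := by
      rintro _ ⟨z, rfl⟩; exact hnil z
    have h3 := Submodule.smul_mono (le_refl _) hr h
    rw [← Submodule.smul_assoc, smul_eq_mul, ← pow_succ] at h3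
    rwa [Module.End.mul_apply, hcomm, hπ] at h3

variable [IsLocalRing A] [IsNoetherianRing A] [Module.Finite A M]

/-- Krull intersection in a finite module. -/
theorem eq_zero_of_forall_mem_pow_smul {x : M}
    (h : ∀ k : ℕ, x ∈ IsLocalRing.maximalIdeal A ^ k • (⊤ : Submodule A M)) : x = 0 := by
  have h' : x ∈ (⨅ k : ℕ, IsLocalRing.maximalIdeal A ^ k • (⊤ : Submodule A M)) :=
    (Submodule.mem_iInf _).2 h
  rwa [Ideal.iInf_pow_smul_eq_bot_of_isLocalRing _
    (IsLocalRing.maximalIdeal.isMaximal A).ne_top] at h'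

end Filtration

section AddPrime

variable {A : Type*} [CommRing A] {H H' : Type*} [AddCommGroup H] [Module A H]
  [AddCommGroup H'] [Module A H']

/-- The relations between the degeneracy maps, `U` and the involution `W` at the new prime. -/
structure AddPrimeData (A : Type*) [CommRing A] (H H' : Type*) [AddCommGroup H] [Module A H]
    [AddCommGroup H'] [Module A H'] where
  /-- first degeneracy map (restriction) -/
  i₁ : H →ₗ[A] H'
  /-- second degeneracy map -/
  i₂ : H →ₗ[A] H'
  /-- corestriction -/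
  j₁ : H' →ₗ[A] H
  /-- the operator at `q` on the new level -/
  U : H' →ₗ[A] H'
  /-- the involution -/
  W : H' →ₗ[A] H'
  /-- its square -/
  W2 : H' →ₗ[A] H'
  /-- `T_q` on the old level -/
  T : H →ₗ[A] H
  /-- `q⟨q⟩` on the old level -/
  R : H →ₗ[A] H
  /-- the trace composed with the involution -/
  P : H' →ₗ[A] H
  /-- the degree -/
  deg : A
  U_i₁ : ∀ x, U (i₁ x) = i₁ (T x) - i₂ x
  U_i₂ : ∀ x, U (i₂ x) = i₁ (R x)
  U_add_W : ∀ y, U y + W y = i₁ (P y)
  W_W : ∀ y, W (W y) = W2 y
  j₁_i₁ : ∀ x, j₁ (i₁ x) = deg • x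
  j₁_i₂ : ∀ x, j₁ (i₂ x) = T x

namespace AddPrimeData

variable (D : AddPrimeData A H H')

/-- The old space is stable under `U`, and `U² - W²` maps everything into it. -/
theorem exists_old (y : H') : ∃ a b, D.U (D.U y) - D.W2 y = D.i₁ a + D.i₂ b := by
  have h1 : D.U y = D.i₁ (D.P y) - D.W y := eq_sub_of_add_eq (D.U_add_W y)
  have h2 : D.U (D.W y) = D.i₁ (D.P (D.W y)) - D.W2 y := by
    rw [← D.W_W]; exact eq_sub_of_add_eq (D.U_add_W (D.W y))
  refine ⟨D.T (D.P y) - D.P (D.W y), -D.P y, ?_⟩
  rw [h1, map_sub, D.U_i₁, h2, map_sub, map_neg]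
  abel

/-- The stabilisation attached to a root `α`. -/
def stab (α : H →ₗ[A] H) : H →ₗ[A] H' := D.i₁ ∘ₗ α - D.i₂

theorem stab_apply (α : H →ₗ[A] H) (x : H) : D.stab α x = D.i₁ (α x) - D.i₂ x := rfl

theorem U_stab {α β : H →ₗ[A] H} (hT : ∀ x, D.T x = α x + β x) (hR : ∀ x, D.R x = β (α x)) (x : H) :
    D.U (D.stab α x) = D.stab α (α x) := by
  rw [stab_apply, stab_apply, map_sub, D.U_i₁, D.U_i₂, hT, hR, map_add]
  abel

theorem pow_shift_stab (c : A) {α β : H →ₗ[A] H} (hT : ∀ x, D.T x = α x + β x)
    (hR : ∀ x, D.R x = β (α x)) (n : ℕ) (x : H) :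
    (shiftEnd D.U c ^ n) (D.stab α x) = D.stab α ((shiftEnd α c ^ n) x) := by
  induction n generalizing x with
  | zero => rfl
  | succ n ih =>
    rw [pow_succ, pow_succ, Module.End.mul_apply, Module.End.mul_apply, shiftEnd_apply,
      D.U_stab hT hR, ← map_smul, ← map_sub, ih]
    rfl

variable [IsLocalRing A] [IsNoetherianRing A] [Module.Finite A H] [Module.Finite A H']
variable {α β : H →ₗ[A] H} {c : A} {π : H' →ₗ[A] H'}

omit [Module.Finite A H] in
/-- The stabilisation is injective, and its image is the `α`-part, cut out by the idempotent `π`: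
`U - c` is nilpotent modulo the maximal ideal on it and bijective on the complement, and
`U² - W²` reaches all of it. -/
theorem injective_stab_and_range_eq (hαβ : ∀ x, α (β x) = β (α x))
    (hT : ∀ x, D.T x = α x + β x) (hR : ∀ x, D.R x = β (α x))
    (hdiff : Function.Bijective (α - β))
    (hdeg : Function.Bijective (D.deg • α - α - β))
    {n : ℕ} (hα : ∀ x, (shiftEnd α c ^ n) x ∈
      IsLocalRing.maximalIdeal A • (⊤ : Submodule A H))
    (hβ : Function.Bijective (shiftEnd β c))
    (hπU : ∀ y, π (D.U y) = D.U (π y)) (hπ : ∀ y, π (π y) = π y)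
    {m : ℕ} (hnil : ∀ y, (shiftEnd D.U c ^ m) (π y) ∈
      IsLocalRing.maximalIdeal A • (⊤ : Submodule A H'))
    (hker : ∀ y, π y = 0 → ∃ y', π y' = 0 ∧ D.U y' - c • y' = y)
    (hkerinj : ∀ y, π y = 0 → D.U y = c • y → y = 0)
    (hold : ∀ y, π y = y → ∃ y', D.U (D.U y') - D.W2 y' = y) :
    Function.Injective (D.stab α) ∧ LinearMap.range (D.stab α) = LinearMap.range π := by
  set u := shiftEnd D.U c with hu
  set 𝔪 := IsLocalRing.maximalIdeal A
  have hπu1 : ∀ y, π (u y) = u (π y) := fun y => by
    rw [hu, shiftEnd_apply, shiftEnd_apply, map_sub, map_smul, hπU]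
  have hπu : ∀ (k : ℕ) (y : H'), π ((u ^ k) y) = (u ^ k) (π y) := by
    intro k
    induction k with
    | zero => intro y; rfl
    | succ k ih => intro y; rw [pow_succ, Module.End.mul_apply, Module.End.mul_apply, ih, hπu1]
  -- `u` is invertible on the complement
  let K : Submodule A H' := LinearMap.ker π
  let uK : K →ₗ[A] K := LinearMap.restrict u fun y (hy : π y = 0) => by
    show π (u y) = 0
    rw [hπu1, hy, map_zero]
  have huK : Function.Bijective uK := by
    refine ⟨(injective_iff_map_eq_zero uK).2 fun y hy => ?_, fun y => ?_⟩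
    · exact Subtype.ext (hkerinj _ y.2 (sub_eq_zero.1 (congrArg Subtype.val hy)))
    · obtain ⟨y', h1, h2⟩ := hker _ y.2
      exact ⟨⟨y', h1⟩, Subtype.ext h2⟩
  let v : Module.End A H' :=
    K.subtype ∘ₗ (LinearEquiv.ofBijective uK huK).symm.toLinearMap ∘ₗ
      LinearMap.codRestrict K (LinearMap.id - π) fun y => by
        show π (y - π y) = 0
        rw [map_sub, hπ, sub_self]
  have hv : ∀ y, π y = 0 → v (u y) = y := fun y hy => by
    have e : LinearMap.codRestrict K (LinearMap.id - π) (fun y => by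
        show π (y - π y) = 0
        rw [map_sub, hπ, sub_self]) (u y) = uK ⟨y, hy⟩ := by
      apply Subtype.ext
      show u y - π (u y) = u y
      rw [hπu1, hy, map_zero, sub_zero]
    show ((LinearEquiv.ofBijective uK huK).symm
      (LinearMap.codRestrict K (LinearMap.id - π) _ (u y)) : H') = y
    rw [e, show uK ⟨y, hy⟩ = LinearEquiv.ofBijective uK huK ⟨y, hy⟩ from rfl,
      LinearEquiv.symm_apply_apply]
  have hvN : ∀ (N : ℕ) (y : H'), π y = 0 → (v ^ N) ((u ^ N) y) = y := by
    intro N
    induction N with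
    | zero => intro y _; rfl
    | succ N ih =>
      intro y hy
      rw [pow_succ, pow_succ', Module.End.mul_apply, Module.End.mul_apply,
        hv _ (by rw [hπu, hy, map_zero]), ih y hy]
  -- the stabilisation lands in the `α`-part
  have hαk : ∀ k x, (shiftEnd α c ^ (n * k)) x ∈ 𝔪 ^ k • (⊤ : Submodule A H) := fun k x => by
    have := pow_mem_pow_smul 𝔪 (shiftEnd α c) 1 (fun _ => rfl) (fun _ _ => rfl) (fun y => hα y) k x
    simpa using this
  have hmem : ∀ x, π (D.stab α x) = D.stab α x := by
    intro x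
    set y := D.stab α x - π (D.stab α x) with hy
    have hπy : π y = 0 := by rw [hy, map_sub, hπ, sub_self]
    have h0 : y = 0 := by
      refine eq_zero_of_forall_mem_pow_smul (A := A) fun k => ?_
      have e : (u ^ (n * k)) y =
          ((LinearMap.id - π) ∘ₗ D.stab α) ((shiftEnd α c ^ (n * k)) x) := by
        rw [hy, map_sub, ← hπu, D.pow_shift_stab c hT hR]
        rfl
      rw [← hvN (n * k) y hπy, e]
      exact mem_pow_smul_map _ (v ^ (n * k)) (mem_pow_smul_map _ _ (hαk k x))
    rw [hy, sub_eq_zero] at h0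
    exact h0.symm
  -- the other stabilisation is killed
  have hkill : ∀ x, π (D.stab β x) = 0 := by
    intro x
    refine eq_zero_of_forall_mem_pow_smul (A := A) fun k => ?_
    obtain ⟨w, hw⟩ : ∃ w, (shiftEnd β c ^ (m * k)) w = x := by
      have : Function.Bijective (shiftEnd β c ^ (m * k)) := by
        rw [Module.End.coe_pow]; exact hβ.iterate _
      exact this.2 x
    rw [← hw, ← D.pow_shift_stab c (α := β) (β := α) (fun z => by rw [hT, add_comm])
      (fun z => by rw [hR, hαβ]), hπu]
    exact pow_mem_pow_smul 𝔪 u π hπ hπu hnil k _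
  constructor
  · intro x y hxy
    have h := congrArg D.j₁ hxy
    simp only [stab_apply, map_sub, D.j₁_i₁, D.j₁_i₂, hT, ← sub_sub] at h
    exact hdeg.1 h
  · apply le_antisymm
    · rintro _ ⟨x, rfl⟩
      exact ⟨_, hmem x⟩
    · rintro _ ⟨z, rfl⟩
      obtain ⟨y', hy'⟩ := hold (π z) (hπ z)
      obtain ⟨a, b, hab⟩ := D.exists_old y'
      obtain ⟨d, hd⟩ := hdiff.2 (-a - α b)
      refine ⟨-b - d, ?_⟩
      have hy : D.stab α (-b - d) + D.stab β d = π z := by
        rw [← hy', hab, stab_apply, stab_apply]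
        have h : D.i₁ (α d) - D.i₁ (β d) = -D.i₁ a - D.i₁ (α b) := by
          rw [← map_sub, ← LinearMap.sub_apply, hd, map_sub, map_neg]
        have h2 : D.i₁ (β d) = D.i₁ (α d) + D.i₁ a + D.i₁ (α b) := by
          rw [← sub_eq_zero]
          rw [← sub_eq_zero] at h
          rw [← neg_eq_zero, ← h]
          abel
        simp only [map_sub, map_neg, h2]
        abel
      have h := congrArg π hy
      rwa [map_add, hmem, hkill, add_zero, hπ] at h

end AddPrimeData

end AddPrime

end Fermat.Agent.RT.TW
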