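import Mathlib.GroupTheory.FreeGroup.IsFreeGroup
import Mathlib.LinearAlgebra.Quotient.Basic
import Mathlib.LinearAlgebra.FreeModule.Finite.Basic
import Mathlib.RingTheory.Ideal.Operations
import Mathlib.RingTheory.Ideal.Maps
import Mathlib.LinearAlgebra.Basis.Basic
import Mathlib.Tactic.LinearCombination

/-!
# Twisted one-cocycles of free groups

For a character `χ : Γ →* Aˣ` of a group with a finite free basis, the module of one-cocycles with
values in `A` twisted by `χ` is free on the basis, and base change along a surjection `A → A'` is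
the quotient by the kernel, on cocycles as well as on `H¹`.
-/

set_option autoImplicit false

noncomputable section

namespace Fermat.Agent.RT.TW

variable {Γ : Type*} [Group Γ] {A : Type*} [CommRing A]

/-- One-cocycles of `Γ` with values in `A` twisted by `χ`. -/
def twistedCocycles (χ : Γ →* Aˣ) : Submodule A (Γ → A) where
  carrier := {c | ∀ g h, c (g * h) = c g + (χ g : A) * c h}
  zero_mem' := fun _ _ => by simp
  add_mem' := fun {c d} hc hd g h => by simp only [Pi.add_apply, hc g h, hd g h]; ring
  smul_mem' := fun a c hc g h => by simp only [Pi.smul_apply, smul_eq_mul, hc g h]; ring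

theorem mem_twistedCocycles {χ : Γ →* Aˣ} {c : Γ → A} :
    c ∈ twistedCocycles χ ↔ ∀ g h, c (g * h) = c g + (χ g : A) * c h := Iff.rfl

theorem twistedCocycle_one {χ : Γ →* Aˣ} (c : twistedCocycles χ) : (c : Γ → A) 1 = 0 := by
  have h := c.2 1 1
  simp at h
  exact h

theorem twistedCocycle_mul {χ : Γ →* Aˣ} (c : twistedCocycles χ) (g h : Γ) :
    (c : Γ → A) (g * h) = (c : Γ → A) g + (χ g : A) * (c : Γ → A) h := c.2 g h

theorem twistedCocycle_inv {χ : Γ →* Aˣ} (c : twistedCocycles χ) (g : Γ) :
    (χ g : A) * (c : Γ → A) g⁻¹ = -(c : Γ → A) g := by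
  have h := twistedCocycle_mul c g g⁻¹
  rw [mul_inv_cancel, twistedCocycle_one] at h
  linear_combination -h

/-- The coboundary of `x`. -/
def coboundary (χ : Γ →* Aˣ) : A →ₗ[A] twistedCocycles χ where
  toFun x := ⟨fun g => ((χ g : A) - 1) * x, fun g h => by
    simp only [map_mul, Units.val_mul]; ring⟩
  map_add' x y := Subtype.ext (funext fun g => by simp [mul_add])
  map_smul' a x := Subtype.ext (funext fun g => by simp [mul_left_comm])

@[simp] theorem coboundary_apply (χ : Γ →* Aˣ) (x : A) (g : Γ) :
    (coboundary χ x : Γ → A) g = ((χ g : A) - 1) * x := rfl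

/-- The first cohomology. -/
abbrev twistedH1 (χ : Γ →* Aˣ) : Type _ := twistedCocycles χ ⧸ LinearMap.range (coboundary χ)

/-- The projection to cohomology. -/
abbrev toH1 (χ : Γ →* Aˣ) : twistedCocycles χ →ₗ[A] twistedH1 χ := Submodule.mkQ _

/-- Pairs (translation, scale): the affine group of the line. -/
structure AffinePair (A : Type*) [CommRing A] where
  /-- translation -/
  shift : A
  /-- scale -/
  scale : Aˣ

namespace AffinePair

instance : One (AffinePair A) := ⟨⟨0, 1⟩⟩
instance : Mul (AffinePair A) := ⟨fun p q => ⟨p.shift + p.scale * q.shift, p.scale * q.scale⟩⟩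
instance : Inv (AffinePair A) := ⟨fun p => ⟨-(((p.scale⁻¹ : Aˣ) : A) * p.shift), p.scale⁻¹⟩⟩

theorem mul_shift (p q : AffinePair A) : (p * q).shift = p.shift + p.scale * q.shift := rfl
theorem mul_scale (p q : AffinePair A) : (p * q).scale = p.scale * q.scale := rfl
theorem one_shift : (1 : AffinePair A).shift = 0 := rfl
theorem one_scale : (1 : AffinePair A).scale = 1 := rfl
theorem inv_shift (p : AffinePair A) : p⁻¹.shift = -(((p.scale⁻¹ : Aˣ) : A) * p.shift) := rfl
theorem inv_scale (p : AffinePair A) : p⁻¹.scale = p.scale⁻¹ := rfl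

theorem ext' {p q : AffinePair A} (h : p.shift = q.shift) (h' : p.scale = q.scale) : p = q := by
  cases p; cases q; simp_all

instance : Group (AffinePair A) where
  mul_assoc p q r := ext' (by simp only [mul_shift, mul_scale, Units.val_mul]; ring) (mul_assoc _ _ _)
  one_mul p := ext' (by simp [mul_shift, one_shift, one_scale]) (one_mul _)
  mul_one p := ext' (by simp [mul_shift, one_shift]) (mul_one _)
  inv_mul_cancel p := ext' (by simp [mul_shift, inv_shift, inv_scale, one_shift]) (inv_mul_cancel _)

end AffinePair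

/-- A cocycle as a homomorphism to the affine group. -/
def cocycleHom {χ : Γ →* Aˣ} (c : twistedCocycles χ) : Γ →* AffinePair A where
  toFun g := ⟨(c : Γ → A) g, χ g⟩
  map_one' := AffinePair.ext' (twistedCocycle_one c) (map_one χ)
  map_mul' g h := AffinePair.ext' (twistedCocycle_mul c g h) (map_mul χ g h)

variable {ι : Type*}

theorem cocycle_ext (b : FreeGroupBasis ι Γ) {χ : Γ →* Aˣ} {c d : twistedCocycles χ}
    (h : ∀ i, (c : Γ → A) (b i) = (d : Γ → A) (b i)) : c = d := by
  have : cocycleHom c = cocycleHom d := b.ext_hom _ _ fun i => AffinePair.ext' (h i) rfl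
  exact Subtype.ext (funext fun g => congrArg AffinePair.shift (DFunLike.congr_fun this g))

/-- The homomorphism with prescribed translations on the basis. -/
def affineLift (b : FreeGroupBasis ι Γ) (χ : Γ →* Aˣ) (v : ι → A) : Γ →* AffinePair A :=
  b.lift fun i => ⟨v i, χ (b i)⟩

theorem affineLift_basis (b : FreeGroupBasis ι Γ) (χ : Γ →* Aˣ) (v : ι → A) (i : ι) :
    affineLift b χ v (b i) = ⟨v i, χ (b i)⟩ := by
  simp [affineLift]

theorem affineLift_scale (b : FreeGroupBasis ι Γ) (χ : Γ →* Aˣ) (v : ι → A) (g : Γ) :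
    (affineLift b χ v g).scale = χ g := by
  let sc : AffinePair A →* Aˣ :=
    { toFun := AffinePair.scale, map_one' := rfl, map_mul' := fun _ _ => rfl }
  have : sc.comp (affineLift b χ v) = χ := b.ext_hom _ _ fun i => by
    show (affineLift b χ v (b i)).scale = χ (b i)
    rw [affineLift_basis]
  exact DFunLike.congr_fun this g

/-- Cocycles of a free group are arbitrary on a basis. -/
def cocycleEquiv (b : FreeGroupBasis ι Γ) (χ : Γ →* Aˣ) : twistedCocycles χ ≃ₗ[A] (ι → A) where
  toFun c i := (c : Γ → A) (b i)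
  map_add' _ _ := rfl
  map_smul' _ _ := rfl
  invFun v := ⟨fun g => (affineLift b χ v g).shift, fun g h => by
    simp only
    rw [map_mul, AffinePair.mul_shift, affineLift_scale]⟩
  left_inv c := cocycle_ext b fun i => by
    show (affineLift b χ _ (b i)).shift = _
    rw [affineLift_basis]
  right_inv v := funext fun i => by
    show (affineLift b χ v (b i)).shift = v i
    rw [affineLift_basis]

@[simp] theorem cocycleEquiv_apply (b : FreeGroupBasis ι Γ) (χ : Γ →* Aˣ) (c : twistedCocycles χ)
    (i : ι) : cocycleEquiv b χ c i = (c : Γ → A) (b i) := rfl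

theorem free_twistedCocycles [Finite ι] (b : FreeGroupBasis ι Γ) (χ : Γ →* Aˣ) :
    Module.Free A (twistedCocycles χ) :=
  Module.Free.of_equiv (cocycleEquiv b χ).symm

theorem finite_twistedCocycles [Finite ι] (b : FreeGroupBasis ι Γ) (χ : Γ →* Aˣ) :
    Module.Finite A (twistedCocycles χ) :=
  Module.Finite.equiv (cocycleEquiv b χ).symm

section BaseChange

variable {A' : Type*} [CommRing A'] (f : A →+* A') (χ : Γ →* Aˣ)

/-- The pushed forward character. -/
abbrev mapChar : Γ →* A'ˣ := (Units.map f.toMonoidHom).comp χ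

/-- Push forward of cocycles along a ring homomorphism. -/
def mapCocycle : twistedCocycles χ →ₛₗ[f] twistedCocycles (mapChar f χ) where
  toFun c := ⟨fun g => f ((c : Γ → A) g), fun g h => by
    simp [twistedCocycle_mul c g h]⟩
  map_add' c d := Subtype.ext (funext fun g => by simp)
  map_smul' a c := Subtype.ext (funext fun g => by simp)

@[simp] theorem mapCocycle_apply (c : twistedCocycles χ) (g : Γ) :
    (mapCocycle f χ c : Γ → A') g = f ((c : Γ → A) g) := rfl

theorem mapCocycle_coboundary (x : A) :
    mapCocycle f χ (coboundary χ x) = coboundary (mapChar f χ) (f x) :=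
  Subtype.ext (funext fun g => by simp)

/-- Push forward on cohomology. -/
def mapH1 : twistedH1 χ →ₛₗ[f] twistedH1 (mapChar f χ) :=
  Submodule.mapQ _ _ (mapCocycle f χ) (by
    rintro _ ⟨x, rfl⟩
    exact ⟨f x, (mapCocycle_coboundary f χ x).symm⟩)

theorem mapH1_toH1 (c : twistedCocycles χ) :
    mapH1 f χ (toH1 χ c) = toH1 (mapChar f χ) (mapCocycle f χ c) := rfl

theorem mapCocycle_surjective (b : FreeGroupBasis ι Γ) (hf : Function.Surjective f) :
    Function.Surjective (mapCocycle f χ) := by
  intro d
  choose v hv using fun i => hf ((d : Γ → A') (b i))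
  refine ⟨(cocycleEquiv b χ).symm v, cocycle_ext b fun i => ?_⟩
  rw [mapCocycle_apply, ← cocycleEquiv_apply, LinearEquiv.apply_symm_apply, hv]

theorem mapH1_surjective (b : FreeGroupBasis ι Γ) (hf : Function.Surjective f) :
    Function.Surjective (mapH1 f χ) := by
  intro y
  obtain ⟨d, rfl⟩ := Submodule.mkQ_surjective _ y
  obtain ⟨c, rfl⟩ := mapCocycle_surjective f χ b hf d
  exact ⟨toH1 χ c, rfl⟩

theorem mem_ker_smul_of_mapCocycle_eq_zero [Finite ι] (b : FreeGroupBasis ι Γ)
    {c : twistedCocycles χ} (hc : mapCocycle f χ c = 0) :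
    c ∈ RingHom.ker f • (⊤ : Submodule A (twistedCocycles χ)) := by
  classical
  cases nonempty_fintype ι
  have hbi : ∀ i, (c : Γ → A) (b i) ∈ RingHom.ker f := fun i => by
    have := congrFun (congrArg Subtype.val hc) (b i)
    simpa using this
  have e : c = ∑ i, (c : Γ → A) (b i) • (cocycleEquiv b χ).symm (Pi.single i 1) := by
    apply (cocycleEquiv b χ).injective
    rw [map_sum]
    funext j
    simp [Finset.sum_apply, Pi.single_apply]
  rw [e]
  exact Submodule.sum_mem _ fun i _ => Submodule.smul_mem_smul (hbi i) Submodule.mem_top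

/-- `H¹` base changes to the quotient. -/
theorem mem_ker_smul_of_mapH1_eq_zero [Finite ι] (b : FreeGroupBasis ι Γ)
    (hf : Function.Surjective f) {y : twistedH1 χ} (hy : mapH1 f χ y = 0) :
    y ∈ RingHom.ker f • (⊤ : Submodule A (twistedH1 χ)) := by
  obtain ⟨c, rfl⟩ := Submodule.mkQ_surjective _ y
  obtain ⟨x', hx'⟩ := (Submodule.Quotient.mk_eq_zero _).1 hy
  obtain ⟨x, rfl⟩ := hf x'
  have h0 : mapCocycle f χ (c - coboundary χ x) = 0 := by
    rw [map_sub, mapCocycle_coboundary, hx', sub_self]
  have e : toH1 χ c = toH1 χ (c - coboundary χ x) := by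
    rw [map_sub, show toH1 χ (coboundary χ x) = 0 from
      (Submodule.Quotient.mk_eq_zero _).2 ⟨x, rfl⟩, sub_zero]
  rw [e]
  have := Submodule.mem_map_of_mem (f := toH1 χ) (mem_ker_smul_of_mapCocycle_eq_zero f χ b h0)
  rw [Submodule.map_smul''] at this
  exact Submodule.smul_mono le_rfl le_top this

end BaseChange

end Fermat.Agent.RT.TW

end
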