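import Fermat.Agent.RT.TW.Cocycle
import Fermat.Agent.Periods.Transfer
import Mathlib.Algebra.Group.Submonoid.Operations
import Mathlib.Algebra.BigOperators.Fin

/-!
# Coset operators on twisted one-cocycles of congruence subgroups

A weighting is a submonoid `S` of `M₂(ℤ)` with a multiplicative `ψ : S → A`; a level is a subgroup
of `SL(2, ℤ)` inside `S`, twisted by `χ γ = ψ γ⁻¹`. A coset family from `L₁` to `L₂` is a finite
family `M i ∈ S` permuted by right multiplication by `L₂` up to left multiplication by `L₁`; it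
gives `(T c) γ = ∑ i, ψ (M i) * c (g i)` where `M i * γ = g i * M (σ i)`, a map
`Z¹(L₁) → Z¹(L₂)` preserving coboundaries. It is independent of all choices; composites and sums
are given by products and unions of families, and on `H¹` it only depends on the cosets.
Restriction, corestriction, Hecke, degeneracy, diamond and involution operators are all of this
shape.
-/

set_option autoImplicit false

noncomputable section

namespace Fermat.Agent.RT.TW

open scoped MatrixGroups
open Periods

variable {A : Type*} [CommRing A]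

/-- A multiplicative weight on a submonoid of integral matrices. -/
structure Weighting (A : Type*) [CommRing A] where
  /-- the matrices -/
  S : Submonoid IntMat
  /-- the weight -/
  ψ : S →* A

/-- A subgroup of `SL(2, ℤ)` inside the monoid of a weighting. -/
structure WLevel (W : Weighting A) where
  /-- the subgroup -/
  grp : Subgroup SL(2, ℤ)
  mem : ∀ γ : grp, gammaMat γ ∈ W.S

variable {W : Weighting A}

namespace WLevel

/-- A group element as an element of the monoid. -/
def toS (L : WLevel W) (γ : L.grp) : W.S := ⟨gammaMat γ, L.mem γ⟩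

theorem toS_mul (L : WLevel W) (γ δ : L.grp) : L.toS (γ * δ) = L.toS γ * L.toS δ := rfl

theorem toS_one (L : WLevel W) : L.toS 1 = 1 := rfl

/-- The twist. -/
def char (L : WLevel W) : L.grp →* Aˣ where
  toFun γ := ⟨W.ψ (L.toS γ⁻¹), W.ψ (L.toS γ),
    by rw [← map_mul, ← toS_mul, inv_mul_cancel, toS_one, map_one],
    by rw [← map_mul, ← toS_mul, mul_inv_cancel, toS_one, map_one]⟩
  map_one' := Units.ext (show W.ψ (L.toS 1⁻¹) = 1 by rw [inv_one, toS_one, map_one])
  map_mul' γ δ := Units.ext (show W.ψ (L.toS (γ * δ)⁻¹) = W.ψ (L.toS γ⁻¹) * W.ψ (L.toS δ⁻¹) by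
    rw [mul_inv_rev, toS_mul, map_mul, mul_comm])

theorem ψ_mul_char (L : WLevel W) (γ : L.grp) : W.ψ (L.toS γ) * (L.char γ : A) = 1 := by
  show W.ψ (L.toS γ) * W.ψ (L.toS γ⁻¹) = 1
  rw [← map_mul, ← toS_mul, mul_inv_cancel, toS_one, map_one]

/-- Twisted cocycles of the level. -/
abbrev Z1 (L : WLevel W) : Submodule A (L.grp → A) := twistedCocycles L.char

/-- Twisted first cohomology of the level. -/
abbrev H1 (L : WLevel W) : Type _ := twistedH1 L.char

end WLevel

/-- A finite family of matrices in `S` defining an operator from `L₁` to `L₂`. -/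
structure CosetFamily (L₁ L₂ : WLevel W) (ι : Type*) where
  /-- the representatives -/
  mat : ι → W.S
  det_ne_zero : ∀ i, (mat i : IntMat).det ≠ 0
  exists_step : ∀ γ : L₂.grp, ∃ (σ : Equiv.Perm ι) (g : ι → L₁.grp),
    ∀ i, (mat i : IntMat) * gammaMat γ = gammaMat (g i) * (mat (σ i) : IntMat)

variable {L₁ L₂ L₃ : WLevel W} {ι κ : Type*}

namespace CosetFamily

/-- The weight of a representative. -/
def weight (D : CosetFamily L₁ L₂ ι) (i : ι) : A := W.ψ (D.mat i)

theorem weight_step (D : CosetFamily L₁ L₂ ι) {γ : L₂.grp} {g : L₁.grp} {i j : ι}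
    (h : (D.mat i : IntMat) * gammaMat γ = gammaMat g * (D.mat j : IntMat)) :
    D.weight i * (L₁.char g : A) = (L₂.char γ : A) * D.weight j := by
  have e : D.mat i * L₂.toS γ = L₁.toS g * D.mat j := Subtype.ext h
  have e' := congrArg W.ψ e
  rw [map_mul, map_mul] at e'
  unfold weight
  linear_combination ((L₁.char g : A) * (L₂.char γ : A)) * e'
    - W.ψ (D.mat i) * (L₁.char g : A) * L₂.ψ_mul_char γ
    + W.ψ (D.mat j) * (L₂.char γ : A) * L₁.ψ_mul_char g

theorem weight_left (D : CosetFamily L₁ L₂ ι) {g : L₁.grp} {i j : ι}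
    (h : (D.mat i : IntMat) = gammaMat g * (D.mat j : IntMat)) :
    D.weight i * (L₁.char g : A) = D.weight j := by
  have := D.weight_step (γ := 1) (g := g) (i := i) (j := j) (by rwa [gammaMat_one, Matrix.mul_one])
  rwa [map_one, Units.val_one, one_mul] at this

/-- A description of right multiplication by `γ`. -/
def IsStep (D : CosetFamily L₁ L₂ ι) (γ : L₂.grp) (σ : Equiv.Perm ι) (g : ι → L₁.grp) : Prop :=
  ∀ i, (D.mat i : IntMat) * gammaMat γ = gammaMat (g i) * (D.mat (σ i) : IntMat)

theorem IsStep.mul {D : CosetFamily L₁ L₂ ι} {γ δ : L₂.grp} {σ τ : Equiv.Perm ι}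
    {g h : ι → L₁.grp} (h₁ : D.IsStep γ σ g) (h₂ : D.IsStep δ τ h) :
    D.IsStep (γ * δ) (σ.trans τ) (fun i => g i * h (σ i)) := by
  intro i
  rw [Equiv.trans_apply, gammaMat_mul, gammaMat_mul, ← Matrix.mul_assoc, h₁ i, Matrix.mul_assoc,
    h₂ (σ i), Matrix.mul_assoc]

variable [Fintype ι] [Fintype κ]

theorem sum_step_eq (D : CosetFamily L₁ L₂ ι) {γ : L₂.grp} {σ τ : Equiv.Perm ι}
    {g h : ι → L₁.grp} (h₁ : D.IsStep γ σ g) (h₂ : D.IsStep γ τ h) (c : L₁.Z1) :
    ∑ i, D.weight i * (c : L₁.grp → A) (h i) = ∑ i, D.weight i * (c : L₁.grp → A) (g i) := by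
  set π : Equiv.Perm ι := σ.symm.trans τ with hπ
  set d : ι → L₁.grp := fun j => (g (σ.symm j))⁻¹ * h (σ.symm j) with hd
  have hrel : ∀ j, (D.mat j : IntMat) = gammaMat (d j) * (D.mat (π j) : IntMat) := by
    intro j
    obtain ⟨i, rfl⟩ := σ.surjective j
    simp only [hπ, hd, Equiv.trans_apply, Equiv.symm_apply_apply]
    rw [gammaMat_mul, Matrix.mul_assoc, ← (h₁ i).symm.trans (h₂ i), ← Matrix.mul_assoc,
      ← gammaMat_mul, inv_mul_cancel, gammaMat_one, Matrix.one_mul]
  have h0 : ∑ j, D.weight j * (c : L₁.grp → A) (d j) = 0 := by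
    refine sum_eq_zero_of_orbits π _ fun j n hn => ?_
    have key : ∀ n : ℕ, ∃ x : L₁.grp, (D.mat j : IntMat) = gammaMat x * (D.mat (π^[n] j) : IntMat) ∧
        D.weight j * (c : L₁.grp → A) x =
          ∑ m ∈ Finset.range n, D.weight (π^[m] j) * (c : L₁.grp → A) (d (π^[m] j)) := by
      intro n
      induction n with
      | zero => exact ⟨1, by simp [gammaMat_one], by simp [twistedCocycle_one]⟩
      | succ n ih =>
        obtain ⟨x, hx, hw⟩ := ih
        refine ⟨x * d (π^[n] j), ?_, ?_⟩
        · rw [gammaMat_mul, Function.iterate_succ_apply', Matrix.mul_assoc, ← hrel, hx]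
        · rw [Finset.sum_range_succ, ← hw, twistedCocycle_mul]
          linear_combination (c : L₁.grp → A) (d (π^[n] j)) * D.weight_left hx
    obtain ⟨x, hx, hw⟩ := key n
    rw [hn] at hx
    have hx1 : x = 1 := gammaMat_injective (intMat_mul_right_cancel (D.det_ne_zero j)
      (by rw [gammaMat_one, Matrix.one_mul]; exact hx.symm))
    rw [← hw, hx1, twistedCocycle_one, mul_zero]
  have e : ∀ i, D.weight i * (c : L₁.grp → A) (h i) = D.weight i * (c : L₁.grp → A) (g i)
      + (L₂.char γ : A) * (D.weight (σ i) * (c : L₁.grp → A) (d (σ i))) := by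
    intro i
    have hd' : h i = g i * d (σ i) := by simp [hd]
    rw [hd', twistedCocycle_mul]
    linear_combination (c : L₁.grp → A) (d (σ i)) * D.weight_step (h₁ i)
  rw [Finset.sum_congr rfl fun i _ => e i, Finset.sum_add_distrib, ← Finset.mul_sum,
    Equiv.sum_comp σ (fun j => D.weight j * (c : L₁.grp → A) (d j)), h0, mul_zero, add_zero]

/-- The chosen group elements. -/
def elt (D : CosetFamily L₁ L₂ ι) (γ : L₂.grp) : ι → L₁.grp :=
  (D.exists_step γ).choose_spec.choose

omit [Fintype ι] in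
theorem isStep_elt (D : CosetFamily L₁ L₂ ι) (γ : L₂.grp) :
    D.IsStep γ (D.exists_step γ).choose (D.elt γ) :=
  (D.exists_step γ).choose_spec.choose_spec

/-- The operator on cocycles. -/
def op (D : CosetFamily L₁ L₂ ι) : L₁.Z1 →ₗ[A] L₂.Z1 where
  toFun c := ⟨fun γ => ∑ i, D.weight i * (c : L₁.grp → A) (D.elt γ i), fun γ δ => by
    show ∑ i, D.weight i * (c : L₁.grp → A) (D.elt (γ * δ) i) = _
    rw [D.sum_step_eq ((D.isStep_elt γ).mul (D.isStep_elt δ)) (D.isStep_elt (γ * δ))]
    have e : ∀ i, D.weight i * (c : L₁.grp → A) (D.elt γ i * D.elt δ ((D.exists_step γ).choose i))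
        = D.weight i * (c : L₁.grp → A) (D.elt γ i) + (L₂.char γ : A) *
          (D.weight ((D.exists_step γ).choose i) *
            (c : L₁.grp → A) (D.elt δ ((D.exists_step γ).choose i))) := fun i => by
      rw [twistedCocycle_mul]
      linear_combination (c : L₁.grp → A) (D.elt δ ((D.exists_step γ).choose i)) *
        D.weight_step (D.isStep_elt γ i)
    rw [Finset.sum_congr rfl fun i _ => e i, Finset.sum_add_distrib, ← Finset.mul_sum,
      Equiv.sum_comp (D.exists_step γ).choose
        (fun i => D.weight i * (c : L₁.grp → A) (D.elt δ i))]⟩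
  map_add' c d := Subtype.ext (funext fun g => by simp [mul_add, Finset.sum_add_distrib])
  map_smul' a c := Subtype.ext (funext fun g => by simp [Finset.mul_sum, mul_left_comm])

theorem op_apply (D : CosetFamily L₁ L₂ ι) (c : L₁.Z1) (γ : L₂.grp) :
    (D.op c : L₂.grp → A) γ = ∑ i, D.weight i * (c : L₁.grp → A) (D.elt γ i) := rfl

/-- Any step computes the operator. -/
theorem op_apply_of_step (D : CosetFamily L₁ L₂ ι) (c : L₁.Z1) {γ : L₂.grp} {σ : Equiv.Perm ι}
    {g : ι → L₁.grp} (h : D.IsStep γ σ g) :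
    (D.op c : L₂.grp → A) γ = ∑ i, D.weight i * (c : L₁.grp → A) (g i) :=
  D.sum_step_eq h (D.isStep_elt γ) c

/-- On coboundaries: multiplication by the total weight. -/
theorem op_coboundary (D : CosetFamily L₁ L₂ ι) (x : A) :
    D.op (coboundary L₁.char x) = coboundary L₂.char ((∑ i, D.weight i) * x) := by
  refine Subtype.ext (funext fun γ => ?_)
  simp only [op_apply, coboundary_apply]
  set σ := (D.exists_step γ).choose
  have e : ∀ i, D.weight i * (((L₁.char (D.elt γ i) : A) - 1) * x) =
      (L₂.char γ : A) * x * D.weight (σ i) - x * D.weight i := fun i => by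
    linear_combination x * D.weight_step (D.isStep_elt γ i)
  rw [Finset.sum_congr rfl fun i _ => e i, Finset.sum_sub_distrib, ← Finset.mul_sum,
    ← Finset.mul_sum, Equiv.sum_comp σ D.weight]
  ring

/-- The operator on cohomology. -/
def opH1 (D : CosetFamily L₁ L₂ ι) : L₁.H1 →ₗ[A] L₂.H1 :=
  Submodule.mapQ _ _ D.op (by
    rintro _ ⟨x, rfl⟩
    exact ⟨_, (D.op_coboundary x).symm⟩)

theorem opH1_toH1 (D : CosetFamily L₁ L₂ ι) (c : L₁.Z1) :
    D.opH1 (toH1 L₁.char c) = toH1 L₂.char (D.op c) := rfl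

/-- The operator `T - (total weight)` kills coboundaries. -/
theorem op_sub_smul_coboundary {L : WLevel W} (D : CosetFamily L L ι) {c : L.Z1}
    (hc : c ∈ LinearMap.range (coboundary L.char)) :
    (D.op - (∑ i, D.weight i) • (LinearMap.id (R := A) (M := L.Z1))) c = 0 := by
  obtain ⟨x, rfl⟩ := hc
  rw [LinearMap.sub_apply, LinearMap.smul_apply, LinearMap.id_apply, op_coboundary, ← map_smul,
    smul_eq_mul, sub_self]

/-- The composite family. -/
def comp (D : CosetFamily L₁ L₂ ι) (E : CosetFamily L₂ L₃ κ) :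
    CosetFamily L₁ L₃ (ι × κ) where
  mat x := D.mat x.1 * E.mat x.2
  det_ne_zero x := by
    rw [Submonoid.coe_mul, Matrix.det_mul]
    exact mul_ne_zero (D.det_ne_zero _) (E.det_ne_zero _)
  exists_step γ := by
    obtain ⟨τ, h, hh⟩ := E.exists_step γ
    choose σ g hg using fun k => D.exists_step (h k)
    refine ⟨{ toFun := fun x => (σ x.2 x.1, τ x.2)
              invFun := fun y => ((σ (τ.symm y.2)).symm y.1, τ.symm y.2)
              left_inv := fun x => by simp
              right_inv := fun y => by simp }, fun x => g x.2 x.1, fun x => ?_⟩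
    simp only [Submonoid.coe_mul, Equiv.coe_fn_mk]
    rw [Matrix.mul_assoc, hh, ← Matrix.mul_assoc, hg, Matrix.mul_assoc]

theorem op_comp (D : CosetFamily L₁ L₂ ι) (E : CosetFamily L₂ L₃ κ) :
    E.op ∘ₗ D.op = (D.comp E).op := by
  refine LinearMap.ext fun c => Subtype.ext (funext fun γ => ?_)
  set τ := (E.exists_step γ).choose
  set h := E.elt γ
  let P : Equiv.Perm (ι × κ) :=
    { toFun := fun x => ((D.exists_step (h x.2)).choose x.1, τ x.2)
      invFun := fun y => (((D.exists_step (h (τ.symm y.2))).choose).symm y.1, τ.symm y.2)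
      left_inv := fun x => by simp
      right_inv := fun y => by simp }
  have hP : (D.comp E).IsStep γ P (fun x => D.elt (h x.2) x.1) := fun x => by
    show (D.mat x.1 : IntMat) * (E.mat x.2 : IntMat) * gammaMat γ = _
    rw [Matrix.mul_assoc, E.isStep_elt γ x.2, ← Matrix.mul_assoc, D.isStep_elt (h x.2) x.1,
      Matrix.mul_assoc]
    rfl
  rw [LinearMap.comp_apply, op_apply, (D.comp E).op_apply_of_step c hP, Fintype.sum_prod_type_right]
  refine Finset.sum_congr rfl fun k _ => ?_
  rw [op_apply, Finset.mul_sum]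
  refine Finset.sum_congr rfl fun i _ => ?_
  show _ = W.ψ (D.mat i * E.mat k) * _
  rw [map_mul]
  simp only [weight]
  ring

theorem opH1_comp (D : CosetFamily L₁ L₂ ι) (E : CosetFamily L₂ L₃ κ) :
    E.opH1 ∘ₗ D.opH1 = (D.comp E).opH1 := by
  refine LinearMap.ext fun y => ?_
  obtain ⟨c, rfl⟩ := Submodule.mkQ_surjective _ y
  show toH1 L₃.char ((E.op ∘ₗ D.op) c) = _
  rw [op_comp]
  rfl

/-- The union of two families. -/
def add (D : CosetFamily L₁ L₂ ι) (E : CosetFamily L₁ L₂ κ) : CosetFamily L₁ L₂ (ι ⊕ κ) where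
  mat := Sum.elim D.mat E.mat
  det_ne_zero := fun x => by cases x <;> simp [D.det_ne_zero, E.det_ne_zero]
  exists_step γ := by
    obtain ⟨σ, g, hg⟩ := D.exists_step γ
    obtain ⟨τ, h, hh⟩ := E.exists_step γ
    exact ⟨Equiv.sumCongr σ τ, Sum.elim g h, fun x => by cases x <;> simp [hg, hh]⟩

theorem op_add (D : CosetFamily L₁ L₂ ι) (E : CosetFamily L₁ L₂ κ) :
    (D.add E).op = D.op + E.op := by
  refine LinearMap.ext fun c => Subtype.ext (funext fun γ => ?_)
  have hs : (D.add E).IsStep γ (Equiv.sumCongr (D.exists_step γ).choose (E.exists_step γ).choose)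
      (Sum.elim (D.elt γ) (E.elt γ)) := fun x => by
    cases x with
    | inl i => exact D.isStep_elt γ i
    | inr k => exact E.isStep_elt γ k
  rw [(D.add E).op_apply_of_step c hs, Fintype.sum_sum_type]
  rfl

theorem opH1_add (D : CosetFamily L₁ L₂ ι) (E : CosetFamily L₁ L₂ κ) :
    (D.add E).opH1 = D.opH1 + E.opH1 := by
  refine LinearMap.ext fun y => ?_
  obtain ⟨c, rfl⟩ := Submodule.mkQ_surjective _ y
  show toH1 L₂.char ((D.add E).op c) = _
  rw [op_add, LinearMap.add_apply, map_add]
  rfl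

/-- Families with the same left cosets give the same operator on cohomology. -/
theorem opH1_eq_of_cosets (D : CosetFamily L₁ L₂ ι) (E : CosetFamily L₁ L₂ κ) (e : ι ≃ κ)
    (δ : ι → L₁.grp)
    (h : ∀ i, (E.mat (e i) : IntMat) = gammaMat (δ i) * (D.mat i : IntMat)) :
    E.opH1 = D.opH1 := by
  refine LinearMap.ext fun y => ?_
  obtain ⟨c, rfl⟩ := Submodule.mkQ_surjective _ y
  refine (Submodule.Quotient.eq _).2 ⟨-(∑ i, E.weight (e i) * (c : L₁.grp → A) (δ i)), ?_⟩
  refine Subtype.ext (funext fun γ => ?_)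
  set σ := (D.exists_step γ).choose with hσ
  set g := D.elt γ with hg
  have hwv : ∀ i, E.weight (e i) * (L₁.char (δ i) : A) = D.weight i := fun i => by
    have e' : E.mat (e i) = L₁.toS (δ i) * D.mat i := Subtype.ext (h i)
    simp only [weight, e', map_mul]
    linear_combination W.ψ (D.mat i) * L₁.ψ_mul_char (δ i)
  let P : Equiv.Perm κ := (e.symm.trans σ).trans e
  have hP : E.IsStep γ P (fun k => δ (e.symm k) * g (e.symm k) * (δ (σ (e.symm k)))⁻¹) := fun k => by
    obtain ⟨i, rfl⟩ := e.surjective k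
    simp only [P, Equiv.trans_apply, Equiv.symm_apply_apply]
    rw [h i, h (σ i), Matrix.mul_assoc, D.isStep_elt γ i, ← Matrix.mul_assoc, ← Matrix.mul_assoc,
      ← gammaMat_mul, ← gammaMat_mul, inv_mul_cancel_right]
  simp only [coboundary_apply, AddSubgroupClass.coe_sub, Pi.sub_apply]
  rw [E.op_apply_of_step c hP, op_apply, ← Equiv.sum_comp e (fun k => E.weight k *
    (c : L₁.grp → A) (δ (e.symm k) * g (e.symm k) * (δ (σ (e.symm k)))⁻¹))]
  simp only [Equiv.symm_apply_apply]
  have key : ∀ i, E.weight (e i) * (c : L₁.grp → A) (δ i * g i * (δ (σ i))⁻¹) =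
      E.weight (e i) * (c : L₁.grp → A) (δ i) + D.weight i * (c : L₁.grp → A) (g i)
      - (L₂.char γ : A) * (E.weight (e (σ i)) * (c : L₁.grp → A) (δ (σ i))) := fun i => by
    rw [twistedCocycle_mul, twistedCocycle_mul, map_mul, Units.val_mul]
    linear_combination ((c : L₁.grp → A) (g i) + (L₁.char (g i) : A) *
        (c : L₁.grp → A) (δ (σ i))⁻¹) * hwv i
      + (c : L₁.grp → A) (δ (σ i))⁻¹ * D.weight_step (D.isStep_elt γ i)
      - (L₂.char γ : A) * (c : L₁.grp → A) (δ (σ i))⁻¹ * hwv (σ i)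
      + (L₂.char γ : A) * E.weight (e (σ i)) * twistedCocycle_inv c (δ (σ i))
  rw [Finset.sum_congr rfl fun i _ => key i, Finset.sum_sub_distrib, Finset.sum_add_distrib,
    ← Finset.mul_sum, Equiv.sum_comp σ (fun i => E.weight (e i) * (c : L₁.grp → A) (δ i))]
  ring

/-- Operators whose product families have the same cosets commute on cohomology. -/
theorem opH1_comm_of_cosets {L : WLevel W} (D : CosetFamily L L ι) (E : CosetFamily L L κ)
    (e : ι × κ ≃ κ × ι) (δ : ι × κ → L.grp)
    (h : ∀ x, ((E.mat (e x).1 : IntMat) * (D.mat (e x).2 : IntMat)) =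
      gammaMat (δ x) * ((D.mat x.1 : IntMat) * (E.mat x.2 : IntMat))) :
    E.opH1 ∘ₗ D.opH1 = D.opH1 ∘ₗ E.opH1 := by
  rw [opH1_comp, opH1_comp]
  exact (opH1_eq_of_cosets (D.comp E) (E.comp D) e δ h).symm

end CosetFamily

/-- A family in distinct cosets stable under right multiplication is a coset family. -/
def CosetFamily.ofSeparated [Finite ι] (mat : ι → W.S) (hdet : ∀ i, (mat i : IntMat).det ≠ 0)
    (hsep : ∀ (i j : ι) (g : L₁.grp), (mat i : IntMat) = gammaMat g * (mat j : IntMat) → i = j)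
    (hstep : ∀ (γ : L₂.grp) (i : ι), ∃ (j : ι) (g : L₁.grp),
      (mat i : IntMat) * gammaMat γ = gammaMat g * (mat j : IntMat)) :
    CosetFamily L₁ L₂ ι where
  mat := mat
  det_ne_zero := hdet
  exists_step γ := by
    choose j g hg using hstep γ
    refine ⟨Equiv.ofBijective j (Finite.injective_iff_bijective.1 fun a b hab => ?_), g, hg⟩
    refine hsep a b (g a * (g b)⁻¹) (intMat_mul_right_cancel (M := gammaMat γ)
      (by rw [gammaMat_det]; exact one_ne_zero) ?_)
    rw [Matrix.mul_assoc, hg b, ← Matrix.mul_assoc, ← gammaMat_mul, inv_mul_cancel_right, hg a, hab]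

section BaseChange

variable {A' : Type*} [CommRing A'] (f : A →+* A')

/-- The weighting with pushed forward weights. -/
def Weighting.map (W : Weighting A) : Weighting A' := ⟨W.S, f.toMonoidHom.comp W.ψ⟩

/-- The same level for the pushed forward weighting. -/
def WLevel.map (L : WLevel W) : WLevel (W.map f) := ⟨L.grp, L.mem⟩

theorem WLevel.char_map (L : WLevel W) : (L.map f).char = mapChar f L.char := rfl

/-- The same family for the pushed forward weighting. -/
def CosetFamily.map (D : CosetFamily L₁ L₂ ι) : CosetFamily (L₁.map f) (L₂.map f) ι :=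
  ⟨D.mat, D.det_ne_zero, D.exists_step⟩

theorem mapCocycle_op [Fintype ι] (D : CosetFamily L₁ L₂ ι) (c : L₁.Z1) :
    mapCocycle f L₂.char (D.op c) = (D.map f).op (mapCocycle f L₁.char c) := by
  refine Subtype.ext (funext fun γ => ?_)
  rw [mapCocycle_apply, D.op_apply, map_sum]
  refine Eq.trans ?_ ((D.map f).op_apply_of_step (mapCocycle f L₁.char c)
    (σ := (D.exists_step γ).choose) (g := D.elt γ) (D.isStep_elt γ)).symm
  simp only [map_mul]
  rfl

theorem mapH1_opH1 [Fintype ι] (D : CosetFamily L₁ L₂ ι) (y : L₁.H1) :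
    mapH1 f L₂.char (D.opH1 y) = (D.map f).opH1 (mapH1 f L₁.char y) := by
  obtain ⟨c, rfl⟩ := Submodule.mkQ_surjective _ y
  show toH1 (mapChar f L₂.char) (mapCocycle f L₂.char (D.op c)) = _
  rw [mapCocycle_op]
  rfl

end BaseChange

end Fermat.Agent.RT.TW

end
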