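import Fermat.Agent.RT.TW.FreeSubgroup
import Fermat.Agent.RT.TW.TwistedHecke
import Fermat.Agent.RT.TW.AddPrime
import Mathlib.NumberTheory.ModularForms.CongruenceSubgroups
import Mathlib.GroupTheory.Index
import Mathlib.RingTheory.Finiteness.Cardinality
import Mathlib.RingTheory.Finiteness.Prod
import Mathlib.Algebra.Module.Projective

/-!
# Cocycles of levels with torsion, by a free cover

`Γ(3)` is torsion-free, so for a finite index level `L` the subgroup `L ∩ Γ(3)` is free. If its
index is invertible in the coefficients, `Z¹(L)` is a retract of `Z¹(L ∩ Γ(3)) × A`, hence finite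
projective, and `H¹(L)` commutes with quotients of the coefficient ring.
-/

set_option autoImplicit false

noncomputable section

namespace Fermat.Agent.RT.TW

open scoped MatrixGroups
open Periods CongruenceSubgroup

theorem eq_zero_of_pow_eq_smul_sub {X : IntMat} (hd : X.det = 1) {t : ℤ} (ht : X.trace = t)
    (h3 : 3 ≤ |t|) (n : ℕ) : ∃ u v : ℤ, X ^ (n + 1) = u • X - v • (1 : IntMat) ∧ |v| < |u| := by
  induction n with
  | zero => exact ⟨1, 0, by simp, by simp⟩
  | succ n ih =>
    obtain ⟨u, v, hX, huv⟩ := ih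
    have hch : X * X = t • X - (1 : IntMat) := by
      subst ht
      ext i j
      rw [Matrix.det_fin_two] at hd
      fin_cases i <;> fin_cases j <;>
        simp [Matrix.mul_apply, Fin.sum_univ_two, Matrix.trace_fin_two, -zsmul_eq_mul] <;>
        first | linear_combination hd | linear_combination -hd | ring1
    refine ⟨t * u - v, u, ?_, ?_⟩
    · rw [pow_succ, hX, Matrix.sub_mul, Matrix.smul_mul, Matrix.smul_mul, Matrix.one_mul, hch]
      module
    · have h1 : |t * u| - |v| ≤ |t * u - v| := abs_sub_abs_le_abs_sub _ _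
      rw [abs_mul] at h1
      nlinarith [abs_nonneg u, abs_nonneg v]

/-- `Γ(3)` is torsion-free. -/
theorem eq_one_of_isOfFinOrder_mem_gamma3 {γ : SL(2, ℤ)} (hγ : γ ∈ Gamma 3)
    (hfin : IsOfFinOrder γ) : γ = 1 := by
  obtain ⟨n, hn, hn1⟩ := isOfFinOrder_iff_pow_eq_one.1 hfin
  obtain ⟨n, rfl⟩ : ∃ k, n = k + 1 := ⟨n - 1, by omega⟩
  set X : IntMat := (γ : Matrix (Fin 2) (Fin 2) ℤ) with hX
  have hd : X.det = 1 := γ.2
  have hXn : X ^ (n + 1) = 1 := by
    have h := congrArg Subtype.val hn1
    simpa [hX] using h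
  obtain ⟨h00, h01, h10, h11⟩ := Gamma_mem.1 hγ
  obtain ⟨a, ha⟩ : (3 : ℤ) ∣ X 0 0 - 1 := by
    have h : ((X 0 0 - 1 : ℤ) : ZMod 3) = 0 := by push_cast; exact sub_eq_zero.2 h00
    exact_mod_cast (ZMod.intCast_zmod_eq_zero_iff_dvd _ 3).1 h
  obtain ⟨b, hb⟩ : (3 : ℤ) ∣ X 0 1 := by
    exact_mod_cast (ZMod.intCast_zmod_eq_zero_iff_dvd _ 3).1 h01
  obtain ⟨c, hc⟩ : (3 : ℤ) ∣ X 1 0 := by
    exact_mod_cast (ZMod.intCast_zmod_eq_zero_iff_dvd _ 3).1 h10
  obtain ⟨d, hd'⟩ : (3 : ℤ) ∣ X 1 1 - 1 := by
    have h : ((X 1 1 - 1 : ℤ) : ZMod 3) = 0 := by push_cast; exact sub_eq_zero.2 h11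
    exact_mod_cast (ZMod.intCast_zmod_eq_zero_iff_dvd _ 3).1 h
  have hdet := hd
  rw [Matrix.det_fin_two, hb, hc, show X 0 0 = 3 * a + 1 by linarith,
    show X 1 1 = 3 * d + 1 by linarith] at hdet
  have htr : X.trace = 2 + 9 * (b * c - a * d) := by
    rw [Matrix.trace_fin_two, show X 0 0 = 3 * a + 1 by linarith,
      show X 1 1 = 3 * d + 1 by linarith]
    linear_combination hdet
  have hsmall : |X.trace| ≤ 2 := by
    by_contra hbig
    obtain ⟨u, v, huv, hlt⟩ := eq_zero_of_pow_eq_smul_sub hd rfl (by omega) n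
    have hu : u ≠ 0 := by
      rintro rfl
      exact absurd hlt (by simp)
    rw [hXn] at huv
    have e01 := congrFun (congrFun huv 0) 1
    have e10 := congrFun (congrFun huv 1) 0
    have e00 := congrFun (congrFun huv 0) 0
    have e11 := congrFun (congrFun huv 1) 1
    simp [Matrix.sub_apply, Matrix.smul_apply, -zsmul_eq_mul, -zsmul_one] at e01 e10 e00 e11
    have e01' : X 0 1 = 0 := e01.resolve_left hu
    have e10' : X 1 0 = 0 := e10.resolve_left hu
    have heq : X 0 0 = X 1 1 := mul_left_cancel₀ hu (by linarith)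
    rw [Matrix.det_fin_two, e01', e10', heq, mul_zero, sub_zero] at hd
    rw [Matrix.trace_fin_two, heq] at hbig
    rcases Int.eq_one_or_neg_one_of_mul_eq_one hd with h | h <;> rw [h] at hbig <;>
      norm_num at hbig
  have htr2 : X.trace = 2 := by
    rw [abs_le] at hsmall
    omega
  have hN : (X - 1) * (X - 1) = 0 := by
    rw [Matrix.det_fin_two] at hd
    rw [Matrix.trace_fin_two] at htr2
    ext i j
    fin_cases i <;> fin_cases j <;> simp [Matrix.mul_apply, Fin.sum_univ_two]
    · linear_combination (X 0 0) * htr2 - hd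
    · linear_combination (X 0 1) * htr2
    · linear_combination (X 1 0) * htr2
    · linear_combination (X 1 1) * htr2 - hd
  have hpow : ∀ k : ℕ, X ^ k = 1 + k • (X - 1) := by
    intro k
    induction k with
    | zero => simp
    | succ k ih =>
      rw [pow_succ, ih, Matrix.add_mul, Matrix.one_mul, Matrix.smul_mul]
      have : (X - 1) * X = X - 1 := by
        calc (X - 1) * X = (X - 1) * (X - 1) + (X - 1) := by
              rw [Matrix.mul_sub (X - 1) X 1, Matrix.mul_one, sub_add_cancel]
          _ = X - 1 := by rw [hN, zero_add]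
      rw [this, succ_nsmul]
      abel
  have h0 := hpow (n + 1)
  rw [hXn, left_eq_add] at h0
  have hX1 : X = 1 := by
    rw [← sub_eq_zero]
    ext i j
    have := congrFun (congrFun h0 i) j
    simp [-zsmul_eq_mul] at this
    exact this.resolve_left (by omega)
  exact Subtype.ext hX1

variable {A : Type*} [CommRing A] {W : Weighting A}

namespace WLevel

variable (K : Subgroup SL(2, ℤ))

/-- The cover `L ∩ K`. -/
def cover (L : WLevel W) : WLevel W where
  grp := L.grp ⊓ K
  mem γ := L.mem ⟨γ, γ.2.1⟩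

/-- The inclusion of the cover. -/
def coverIncl (L : WLevel W) : (L.cover K).grp →* L.grp := Subgroup.inclusion inf_le_left

theorem gammaMat_coverIncl (L : WLevel W) (γ : (L.cover K).grp) :
    gammaMat ((L.coverIncl K) γ) = gammaMat γ := rfl

theorem char_coverIncl (L : WLevel W) (γ : (L.cover K).grp) :
    L.char ((L.coverIncl K) γ) = (L.cover K).char γ := rfl

theorem exists_cover_basis [K.FiniteIndex] (L : WLevel W) [L.grp.FiniteIndex]
    (hK : ∀ γ ∈ L.grp ⊓ K, IsOfFinOrder γ → γ = 1) :
    ∃ r : ℕ, Nonempty (FreeGroupBasis (Fin r) (L.cover K).grp) := by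
  have : (L.cover K).grp.FiniteIndex := inferInstanceAs (L.grp ⊓ K).FiniteIndex
  exact exists_freeGroupBasis _ hK

/-- The cosets of the cover. -/
abbrev CoverIdx (L : WLevel W) : Type := L.grp ⧸ ((L.coverIncl K)).range

instance [K.FiniteIndex] (L : WLevel W) [L.grp.FiniteIndex] : Finite (L.CoverIdx K) := by
  have : (L.coverIncl K).range.FiniteIndex := by
    have e : (L.coverIncl K).range = K.subgroupOf L.grp := by
      ext x
      simp only [MonoidHom.mem_range, Subgroup.mem_subgroupOf]
      exact ⟨fun ⟨y, hy⟩ => hy ▸ y.2.2, fun hx => ⟨⟨x, x.2, hx⟩, rfl⟩⟩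
    rw [e]
    infer_instance
  infer_instance

/-- Restriction to the cover. -/
def res (L : WLevel W) : CosetFamily L (L.cover K) Unit :=
  CosetFamily.ofSeparated (fun _ => 1) (fun _ => by simp) (fun _ _ _ _ => rfl)
    fun γ i => ⟨i, (L.coverIncl K) γ, by simp [gammaMat_coverIncl]⟩

variable [K.FiniteIndex]

/-- Representatives of the cosets of the cover. -/
def coverRep (L : WLevel W) (x : (L.CoverIdx K)) : L.grp := (Quotient.out x)⁻¹

/-- Corestriction from the cover. -/
def cores (L : WLevel W) [L.grp.FiniteIndex] : CosetFamily (L.cover K) L (L.CoverIdx K) :=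
  CosetFamily.ofSeparated (fun x => L.toS ((L.coverRep K) x))
    (fun x => by
      rw [show ((L.toS ((L.coverRep K) x)) : IntMat) = gammaMat ((L.coverRep K) x) from rfl, gammaMat_det]
      exact one_ne_zero)
    (fun x y g h => by
      have h' : (L.coverRep K) x = (L.coverIncl K) g * (L.coverRep K) y := gammaMat_injective h
      have hx : ((Quotient.out x : L.grp) : (L.CoverIdx K)) = x := QuotientGroup.out_eq' x
      have hy : ((Quotient.out y : L.grp) : (L.CoverIdx K)) = y := QuotientGroup.out_eq' y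
      rw [← hx, ← hy, QuotientGroup.eq]
      refine ⟨g, ?_⟩
      unfold coverRep at h'
      rw [h', inv_mul_cancel_right])
    fun γ x => by
      let y : (L.CoverIdx K) := ((γ⁻¹ * Quotient.out x : L.grp) : (L.CoverIdx K))
      obtain ⟨g, hg⟩ : ((L.coverRep K) x * γ) * ((L.coverRep K) y)⁻¹ ∈ (L.coverIncl K).range := by
        have hy : ((Quotient.out y : L.grp) : (L.CoverIdx K)) = y := QuotientGroup.out_eq' y
        have h := QuotientGroup.eq.1 hy.symm
        rw [mul_inv_rev, inv_inv] at h
        show (Quotient.out x)⁻¹ * γ * ((Quotient.out y)⁻¹)⁻¹ ∈ _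
        rwa [inv_inv]
      refine ⟨y, g, ?_⟩
      have : (L.coverRep K) x * γ = (L.coverIncl K) g * (L.coverRep K) y := by rw [hg, inv_mul_cancel_right]
      exact congrArg gammaMat this

variable (L : WLevel W) [L.grp.FiniteIndex] [Fintype (L.CoverIdx K)]

/-- The correction term. -/
def coverShift : L.Z1 →ₗ[A] A where
  toFun c := ∑ x, (L.cores K).weight x * (c : L.grp → A) ((L.coverRep K) x)
  map_add' c d := by simp [mul_add, Finset.sum_add_distrib]
  map_smul' a c := by simp [Finset.mul_sum, mul_left_comm]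

/-- Corestriction of a restriction. -/
theorem cores_res (c : L.Z1) :
    (L.cores K).op ((L.res K).op c) + coboundary L.char ((L.coverShift K) c) =
      (Fintype.card (L.CoverIdx K) : A) • c := by
  refine Subtype.ext (funext fun γ => ?_)
  set σ := ((L.cores K).exists_step γ).choose
  set g := (L.cores K).elt γ
  have hstep := (L.cores K).isStep_elt γ
  have hres : ∀ y : (L.cover K).grp, ((L.res K).op c : (L.cover K).grp → A) y = (c : L.grp → A) ((L.coverIncl K) y) := by
    intro y
    rw [(L.res K).op_apply_of_step c (σ := Equiv.refl Unit) (g := fun _ => (L.coverIncl K) y)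
      (fun _ => by simp [res, CosetFamily.ofSeparated, gammaMat_coverIncl])]
    simp [CosetFamily.weight, res, CosetFamily.ofSeparated]
  have hrel : ∀ x, (L.coverIncl K) (g x) = (L.coverRep K) x * γ * ((L.coverRep K) (σ x))⁻¹ := fun x => by
    rw [eq_mul_inv_iff_mul_eq]
    exact (gammaMat_injective (hstep x)).symm
  have hw : ∀ x, (L.cores K).weight x * (L.char ((L.coverRep K) x) : A) = 1 := fun x => L.ψ_mul_char _
  simp only [AddMemClass.coe_add, Pi.add_apply, coboundary_apply,
    SetLike.val_smul, Pi.smul_apply, smul_eq_mul]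
  rw [(L.cores K).op_apply]
  rw [Finset.sum_congr rfl fun x (_ : x ∈ Finset.univ) =>
    congrArg ((L.cores K).weight x * ·) (hres (g x))]
  have key : ∀ x, (L.cores K).weight x * (c : L.grp → A) ((L.coverIncl K) (g x)) =
      (L.cores K).weight x * (c : L.grp → A) ((L.coverRep K) x) + (c : L.grp → A) γ
        - (L.char γ : A) * ((L.cores K).weight (σ x) * (c : L.grp → A) ((L.coverRep K) (σ x))) := fun x => by
    rw [hrel, twistedCocycle_mul, twistedCocycle_mul, map_mul, Units.val_mul]
    linear_combination ((c : L.grp → A) γ + (L.char γ : A) *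
        (c : L.grp → A) ((L.coverRep K) (σ x))⁻¹) * hw x
      - (L.char γ : A) * (c : L.grp → A) ((L.coverRep K) (σ x))⁻¹ * hw (σ x)
      + (L.char γ : A) * (L.cores K).weight (σ x) * twistedCocycle_inv c ((L.coverRep K) (σ x))
  rw [Finset.sum_congr rfl fun x (_ : x ∈ Finset.univ) => key x, Finset.sum_sub_distrib,
    Finset.sum_add_distrib, ← Finset.mul_sum,
    Equiv.sum_comp σ (fun x => (L.cores K).weight x * (c : L.grp → A) ((L.coverRep K) x))]
  simp [coverShift]
  ring

/-- Cocycles as a retract of those of the cover. -/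
def coverEmb : L.Z1 →ₗ[A] (L.cover K).Z1 × A := (L.res K).op.prod (L.coverShift K)

/-- The retraction. -/
def coverRetr (n : A) : (L.cover K).Z1 × A →ₗ[A] L.Z1 :=
  n • ((L.cores K).op ∘ₗ LinearMap.fst A (L.cover K).Z1 A +
    coboundary L.char ∘ₗ LinearMap.snd A (L.cover K).Z1 A)

theorem coverRetr_coverEmb {n : A} (hn : n * (Fintype.card (L.CoverIdx K) : A) = 1) (c : L.Z1) :
    (L.coverRetr K) n ((L.coverEmb K) c) = c := by
  show n • ((L.cores K).op ((L.res K).op c) + coboundary L.char ((L.coverShift K) c)) = c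
  rw [cores_res, smul_smul, hn, one_smul]

theorem projective_Z1 (hK : ∀ γ ∈ L.grp ⊓ K, IsOfFinOrder γ → γ = 1) (hn : IsUnit (Fintype.card (L.CoverIdx K) : A)) :
    Module.Projective A L.Z1 ∧ Module.Finite A L.Z1 := by
  obtain ⟨n, hn⟩ := hn.exists_left_inv
  obtain ⟨r, ⟨b⟩⟩ := L.exists_cover_basis K hK
  have := free_twistedCocycles b (L.cover K).char
  have := finite_twistedCocycles b (L.cover K).char
  refine ⟨Module.Projective.of_split (L.coverEmb K) ((L.coverRetr K) n)
    (LinearMap.ext (L.coverRetr_coverEmb K hn)), ?_⟩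
  exact Module.Finite.of_surjective ((L.coverRetr K) n) fun c =>
    ⟨(L.coverEmb K) c, L.coverRetr_coverEmb K hn c⟩

section BaseChange

variable {A' : Type*} [CommRing A'] (f : A →+* A')

variable (hK : ∀ γ ∈ L.grp ⊓ K, IsOfFinOrder γ → γ = 1)

include hK in
theorem mapCocycle_surjective_of_unit (hf : Function.Surjective f)
    (hn : IsUnit (Fintype.card (L.CoverIdx K) : A)) :
    Function.Surjective (mapCocycle f L.char) := by
  intro d
  obtain ⟨n, hn⟩ := hn.exists_left_inv
  obtain ⟨r, ⟨b⟩⟩ := L.exists_cover_basis K hK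
  obtain ⟨c', hc'⟩ := mapCocycle_surjective f (L.cover K).char b hf
    (((L.res K).map f).op (show (L.map f).Z1 from d))
  obtain ⟨k, hk⟩ := hf (∑ x, ((L.cores K).map f).weight x * (d : L.grp → A') ((L.coverRep K) x))
  refine ⟨(L.coverRetr K) n (c', k), ?_⟩
  show mapCocycle f L.char (n • ((L.cores K).op c' + coboundary L.char k)) = d
  rw [LinearMap.map_smulₛₗ, map_add, mapCocycle_op, hc', mapCocycle_coboundary, hk]
  have hfin : (L.map f).grp.FiniteIndex := inferInstanceAs L.grp.FiniteIndex
  letI : Fintype ((L.map f).CoverIdx K) := inferInstanceAs (Fintype (L.CoverIdx K))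
  have h := ((L.map f).cores_res K) (show (L.map f).Z1 from d)
  have e1 : ((L.cores K).map f) = ((L.map f).cores K) := rfl
  have e2 : ((L.res K).map f) = ((L.map f).res K) := rfl
  rw [e1, e2]
  refine (congrArg (f n • ·) h).trans ?_
  show f n • ((Fintype.card (L.CoverIdx K) : A') • d) = d
  rw [smul_smul, ← map_natCast f, ← map_mul, hn, map_one, one_smul]

include hK in
theorem mem_ker_smul_of_map_eq_zero (hn : IsUnit (Fintype.card (L.CoverIdx K) : A)) {c : L.Z1}
    (hc : mapCocycle f L.char c = 0) : c ∈ RingHom.ker f • (⊤ : Submodule A L.Z1) := by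
  obtain ⟨n, hn⟩ := hn.exists_left_inv
  obtain ⟨r, ⟨b⟩⟩ := L.exists_cover_basis K hK
  have h1 : mapCocycle f (L.cover K).char ((L.res K).op c) = 0 := by
    rw [mapCocycle_op, hc]; exact map_zero _
  have h2 : (L.coverShift K) c ∈ RingHom.ker f := by
    have : ∀ x, f ((c : L.grp → A) ((L.coverRep K) x)) = 0 := fun x =>
      congrFun (congrArg Subtype.val hc) ((L.coverRep K) x)
    show f (∑ x, (L.cores K).weight x * (c : L.grp → A) ((L.coverRep K) x)) = 0
    simp [map_sum, this]
  rw [← L.coverRetr_coverEmb K hn c]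
  have e : (L.coverEmb K) c = LinearMap.inl A (L.cover K).Z1 A ((L.res K).op c) +
      LinearMap.inr A (L.cover K).Z1 A ((L.coverShift K) c) := by
    simp [coverEmb]
  rw [e, map_add]
  refine add_mem ?_ ?_
  · exact mem_pow_smul_map _ ((L.coverRetr K) n ∘ₗ LinearMap.inl A (L.cover K).Z1 A)
      (mem_ker_smul_of_mapCocycle_eq_zero f (L.cover K).char b h1)
  · refine mem_pow_smul_map (RingHom.ker f) ((L.coverRetr K) n ∘ₗ LinearMap.inr A (L.cover K).Z1 A) ?_
    have : (L.coverShift K) c • (1 : A) ∈ RingHom.ker f • (⊤ : Submodule A A) :=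
      Submodule.smul_mem_smul h2 Submodule.mem_top
    simpa using this

include hK in
theorem mapH1_surjective_of_unit (hf : Function.Surjective f)
    (hn : IsUnit (Fintype.card (L.CoverIdx K) : A)) : Function.Surjective (mapH1 f L.char) := by
  intro y
  obtain ⟨d, rfl⟩ := Submodule.mkQ_surjective _ y
  obtain ⟨c, rfl⟩ := L.mapCocycle_surjective_of_unit K f hK hf hn d
  exact ⟨toH1 L.char c, rfl⟩

include hK in
theorem mem_ker_smul_of_mapH1_eq_zero (hf : Function.Surjective f)
    (hn : IsUnit (Fintype.card (L.CoverIdx K) : A)) {y : L.H1} (hy : mapH1 f L.char y = 0) :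
    y ∈ RingHom.ker f • (⊤ : Submodule A L.H1) := by
  obtain ⟨c, rfl⟩ := Submodule.mkQ_surjective _ y
  obtain ⟨x', hx'⟩ := (Submodule.Quotient.mk_eq_zero _).1 hy
  obtain ⟨x, rfl⟩ := hf x'
  have h0 : mapCocycle f L.char (c - coboundary L.char x) = 0 := by
    rw [map_sub, mapCocycle_coboundary, hx', sub_self]
  have e : toH1 L.char c = toH1 L.char (c - coboundary L.char x) := by
    rw [map_sub, show toH1 L.char (coboundary L.char x) = 0 from
      (Submodule.Quotient.mk_eq_zero _).2 ⟨x, rfl⟩, sub_zero]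
  show toH1 L.char c ∈ _
  rw [e]
  exact mem_pow_smul_map _ (toH1 L.char) (L.mem_ker_smul_of_map_eq_zero K f hK hn h0)

omit [Fintype (L.CoverIdx K)] in
/-- The index of the cover divides that of `K`. -/
theorem natCard_coverIdx_dvd [K.Normal] : Nat.card (L.CoverIdx K) ∣ K.index := by
  have e : (L.coverIncl K).range = K.subgroupOf L.grp := by
    ext x
    simp only [MonoidHom.mem_range, Subgroup.mem_subgroupOf]
    exact ⟨fun ⟨y, hy⟩ => hy ▸ y.2.2, fun hx => ⟨⟨x, x.2, hx⟩, rfl⟩⟩
  show (L.coverIncl K).range.index ∣ K.index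
  rw [e]
  exact Subgroup.relIndex_dvd_index_of_normal _ _

omit [CommRing A'] in
theorem isUnit_card_coverIdx [K.Normal] (h : IsUnit (K.index : A)) :
    IsUnit (Fintype.card (L.CoverIdx K) : A) := by
  obtain ⟨k, hk⟩ := L.natCard_coverIdx_dvd K
  rw [Nat.card_eq_fintype_card] at hk
  rw [hk, Nat.cast_mul] at h
  exact isUnit_of_mul_isUnit_left h

end BaseChange

omit [L.grp.FiniteIndex] [Fintype (L.CoverIdx K)] in
/-- `L` has a free cover of index invertible in the coefficients. -/
def HasCover : Prop :=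
  ∃ K : Subgroup SL(2, ℤ), K.Normal ∧ K.FiniteIndex ∧
    (∀ γ ∈ L.grp ⊓ K, IsOfFinOrder γ → γ = 1) ∧ IsUnit (K.index : A)

end WLevel

end Fermat.Agent.RT.TW

end
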