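import Fermat.Agent.RT.TW.Cover
import Fermat.Agent.RT.TW.Gamma0
import Mathlib.NumberTheory.ModularForms.LevelOne
import Mathlib.NumberTheory.LegendreSymbol.Basic
import Mathlib.FieldTheory.Finite.Basic

/-!
# Covers of `Γ₀(M)` of index prime to the residue characteristic

`Γ(3)` serves when `24` is invertible. If only `2` is, and `M` is even or a prime `q ≡ 11 mod 12` divides
`M`, the kernel of the character of order `4` of `SL(2, ℤ)` meets the torsion of `Γ₀(M)` trivially.
-/

set_option autoImplicit false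

noncomputable section

namespace Fermat.Agent.RT.TW

open scoped MatrixGroups
open Periods CongruenceSubgroup

/-- The character of order `4`, as a function of the matrix modulo `4`. -/
def quarterFun (a b c d : ZMod 4) : ZMod 4 :=
  (1 - c ^ 2) * (b * d + 3 * (c - 1) * d + c + 3) + c * (a + d - 3)

theorem quarterFun_mul_T : ∀ a b c d : ZMod 4, a * d - b * c = 1 →
    quarterFun a (a + b) c (c + d) = quarterFun a b c d + 1 := by
  unfold quarterFun
  decide

theorem quarterFun_mul_S : ∀ a b c d : ZMod 4, a * d - b * c = 1 →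
    quarterFun b (-a) d (-c) = quarterFun a b c d + 1 := by
  unfold quarterFun
  decide

/-- The character of order `4` of `SL(2, ℤ)`. -/
def quarterVal (g : SL(2, ℤ)) : ZMod 4 :=
  quarterFun (g 0 0 : ℤ) (g 0 1 : ℤ) (g 1 0 : ℤ) (g 1 1 : ℤ)

theorem quarterVal_mul_gen (g : SL(2, ℤ)) :
    quarterVal (g * ModularGroup.T) = quarterVal g + 1 ∧
      quarterVal (g * ModularGroup.S) = quarterVal g + 1 := by
  have hd : ((g 0 0 : ℤ) : ZMod 4) * (g 1 1 : ℤ) - (g 0 1 : ℤ) * (g 1 0 : ℤ) = 1 := by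
    have h := Matrix.det_fin_two (g : Matrix (Fin 2) (Fin 2) ℤ)
    rw [g.2] at h
    exact_mod_cast (congrArg (Int.cast : ℤ → ZMod 4) h.symm)
  constructor
  · rw [quarterVal, quarterVal, ← quarterFun_mul_T _ _ _ _ hd]
    simp [Matrix.mul_apply, Fin.sum_univ_two, ModularGroup.coe_T]
  · rw [quarterVal, quarterVal, ← quarterFun_mul_S _ _ _ _ hd]
    simp [Matrix.mul_apply, Fin.sum_univ_two, ModularGroup.coe_S]

theorem quarterVal_one : quarterVal 1 = 0 := by
  simp [quarterVal, quarterFun]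

theorem quarterVal_mul (g h : SL(2, ℤ)) : quarterVal (g * h) = quarterVal g + quarterVal h := by
  have hh : h ∈ Subgroup.closure {ModularGroup.S, ModularGroup.T} := by
    rw [SpecialLinearGroup.SL2Z_generators]
    exact Subgroup.mem_top h
  have hgen : ∀ x ∈ ({ModularGroup.S, ModularGroup.T} : Set SL(2, ℤ)),
      ∀ g, quarterVal (g * x) = quarterVal g + 1 := by
    rintro x (rfl | rfl) g
    exacts [(quarterVal_mul_gen g).2, (quarterVal_mul_gen g).1]
  have hval : ∀ x ∈ ({ModularGroup.S, ModularGroup.T} : Set SL(2, ℤ)), quarterVal x = 1 :=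
    fun x hx => by simpa [quarterVal_one] using hgen x hx 1
  induction hh using Subgroup.closure_induction generalizing g with
  | mem x hx => rw [hgen x hx, hval x hx]
  | one => rw [mul_one, quarterVal_one, add_zero]
  | mul x y _ _ hx hy => rw [← mul_assoc, hy, hx, hy x, add_assoc]
  | inv x _ hx =>
    have h1 := hx (g * x⁻¹)
    have h2 := hx x⁻¹
    rw [inv_mul_cancel_right] at h1
    rw [inv_mul_cancel, quarterVal_one] at h2
    linear_combination -h1 + h2

/-- The character of order `4` as a homomorphism. -/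
def quarterHom : SL(2, ℤ) →* Multiplicative (ZMod 4) where
  toFun g := Multiplicative.ofAdd (quarterVal g)
  map_one' := by rw [quarterVal_one]; rfl
  map_mul' g h := by rw [quarterVal_mul]; rfl

instance : (quarterHom.ker).FiniteIndex := by
  refine ⟨?_⟩
  rw [Subgroup.index_ker]
  exact Nat.card_pos.ne'

theorem index_ker_quarterHom : (quarterHom.ker).index ∣ 4 := by
  rw [Subgroup.index_ker]
  refine (Subgroup.card_subgroup_dvd_card _).trans ?_
  simp

/-- A torsion element of trace `2` is trivial. -/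
theorem eq_one_of_trace_eq_two {γ : SL(2, ℤ)} (hfin : IsOfFinOrder γ)
    (ht : (γ : IntMat).trace = 2) : γ = 1 := by
  obtain ⟨n, hn, hn1⟩ := isOfFinOrder_iff_pow_eq_one.1 hfin
  have hXn : (γ : IntMat) ^ n = 1 := by simpa using congrArg Subtype.val hn1
  have hd : (γ : IntMat).det = 1 := γ.2
  set X : IntMat := (γ : IntMat) with hX
  have hN : (X - 1) * (X - 1) = 0 := by
    rw [Matrix.det_fin_two] at hd
    rw [Matrix.trace_fin_two] at ht
    ext i j
    fin_cases i <;> fin_cases j <;> simp [Matrix.mul_apply, Fin.sum_univ_two]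
    · linear_combination (X 0 0) * ht - hd
    · linear_combination (X 0 1) * ht
    · linear_combination (X 1 0) * ht
    · linear_combination (X 1 1) * ht - hd
  have hpow : ∀ k : ℕ, X ^ k = 1 + k • (X - 1) := by
    intro k
    induction k with
    | zero => simp
    | succ k ih =>
      rw [pow_succ, ih, Matrix.add_mul, Matrix.one_mul, Matrix.smul_mul]
      have : (X - 1) * X = X - 1 := by
        calc (X - 1) * X = (X - 1) * (X - 1) + (X - 1) := by
              rw [Matrix.mul_sub (X - 1) X 1, Matrix.mul_one, sub_add_cancel]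
          _ = X - 1 := by rw [hN, zero_add]
      rw [this, succ_nsmul]
      abel
  have h0 := hpow n
  rw [hXn, left_eq_add] at h0
  refine Subtype.ext ?_
  show X = 1
  rw [← sub_eq_zero]
  ext i j
  have := congrFun (congrFun h0 i) j
  simp [-zsmul_eq_mul] at this
  exact this.resolve_left (by omega)

theorem trace_eq_of_isOfFinOrder {γ : SL(2, ℤ)} (hfin : IsOfFinOrder γ) :
    |(γ : IntMat).trace| ≤ 2 := by
  obtain ⟨n, hn, hn1⟩ := isOfFinOrder_iff_pow_eq_one.1 hfin
  obtain ⟨n, rfl⟩ : ∃ k, n = k + 1 := ⟨n - 1, by omega⟩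
  have hXn : (γ : IntMat) ^ (n + 1) = 1 := by simpa using congrArg Subtype.val hn1
  set X : IntMat := (γ : IntMat) with hX
  have hd : X.det = 1 := γ.2
  by_contra hbig
  obtain ⟨u, v, huv, hlt⟩ := eq_zero_of_pow_eq_smul_sub hd rfl (by omega) n
  have hu : u ≠ 0 := by
    rintro rfl
    exact absurd hlt (by simp)
  rw [hXn] at huv
  have e01 := congrFun (congrFun huv 0) 1
  have e10 := congrFun (congrFun huv 1) 0
  simp [Matrix.sub_apply, Matrix.smul_apply, -zsmul_eq_mul, -zsmul_one] at e01 e10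
  rw [Matrix.det_fin_two, e01.resolve_left hu, e10.resolve_left hu, mul_zero, sub_zero] at hd
  rw [Matrix.trace_fin_two] at hbig
  rcases Int.eq_one_or_neg_one_of_mul_eq_one' hd with ⟨h1, h2⟩ | ⟨h1, h2⟩ <;>
    rw [h1, h2] at hbig <;> norm_num at hbig

theorem sq_add_self_add_one_ne_zero {q : ℕ} (hq : q.Prime) (hq12 : q % 12 = 11) (z : ZMod q) :
    z ^ 2 + z + 1 ≠ 0 := by
  haveI := Fact.mk hq
  intro hz
  have h3 : z ^ 3 = 1 := by linear_combination (z - 1) * hz
  have hz0 : z ≠ 0 := by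
    rintro rfl
    simp at hz
  have h1 : z = 1 := by
    have hd := Nat.dvd_gcd (orderOf_dvd_of_pow_eq_one h3)
      (orderOf_dvd_of_pow_eq_one (ZMod.pow_card_sub_one_eq_one hz0))
    rw [(Nat.prime_three.coprime_iff_not_dvd.2 (by omega) : Nat.Coprime 3 (q - 1))] at hd
    exact orderOf_eq_one_iff.1 (Nat.dvd_one.1 hd)
  rw [h1] at hz
  have : ((3 : ℕ) : ZMod q) = 0 := by
    push_cast
    linear_combination hz
  rw [ZMod.natCast_eq_zero_iff] at this
  have := (Nat.prime_dvd_prime_iff_eq hq Nat.prime_three).1 this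
  omega

/-- With a prime `q ≡ 11 mod 12` in the level, the only torsion elements are `±1`. -/
theorem eq_one_or_eq_neg_one_of_isOfFinOrder {M q : ℕ} (hq : q.Prime) (hqM : q ∣ M)
    (hq12 : q % 12 = 11) {γ : SL(2, ℤ)} (hγ : γ ∈ Gamma0 M) (hfin : IsOfFinOrder γ) :
    γ = 1 ∨ γ = -1 := by
  haveI := Fact.mk hq
  have hsmall := trace_eq_of_isOfFinOrder hfin
  have hd : (γ : IntMat).det = 1 := γ.2
  have hc : (((γ : IntMat) 1 0 : ℤ) : ZMod q) = 0 :=
    (ZMod.intCast_zmod_eq_zero_iff_dvd _ q).2 ((Int.natCast_dvd_natCast.2 hqM).trans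
      ((ZMod.intCast_zmod_eq_zero_iff_dvd _ M).1 (Gamma0_mem.1 hγ)))
  rw [Matrix.det_fin_two] at hd
  have hd' := congrArg (Int.cast : ℤ → ZMod q) hd
  push_cast at hd'
  rw [hc, mul_zero, sub_zero] at hd'
  have htr' : (((γ : IntMat).trace : ℤ) : ZMod q) =
      (((γ : IntMat) 0 0 : ℤ) : ZMod q) + (((γ : IntMat) 1 1 : ℤ) : ZMod q) := by
    rw [Matrix.trace_fin_two]
    push_cast
    rfl
  rw [abs_le] at hsmall
  have : (γ : IntMat).trace = 2 ∨ (γ : IntMat).trace = -2 ∨ (γ : IntMat).trace = 1 ∨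
      (γ : IntMat).trace = -1 ∨ (γ : IntMat).trace = 0 := by omega
  rcases this with h | h | h | h | h
  · exact Or.inl (eq_one_of_trace_eq_two hfin h)
  · refine Or.inr ?_
    have hfin1 : IsOfFinOrder (-1 : SL(2, ℤ)) :=
      isOfFinOrder_iff_pow_eq_one.2 ⟨2, two_pos, by simp⟩
    have hfin' : IsOfFinOrder (-1 * γ) := (Commute.neg_one_left γ).isOfFinOrder_mul hfin1 hfin
    have := eq_one_of_trace_eq_two hfin' (by simp [h])
    rw [neg_one_mul] at this
    exact neg_eq_iff_eq_neg.1 this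
  all_goals
    exfalso
    rw [h] at htr'
    push_cast at htr'
  · exact sq_add_self_add_one_ne_zero hq hq12 (-(((γ : IntMat) 0 0 : ℤ) : ZMod q)) (by
      linear_combination (((γ : IntMat) 0 0 : ℤ) : ZMod q) * -htr' - hd')
  · exact sq_add_self_add_one_ne_zero hq hq12 ((((γ : IntMat) 0 0 : ℤ) : ZMod q)) (by
      linear_combination (((γ : IntMat) 0 0 : ℤ) : ZMod q) * -htr' - hd')
  · exact absurd (ZMod.exists_sq_eq_neg_one_iff.1 ⟨(((γ : IntMat) 0 0 : ℤ) : ZMod q), by
      linear_combination (((γ : IntMat) 0 0 : ℤ) : ZMod q) * htr' + hd'⟩) (by omega)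

/-- At an even level an element of finite order in the kernel of the character of order `4` is
trivial. -/
theorem eq_one_of_isOfFinOrder_of_two_dvd {M : ℕ} (h2M : 2 ∣ M) {γ : SL(2, ℤ)}
    (hγ : γ ∈ Gamma0 M) (hker : quarterHom γ = 1) (hfin : IsOfFinOrder γ) : γ = 1 := by
  have hsmall := trace_eq_of_isOfFinOrder hfin
  have hd : (γ : IntMat).det = 1 := γ.2
  have hc : (((γ : IntMat) 1 0 : ℤ) : ZMod 2) = 0 :=
    (ZMod.intCast_zmod_eq_zero_iff_dvd _ 2).2 ((Int.natCast_dvd_natCast.2 h2M).trans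
      ((ZMod.intCast_zmod_eq_zero_iff_dvd _ M).1 (Gamma0_mem.1 hγ)))
  rw [Matrix.det_fin_two] at hd
  have hd' := congrArg (Int.cast : ℤ → ZMod 2) hd
  push_cast at hd'
  rw [hc, mul_zero, sub_zero] at hd'
  rw [abs_le] at hsmall
  have h4 : quarterVal γ = 0 := congrArg Multiplicative.toAdd hker
  have key : ∀ a b c d : ZMod 4, a * d - b * c = 1 → quarterFun a b c d = 0 → c * 2 = 0 →
      a + d ≠ 0 ∧ a + d ≠ 1 ∧ a + d ≠ -1 := by
    unfold quarterFun; decide
  obtain ⟨c', hc'⟩ := (ZMod.intCast_zmod_eq_zero_iff_dvd _ 2).1 hc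
  have hk := key _ _ _ _
    (by simpa using congrArg (Int.cast : ℤ → ZMod 4) hd) h4
    (by
      rw [hc']; push_cast
      rw [mul_comm (2 : ZMod 4), mul_assoc, show (2 : ZMod 4) * 2 = 0 by decide, mul_zero])
  have htr : (γ : IntMat).trace = 2 ∨ (γ : IntMat).trace = -2 ∨ (γ : IntMat).trace = 1 ∨
      (γ : IntMat).trace = -1 ∨ (γ : IntMat).trace = 0 := by omega
  have htr' : (((γ : IntMat).trace : ℤ) : ZMod 4) =
      (((γ : IntMat) 0 0 : ℤ) : ZMod 4) + (((γ : IntMat) 1 1 : ℤ) : ZMod 4) := by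
    rw [Matrix.trace_fin_two]; push_cast; rfl
  rcases htr with h | h | h | h | h
  · exact eq_one_of_trace_eq_two hfin h
  · exfalso
    have hfin1 : IsOfFinOrder (-1 : SL(2, ℤ)) :=
      isOfFinOrder_iff_pow_eq_one.2 ⟨2, two_pos, by simp⟩
    have hfin' : IsOfFinOrder (-1 * γ) := (Commute.neg_one_left γ).isOfFinOrder_mul hfin1 hfin
    have h1 := eq_one_of_trace_eq_two hfin' (by simp [h])
    rw [neg_one_mul, neg_eq_iff_eq_neg] at h1
    subst h1
    have h5 : quarterVal (-1 : SL(2, ℤ)) = 0 := h4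
    simp [quarterVal, quarterFun] at h5
    revert h5
    decide
  all_goals
    exfalso
    rw [h] at htr'
    push_cast at htr'
  · exact hk.2.1 htr'.symm
  · exact hk.2.2 htr'.symm
  · exact hk.1 (by rw [← htr'])

variable {A : Type} [CommRing A] {N M : ℕ} {Φ : MulChar (ZMod N) A}

/-- The hypothesis on the coefficients under which `Γ₀(M)` has a suitable cover. -/
def CoverHyp (A : Type) [CommRing A] (M : ℕ) : Prop :=
  IsUnit (24 : A) ∨ (IsUnit (2 : A) ∧ (2 ∣ M ∨ ∃ q : ℕ, q.Prime ∧ q ∣ M ∧ q % 12 = 11))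

theorem CoverHyp.of_isUnit (h : IsUnit (24 : A)) : CoverHyp A M := Or.inl h

theorem CoverHyp.of_two_dvd (h2 : IsUnit (2 : A)) (hM : 2 ∣ M) : CoverHyp A M :=
  Or.inr ⟨h2, Or.inl hM⟩

theorem CoverHyp.mono {M' : ℕ} (h : CoverHyp A M) (hd : M ∣ M') : CoverHyp A M' :=
  h.imp_right fun ⟨h2, h'⟩ =>
    ⟨h2, h'.imp (fun hM => hM.trans hd) fun ⟨q, hq, hqM, hq'⟩ => ⟨q, hq, hqM.trans hd, hq'⟩⟩

theorem CoverHyp.map {A' : Type} [CommRing A'] (h : CoverHyp A M) (f : A →+* A') :
    CoverHyp A' M :=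
  h.imp (fun h => by simpa only [map_ofNat] using h.map f)
    fun ⟨h2, hq⟩ => ⟨by simpa only [map_ofNat] using h2.map f, hq⟩

theorem CoverHyp.hasCover (hcov : CoverHyp A M) (h : N ∣ M) : (level0 Φ M h).HasCover := by
  rcases hcov with h24 | ⟨h2, hM⟩
  · refine ⟨Gamma 3, Gamma_normal 3, inferInstance,
      fun γ hγ hfin => eq_one_of_isOfFinOrder_mem_gamma3 hγ.2 hfin, ?_⟩
    have h3 : (Gamma 3).index ∣ 24 := by
      refine dvd_trans ?_ (show Nat.card SL(2, ZMod 3) ∣ 24 by
        rw [Nat.card_eq_fintype_card]; decide)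
      show (MonoidHom.ker (Matrix.SpecialLinearGroup.map (Int.castRingHom (ZMod 3)))).index ∣ _
      rw [Subgroup.index_ker]
      exact Subgroup.card_subgroup_dvd_card _
    obtain ⟨k, hk⟩ := h3
    refine isUnit_of_mul_isUnit_left (y := (k : A)) ?_
    rw [← Nat.cast_mul, ← hk]
    exact_mod_cast h24
  · refine ⟨quarterHom.ker, inferInstance, inferInstance, fun γ hγ hfin => ?_, ?_⟩
    · rcases hM with hM | ⟨q, hq, hqM, hq12⟩
      · exact eq_one_of_isOfFinOrder_of_two_dvd hM hγ.1 hγ.2 hfin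
      refine (eq_one_or_eq_neg_one_of_isOfFinOrder hq hqM hq12 hγ.1 hfin).resolve_right ?_
      rintro rfl
      have h1 : quarterHom (-1) = 1 := hγ.2
      have h2 : quarterVal (-1) = 0 := congrArg Multiplicative.toAdd h1
      simp [quarterVal, quarterFun] at h2
      revert h2
      decide
    · obtain ⟨k, hk⟩ := index_ker_quarterHom
      refine isUnit_of_mul_isUnit_left (y := (k : A)) ?_
      rw [← Nat.cast_mul, ← hk, show ((4 : ℕ) : A) = 2 * 2 by norm_num]
      exact h2.mul h2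

end Fermat.Agent.RT.TW

end
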