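import Mathlib.LinearAlgebra.FreeModule.Finite.Basic
import Mathlib.RingTheory.LocalRing.Module
import Mathlib.Algebra.Module.Projective

/-!
# The part of a quotient where an operator killing the relations is invertible

If `t` is an endomorphism of a module `Z` killing `B`, then any retract `P` of `Z ⧸ B` on which
`t` acts bijectively is a retract of `Z`. Hence it is projective when `Z` is, and free over a
local ring. Applied to `Z = Z¹`, `B = B¹` and `t = T_ℓ - S_ℓ`, this gives the freeness over
`O[Δ]` of non-Eisenstein localisations of `H¹`.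
-/

set_option autoImplicit false

namespace Fermat.Agent.RT.TW

variable {A : Type*} [CommRing A] {Z : Type*} [AddCommGroup Z] [Module A Z]
variable {P : Type*} [AddCommGroup P] [Module A P]

/-- The retraction exhibiting `P` as a summand of `Z`. -/
theorem exists_section_of_bijective (B : Submodule A Z) (t : Z →ₗ[A] Z)
    (hB : ∀ x ∈ B, t x = 0) (incl : P →ₗ[A] Z ⧸ B) (proj : (Z ⧸ B) →ₗ[A] P)
    (hpi : ∀ x, proj (incl x) = x) (tP : P →ₗ[A] P) (htP : Function.Bijective tP)
    (hstab : ∀ (x : P) (z : Z), B.mkQ z = incl x → B.mkQ (t z) = incl (tP x)) :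
    ∃ s : P →ₗ[A] Z, ∀ x, proj (B.mkQ (s x)) = x := by
  let t' : (Z ⧸ B) →ₗ[A] Z := B.liftQ t fun x hx => hB x hx
  let e := LinearEquiv.ofBijective tP htP
  refine ⟨t'.comp (incl.comp e.symm.toLinearMap), fun x => ?_⟩
  obtain ⟨z, hz⟩ := B.mkQ_surjective (incl (e.symm x))
  have h : t' (incl (e.symm x)) = t z := by rw [← hz]; rfl
  show proj (B.mkQ (t' (incl (e.symm x)))) = x
  rw [h, hstab _ z hz, hpi]
  exact e.apply_symm_apply x

/-- A stable retract of the quotient on which `t` is bijective is projective. -/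
theorem projective_of_bijective [Module.Projective A Z] (B : Submodule A Z) (t : Z →ₗ[A] Z)
    (hB : ∀ x ∈ B, t x = 0) (incl : P →ₗ[A] Z ⧸ B) (proj : (Z ⧸ B) →ₗ[A] P)
    (hpi : ∀ x, proj (incl x) = x) (tP : P →ₗ[A] P) (htP : Function.Bijective tP)
    (hstab : ∀ (x : P) (z : Z), B.mkQ z = incl x → B.mkQ (t z) = incl (tP x)) :
    Module.Projective A P := by
  obtain ⟨s, hs⟩ := exists_section_of_bijective B t hB incl proj hpi tP htP hstab
  exact Module.Projective.of_split s (proj.comp B.mkQ) (LinearMap.ext hs)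

/-- Over a local ring, it is free. -/
theorem free_of_bijective [IsLocalRing A] [Module.Finite A Z] [Module.Projective A Z]
    (B : Submodule A Z) (t : Z →ₗ[A] Z) (hB : ∀ x ∈ B, t x = 0)
    (incl : P →ₗ[A] Z ⧸ B) (proj : (Z ⧸ B) →ₗ[A] P) (hpi : ∀ x, proj (incl x) = x)
    (tP : P →ₗ[A] P) (htP : Function.Bijective tP)
    (hstab : ∀ (x : P) (z : Z), B.mkQ z = incl x → B.mkQ (t z) = incl (tP x)) :
    Module.Free A P ∧ Module.Finite A P := by
  have := projective_of_bijective B t hB incl proj hpi tP htP hstab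
  have hfin : Module.Finite A P :=
    Module.Finite.of_surjective (proj.comp B.mkQ) fun x => by
      obtain ⟨z, hz⟩ := B.mkQ_surjective (incl x)
      exact ⟨z, by rw [LinearMap.comp_apply, hz, hpi]⟩
  exact ⟨Module.free_of_flat_of_isLocalRing, hfin⟩

end Fermat.Agent.RT.TW
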