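import Fermat.Agent.RT.TW.Localize
import Fermat.Agent.RT.TW.AddPrime
import Mathlib.RingTheory.Henselian
import Mathlib.RingTheory.IntegralClosure.IsIntegralClosure.Basic
import Mathlib.RingTheory.Ideal.GoingUp
import Mathlib.RingTheory.Localization.Ideal

/-!
# Localisation of a finite module at a maximal ideal of an acting algebra

For a commutative `P` acting on a finite module `H` over a complete Noetherian local `A`, the
local idempotent at a maximal ideal `m` of `P` is characterised intrinsically, which gives its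
naturality in semilinear equivariant maps, and roots of quadratic equations on the local part.
-/

set_option autoImplicit false

noncomputable section

namespace Fermat.Agent.RT.TW

variable {A : Type} [CommRing A] [IsLocalRing A] {P : Type*} [CommRing P] [Algebra A P]
variable {H : Type*} [AddCommGroup H] [Module A H]

/-- `e` is the idempotent of the `m`-part of `H`. -/
structure IsLocalIdem (ρ : P →ₐ[A] Module.End A H) (m : Ideal P) (e : Module.End A H) : Prop where
  mem : ∃ p, ρ p = e
  idem : e * e = e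
  inv : ∀ t ∉ m, ∃ u, ρ u * ρ t = e
  nil : ∀ t ∈ m, ∃ n : ℕ, ∀ x, (ρ t ^ n) (e x) ∈
    IsLocalRing.maximalIdeal A • (⊤ : Submodule A H)
  compl : ∃ s ∈ m, ρ s * (1 - e) = 1 - e

namespace IsLocalIdem

variable {ρ : P →ₐ[A] Module.End A H} {m : Ideal P} {e : Module.End A H}

theorem comm (h : IsLocalIdem ρ m e) (p : P) : e * ρ p = ρ p * e := by
  obtain ⟨q, rfl⟩ := h.mem
  rw [← map_mul, mul_comm, map_mul]

theorem comm_apply (h : IsLocalIdem ρ m e) (p : P) (x : H) : e (ρ p x) = ρ p (e x) :=
  LinearMap.congr_fun (h.comm p) x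

theorem idem_apply (h : IsLocalIdem ρ m e) (x : H) : e (e x) = e x :=
  LinearMap.congr_fun h.idem x

theorem pow_mem (h : IsLocalIdem ρ m e) {t : P} (ht : t ∈ m) :
    ∃ n : ℕ, ∀ (k : ℕ) (x : H), (ρ t ^ (n * k)) (e x) ∈
      IsLocalRing.maximalIdeal A ^ k • (⊤ : Submodule A H) := by
  obtain ⟨n, hn⟩ := h.nil t ht
  refine ⟨n, fun k x => pow_mem_pow_smul _ (ρ t) e h.idem_apply (fun j y => ?_) hn k x⟩
  rw [← map_pow, h.comm_apply]

/-- On the part at `m`, elements outside `m` are bijective. -/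
theorem bijective_restrict (h : IsLocalIdem ρ m e) {t : P} (ht : t ∉ m) :
    ∃ u : P, ∀ x, e x = x → ρ u (ρ t x) = x ∧ ρ t (ρ u x) = x := by
  obtain ⟨u, hu⟩ := h.inv t ht
  refine ⟨u, fun x hx => ⟨?_, ?_⟩⟩
  · rw [← Module.End.mul_apply, hu, hx]
  · rw [← Module.End.mul_apply, ← map_mul, mul_comm, map_mul, hu, hx]

end IsLocalIdem

section Existence

variable [IsNoetherianRing A] [IsAdicComplete (IsLocalRing.maximalIdeal A) A]

omit [IsLocalRing A] [IsAdicComplete (IsLocalRing.maximalIdeal A) A] in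
theorem finite_quotient_ker [Module.Finite A H] (ρ : P →ₐ[A] Module.End A H) :
    Module.Finite A (P ⧸ RingHom.ker ρ) :=
  Module.Finite.of_injective (Ideal.kerLiftAlg ρ).toLinearMap (Ideal.kerLiftAlg_injective ρ)

end Existence

section Existence

variable [IsNoetherianRing A] [IsAdicComplete (IsLocalRing.maximalIdeal A) A]
variable {P₀ : Type} [CommRing P₀] [Algebra A P₀] {H₀ : Type} [AddCommGroup H₀] [Module A H₀]
  [Module.Finite A H₀]

theorem maximal_map_of_ker_le {R S : Type*} [CommRing R] [CommRing S] (f : R →+* S)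
    (hf : Function.Surjective f) (m : Ideal R) [hm : m.IsMaximal] (hker : RingHom.ker f ≤ m) :
    (m.map f).IsMaximal ∧ ∀ t, f t ∈ m.map f ↔ t ∈ m := by
  have hc : (m.map f).comap f = m := by
    rw [Ideal.comap_map_of_surjective f hf, ← RingHom.ker_eq_comap_bot, sup_eq_left]
    exact hker
  refine ⟨(Ideal.map_eq_top_or_isMaximal_of_surjective f hf hm).resolve_left fun h => ?_,
    fun t => by rw [← Ideal.mem_comap, hc]⟩
  rw [h, Ideal.comap_top] at hc
  exact hm.ne_top hc.symm

theorem eval_derivative_quadratic {R : Type*} [CommRing R] (t r c : R) :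
    (Polynomial.X ^ 2 - Polynomial.C t * Polynomial.X + Polynomial.C r : Polynomial R).derivative.eval c
      = 2 * c - t := by
  rw [map_add, map_sub, Polynomial.derivative_mul, Polynomial.derivative_X_pow,
    Polynomial.derivative_C, Polynomial.derivative_X, Polynomial.derivative_C]
  simp

/-- The local idempotent exists. -/
theorem exists_isLocalIdem (ρ : P₀ →ₐ[A] Module.End A H₀) (m : Ideal P₀) [hm : m.IsMaximal] :
    ∃ e, IsLocalIdem ρ m e := by
  by_cases hker : RingHom.ker ρ ≤ m
  swap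
  · obtain ⟨k, hk, hkm⟩ := SetLike.not_le_iff_exists.1 hker
    have hk0 : ρ k = 0 := hk
    obtain ⟨a, s, hs, has⟩ := hm.exists_inv hkm
    refine ⟨0, ⟨⟨0, map_zero ρ⟩, mul_zero 0, fun t _ => ⟨0, by rw [map_zero, zero_mul]⟩,
      fun t _ => ⟨0, fun x => by simp⟩, s, hs, ?_⟩⟩
    have : ρ s = 1 := by
      have := congrArg ρ has
      rwa [map_add, map_mul, hk0, mul_zero, zero_add, map_one] at this
    rw [this, one_mul]
  have := finite_quotient_ker ρ
  let T := P₀ ⧸ RingHom.ker ρ
  let π : P₀ →ₐ[A] T := Ideal.Quotient.mkₐ A _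
  have hπ : Function.Surjective π := Ideal.Quotient.mkₐ_surjective A _
  let m' : Ideal T := Ideal.map π.toRingHom m
  obtain ⟨hm'max, hmem⟩ := maximal_map_of_ker_le π.toRingHom hπ m
    (by rwa [show RingHom.ker π.toRingHom = RingHom.ker ρ from Ideal.mk_ker])
  obtain ⟨e₀, he, hem, hinv, hother⟩ := exists_idempotent_maximal A m'
  let ρ' : T →ₐ[A] Module.End A H₀ := Ideal.kerLiftAlg ρ
  have hρ' : ∀ p, ρ' (π p) = ρ p := fun p => rfl
  obtain ⟨p, rfl⟩ := hπ e₀
  refine ⟨ρ p, ⟨⟨p, rfl⟩, ?_, fun t ht => ?_, fun t ht => ?_, 1 - p, ?_, ?_⟩⟩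
  · rw [← hρ', ← map_mul, he]
  · obtain ⟨u, hu⟩ := hinv (π t) (fun h => ht ((hmem t).1 h))
    obtain ⟨u, rfl⟩ := hπ u
    exact ⟨u, by rw [← hρ', ← hρ', ← map_mul, hu, hρ']⟩
  · -- `t p` lies in every prime above the maximal ideal of `A`
    let J : Ideal T := Ideal.map (algebraMap A T) (IsLocalRing.maximalIdeal A)
    have hrad : π t * π p ∈ J.radical := by
      rw [Ideal.radical_eq_sInf, Ideal.mem_sInf]
      intro Q hQQ
      obtain ⟨hJQ, hQ⟩ := hQQ
      have : Q.IsMaximal := Ideal.isMaximal_of_isIntegral_of_isMaximal_comap (R := A) Q (by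
        have hle : IsLocalRing.maximalIdeal A ≤ Q.comap (algebraMap A T) :=
          Ideal.map_le_iff_le_comap.1 hJQ
        rw [← (IsLocalRing.maximalIdeal.isMaximal A).eq_of_le (Ideal.comap_ne_top _ hQ.ne_top) hle]
        exact IsLocalRing.maximalIdeal.isMaximal A)
      by_cases hQm : Q = m'
      · rw [hQm]; exact Ideal.mul_mem_right _ _ ((hmem t).2 ht)
      · exact Q.mul_mem_left _ (hother Q this hQm)
    obtain ⟨n, hn⟩ := hrad
    refine ⟨n, fun x => ?_⟩
    have key : ∀ y ∈ J, ∀ z, ρ' y z ∈ IsLocalRing.maximalIdeal A • (⊤ : Submodule A H₀) := by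
      intro y hy
      refine Submodule.span_induction ?_ ?_ ?_ ?_ hy
      · rintro _ ⟨a, ha, rfl⟩ z
        rw [AlgHom.commutes, Module.algebraMap_end_apply]
        exact Submodule.smul_mem_smul ha Submodule.mem_top
      · intro z; simp
      · intro a b _ _ ha hb z; rw [map_add]; exact add_mem (ha z) (hb z)
      · intro a b _ hb z
        rw [smul_eq_mul, map_mul, Module.End.mul_apply]
        exact mem_pow_smul_map _ (ρ' a) (hb z)
    have e1 : ρ' ((π t * π p) ^ n) (ρ p x) = (ρ t ^ n) (ρ p x) := by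
      rw [mul_pow, map_mul, map_pow, map_pow, hρ', hρ', Module.End.mul_apply]
      congr 1
      clear hn
      induction n with
      | zero => rfl
      | succ n ih =>
        rw [pow_succ, Module.End.mul_apply]
        have : ρ p (ρ p x) = ρ p x := by rw [← Module.End.mul_apply, ← hρ', ← map_mul, he]
        rw [this, ih]
    rw [← e1]
    exact key _ hn _
  · rw [← hmem, map_sub, map_one]
    by_contra h
    have h0 : π p * (1 - π p) ∈ m' := by rw [mul_sub, mul_one, he, sub_self]; exact m'.zero_mem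
    exact (hm'max.isPrime.mem_or_mem h0).elim hem h
  · rw [map_sub, map_one, mul_sub, mul_one, sub_mul, one_mul]
    have : ρ p * ρ p = ρ p := by rw [← hρ', ← map_mul, he]
    rw [this, sub_self, sub_zero]

/-- A simple root of a quadratic modulo `m` lifts on the part at `m`. -/
theorem exists_root_localPart (ρ : P₀ →ₐ[A] Module.End A H₀) (m : Ideal P₀) [hm : m.IsMaximal]
    {e : Module.End A H₀} (he : IsLocalIdem ρ m e) (T R c : P₀)
    (hroot : c * c - T * c + R ∈ m) (hsimple : 2 * c - T ∉ m) :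
    ∃ a : P₀, a - c ∈ m ∧ ρ (a * a - T * a + R) * e = 0 := by
  by_cases hker : RingHom.ker ρ ≤ m
  swap
  · obtain ⟨k, hk, hkm⟩ := SetLike.not_le_iff_exists.1 hker
    obtain ⟨u, hu⟩ := he.inv k hkm
    refine ⟨c, by simp, ?_⟩
    rw [← hu, show ρ k = 0 from hk, mul_zero, mul_zero]
  have := finite_quotient_ker ρ
  let Q := P₀ ⧸ RingHom.ker ρ
  let π : P₀ →ₐ[A] Q := Ideal.Quotient.mkₐ A _
  have hπ : Function.Surjective π := Ideal.Quotient.mkₐ_surjective A _
  let m' : Ideal Q := Ideal.map π.toRingHom m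
  obtain ⟨hm'max, hmem⟩ := maximal_map_of_ker_le π.toRingHom hπ m
    (by rwa [show RingHom.ker π.toRingHom = RingHom.ker ρ from Ideal.mk_ker])
  obtain ⟨-, hbij, -, hcomp⟩ :=
    Algebra.finite_maximalSpectrum_and_bijective_localization_of_module_finite (𝒪 := A) Q
  let M₀ : MaximalSpectrum Q := ⟨m', hm'max⟩
  let L := Localization.AtPrime M₀.asIdeal
  have := hcomp M₀
  let loc : P₀ →+* L := (algebraMap Q L).comp π.toRingHom
  have hloc : ∀ t, loc t ∈ IsLocalRing.maximalIdeal L ↔ t ∈ m := fun t => by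
    rw [← hmem t]
    exact IsLocalization.AtPrime.to_map_mem_maximal_iff L M₀.asIdeal (π t)
  have hsurj : Function.Surjective loc := by
    classical
    intro y
    obtain ⟨q, hq⟩ := hbij.2 (Pi.single M₀ y)
    obtain ⟨x, rfl⟩ := hπ q
    exact ⟨x, by simpa [loc] using congrFun hq M₀⟩
  obtain ⟨r, hr, hrc⟩ : ∃ r : L, r * r - loc T * r + loc R = 0 ∧
      r - loc c ∈ IsLocalRing.maximalIdeal L := by
    let f : Polynomial L := Polynomial.X ^ 2 - Polynomial.C (loc T) * Polynomial.X +
      Polynomial.C (loc R)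
    have hmonic : f.Monic := by
      unfold f
      monicity!
    obtain ⟨r, hr, hrc⟩ := HenselianRing.is_henselian (I := IsLocalRing.maximalIdeal L) f hmonic
      (loc c) (by
        have e : f.eval (loc c) = loc (c * c - T * c + R) := by
          simp [f, sq, map_add, map_sub, map_mul]
        rw [e]; exact (hloc _).2 hroot) (by
        have e : f.derivative.eval (loc c) = loc (2 * c - T) := by
          rw [map_sub, map_mul, map_ofNat]
          exact eval_derivative_quadratic (loc T) (loc R) (loc c)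
        rw [e]
        exact IsUnit.map _ (IsLocalRing.notMem_maximalIdeal.1 fun h => hsimple ((hloc _).1 h)))
    exact ⟨r, by simpa [f, sq, Polynomial.IsRoot] using hr, hrc⟩
  obtain ⟨a, rfl⟩ := hsurj r
  refine ⟨a, (hloc _).1 (by rw [map_sub]; exact hrc), ?_⟩
  set X := a * a - T * a + R
  have hX : algebraMap Q L (π X) = algebraMap Q L 0 := by
    rw [map_zero]
    show loc X = 0
    simp only [X, map_add, map_sub, map_mul]
    exact hr
  obtain ⟨u, hu⟩ := (IsLocalization.eq_iff_exists M₀.asIdeal.primeCompl L).1 hX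
  obtain ⟨u', hu'⟩ := hπ (u : Q)
  have hum : u' ∉ m := fun h => u.2 (by rw [← hu']; exact (hmem u').2 h)
  obtain ⟨v, hv⟩ := he.inv u' hum
  have h0 : ρ (u' * X) = 0 := by
    have h : π (u' * X) = 0 := by rw [map_mul, hu', hu, mul_zero]
    exact (Ideal.Quotient.eq_zero_iff_mem.1 h : _)
  rw [← hv, ← map_mul, ← map_mul, show X * (v * u') = v * (u' * X) by ring, map_mul, h0, mul_zero]

end Existence

section Naturality

variable {A' : Type} [CommRing A'] [IsLocalRing A'] [IsNoetherianRing A']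
variable {P' : Type*} [CommRing P'] [Algebra A' P']
variable {H' : Type*} [AddCommGroup H'] [Module A' H'] [Module.Finite A' H']
variable {ρ : P →ₐ[A] Module.End A H} {m : Ideal P} {e : Module.End A H}
variable {ρ' : P' →ₐ[A'] Module.End A' H'} {m' : Ideal P'} {e' : Module.End A' H'}

omit [IsNoetherianRing A'] [Module.Finite A' H'] in
theorem semilinear_mem_pow (σ : A →+* A') [IsLocalHom σ] (f : H →ₛₗ[σ] H') {k : ℕ} {x : H}
    (hx : x ∈ IsLocalRing.maximalIdeal A ^ k • (⊤ : Submodule A H)) :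
    f x ∈ IsLocalRing.maximalIdeal A' ^ k • (⊤ : Submodule A' H') := by
  have hσ : (IsLocalRing.maximalIdeal A).map σ ≤ IsLocalRing.maximalIdeal A' :=
    Ideal.map_le_iff_le_comap.2 (IsLocalRing.maximalIdeal_comap σ).ge
  refine Submodule.smul_induction_on hx (fun a ha z _ => ?_) fun x y hx hy => ?_
  · rw [f.map_smulₛₗ]
    refine Submodule.smul_mem_smul ?_ Submodule.mem_top
    have := Ideal.mem_map_of_mem σ ha
    rw [Ideal.map_pow] at this
    exact Ideal.pow_right_mono hσ k this
  · rw [map_add]; exact add_mem hx hy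

/-- Equivariant maps send the complement of the part at `m` into the complement at `m'`. -/
theorem IsLocalIdem.map_compl (h : IsLocalIdem ρ m e) (h' : IsLocalIdem ρ' m' e') {σ : A →+* A'}
    (f : H →ₛₗ[σ] H') (φ : P →+* P') (hf : ∀ p x, f (ρ p x) = ρ' (φ p) (f x))
    (hm : ∀ p ∈ m, φ p ∈ m') {x : H} (hx : e x = 0) : e' (f x) = 0 := by
  obtain ⟨s, hs, hsid⟩ := h.compl
  have hsx : ρ s x = x := by
    have := LinearMap.congr_fun hsid x
    simpa [hx] using this
  have hfix : ∀ j : ℕ, (ρ' (φ s) ^ j) (e' (f x)) = e' (f x) := by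
    intro j
    induction j with
    | zero => rfl
    | succ j ih =>
      rw [pow_succ, Module.End.mul_apply, ← h'.comm_apply, ← hf, hsx, ih]
  obtain ⟨n, hn⟩ := h'.pow_mem (hm s hs)
  refine eq_zero_of_forall_mem_pow_smul (A := A') fun k => ?_
  rw [← hfix (n * k)]
  exact hn k (f x)

/-- Naturality: equivariant maps commute with the local idempotents, when the map of algebras is
surjective. -/
theorem IsLocalIdem.natural (h : IsLocalIdem ρ m e) (h' : IsLocalIdem ρ' m' e') {σ : A →+* A'}
    [IsLocalHom σ] (f : H →ₛₗ[σ] H') (φ : P →+* P') (hφ : Function.Surjective φ)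
    (hf : ∀ p x, f (ρ p x) = ρ' (φ p) (f x)) (hm : ∀ p, φ p ∈ m' ↔ p ∈ m) (x : H) :
    f (e x) = e' (f x) := by
  have h1 : e' (f (x - e x)) = 0 :=
    h.map_compl h' f φ hf (fun p hp => (hm p).2 hp) (by rw [map_sub, h.idem_apply, sub_self])
  have h2 : f (e x) - e' (f (e x)) = 0 := by
    obtain ⟨s', hs', hid⟩ := h'.compl
    obtain ⟨s, rfl⟩ := hφ s'
    set y := f (e x) - e' (f (e x)) with hy
    have hpow : ∀ (j : ℕ) (z : H), f ((ρ s ^ j) z) = (ρ' (φ s) ^ j) (f z) := by
      intro j
      induction j with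
      | zero => intro z; rfl
      | succ j ih => intro z; rw [pow_succ, Module.End.mul_apply, ih, hf, pow_succ]; rfl
    obtain ⟨n, hn⟩ := h.pow_mem ((hm s).1 hs')
    refine eq_zero_of_forall_mem_pow_smul (A := A') fun k => ?_
    have hfix : ∀ j : ℕ, (ρ' (φ s) ^ j) y = y := by
      intro j
      induction j with
      | zero => rfl
      | succ j ih =>
        rw [pow_succ, Module.End.mul_apply]
        have : ρ' (φ s) y = y := by
          have := LinearMap.congr_fun hid (f (e x))
          simpa [hy] using this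
        rw [this, ih]
    rw [← hfix (n * k), hy, map_sub]
    refine sub_mem ?_ ?_
    · rw [← hpow]; exact semilinear_mem_pow σ f (hn k x)
    · rw [← map_pow, ← h'.comm_apply, map_pow, ← hpow]
      exact mem_pow_smul_map _ e' (semilinear_mem_pow σ f (hn k x))
  rw [map_sub, map_sub, sub_eq_zero] at h1
  rw [h1]
  exact sub_eq_zero.1 h2

/-- A map intertwined on the part at `m` through `ψ : P' → P` with `ψ m' ⊆ m` lands in the part at
`m'`. -/
theorem IsLocalIdem.map_part (h : IsLocalIdem ρ m e) (h' : IsLocalIdem ρ' m' e') {σ : A →+* A'}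
    [IsLocalHom σ] (f : H →ₛₗ[σ] H') (ψ : P' →+* P)
    (hf : ∀ p x, e x = x → f (ρ (ψ p) x) = ρ' p (f x)) (hm : ∀ p ∈ m', ψ p ∈ m) {x : H}
    (hx : e x = x) : e' (f x) = f x := by
  obtain ⟨s, hs, hid⟩ := h'.compl
  set y := f x - e' (f x) with hy
  have hfix : ∀ j : ℕ, (ρ' s ^ j) y = y := by
    intro j
    induction j with
    | zero => rfl
    | succ j ih =>
      rw [pow_succ, Module.End.mul_apply]
      have : ρ' s y = y := by
        have := LinearMap.congr_fun hid (f x)
        simpa [hy] using this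
      rw [this, ih]
  have hpow : ∀ j : ℕ, f ((ρ (ψ s) ^ j) x) = (ρ' s ^ j) (f x) := by
    intro j
    induction j with
    | zero => rfl
    | succ j ih =>
      rw [pow_succ', pow_succ', Module.End.mul_apply, Module.End.mul_apply, ← ih]
      refine hf s _ ?_
      rw [← map_pow, h.comm_apply, hx]
  obtain ⟨n, hn⟩ := h.pow_mem (hm s hs)
  have h0 : y = 0 := by
    refine eq_zero_of_forall_mem_pow_smul (A := A') fun k => ?_
    have h1 : f ((ρ (ψ s) ^ (n * k)) x) ∈ IsLocalRing.maximalIdeal A' ^ k •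
        (⊤ : Submodule A' H') := by
      have := hn k x
      rw [hx] at this
      exact semilinear_mem_pow σ f this
    rw [← hfix (n * k), hy, map_sub, ← map_pow, ← h'.comm_apply, map_pow, ← hpow]
    exact sub_mem h1 (mem_pow_smul_map _ e' h1)
  exact (sub_eq_zero.1 h0).symm

/-- A map intertwined through `ψ` with some element of `m'` going to a unit at `m` misses the
part at `m'`. -/
theorem IsLocalIdem.kill_part (h : IsLocalIdem ρ m e) (h' : IsLocalIdem ρ' m' e') {σ : A →+* A'}
    (f : H →ₛₗ[σ] H') (ψ : P' →+* P) (hf : ∀ p x, e x = x → f (ρ (ψ p) x) = ρ' p (f x))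
    {s : P'} (hs : s ∈ m') (hψs : ψ s ∉ m) {x : H} (hx : e x = x) : e' (f x) = 0 := by
  obtain ⟨u, hu⟩ := h.bijective_restrict hψs
  have hback : ∀ j : ℕ, ∃ w, e w = w ∧ (ρ' s ^ j) (f w) = f x := by
    intro j
    induction j with
    | zero => exact ⟨x, hx, rfl⟩
    | succ j ih =>
      obtain ⟨w, hw, hwx⟩ := ih
      have hw' : e (ρ u w) = ρ u w := by rw [h.comm_apply, hw]
      refine ⟨ρ u w, hw', ?_⟩
      rw [pow_succ, Module.End.mul_apply, ← hf s _ hw', (hu w hw).2, hwx]
  obtain ⟨n, hn⟩ := h'.pow_mem hs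
  refine eq_zero_of_forall_mem_pow_smul (A := A') fun k => ?_
  obtain ⟨w, -, hw⟩ := hback (n * k)
  rw [← hw, ← map_pow, h'.comm_apply, map_pow]
  exact hn k (f w)

/-- Base change: surjectivity and kernel pass to the local parts. -/
theorem IsLocalIdem.baseChange (h : IsLocalIdem ρ m e) (h' : IsLocalIdem ρ' m' e') {σ : A →+* A'}
    [IsLocalHom σ] (f : H →ₛₗ[σ] H') (φ : P →+* P') (hφ : Function.Surjective φ)
    (hf : ∀ p x, f (ρ p x) = ρ' (φ p) (f x)) (hm : ∀ p, φ p ∈ m' ↔ p ∈ m)
    (hsurj : Function.Surjective f)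
    (hker : ∀ x, f x = 0 → x ∈ RingHom.ker σ • (⊤ : Submodule A H)) :
    (∀ y, e' y = y → ∃ x, e x = x ∧ f x = y) ∧
      ∀ x, e x = x → (f x = 0 ↔ x ∈ RingHom.ker σ • LinearMap.range e) := by
  refine ⟨fun y hy => ?_, fun x hx => ⟨fun h0 => ?_, fun hmem => ?_⟩⟩
  · obtain ⟨x, rfl⟩ := hsurj y
    exact ⟨e x, h.idem_apply x, by rw [h.natural h' f φ hφ hf hm, hy]⟩
  · have h2 := Submodule.mem_map_of_mem (f := e) (hker x h0)
    rwa [Submodule.map_smul'', Submodule.map_top, hx] at h2
  · refine Submodule.smul_induction_on hmem (fun a ha z _ => ?_) fun u v hu hv => ?_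
    · rw [f.map_smulₛₗ, show σ a = 0 from ha, zero_smul]
    · rw [map_add, hu, hv, add_zero]

end Naturality

end Fermat.Agent.RT.TW

end
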