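import Fermat.Agent.RT.TW.Freeness
import Fermat.Prelude.Thm_Algebra_finite_maximalSpectrum_and_bijective_localization_of_module_finite
import Mathlib.Algebra.Algebra.Tower
import Mathlib.RingTheory.Ideal.Maps

/-!
# The part of a module at a maximal ideal of a finite algebra

For a finite algebra `T` over a complete Noetherian local ring `A` and a maximal ideal `m`, there
is an idempotent `e` outside `m` such that every element outside `m` is invertible on `e H`. If
an element outside `m` lifts to an endomorphism of a finite projective `Z` killing the relations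
of `H = Z ⧸ B`, then `e H` is free over `A`. Localisation commutes with base change.
-/

set_option autoImplicit false

noncomputable section

namespace Fermat.Agent.RT.TW

section Idempotent

/-- The idempotent of a maximal ideal in a finite algebra over a complete local ring. -/
theorem exists_idempotent_maximal (A : Type) [CommRing A] [IsLocalRing A] [IsNoetherianRing A]
    [IsAdicComplete (IsLocalRing.maximalIdeal A) A] {T : Type} [CommRing T] [Algebra A T]
    [Module.Finite A T] (m : Ideal T) [hm : m.IsMaximal] :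
    ∃ e : T, e * e = e ∧ e ∉ m ∧ (∀ t ∉ m, ∃ u, u * t = e) ∧
      ∀ I : Ideal T, I.IsMaximal → I ≠ m → e ∈ I := by
  classical
  obtain ⟨-, hbij, -, -⟩ :=
    Algebra.finite_maximalSpectrum_and_bijective_localization_of_module_finite (𝒪 := A) T
  let M₀ : MaximalSpectrum T := ⟨m, hm⟩
  let Φ := RingHom.pi fun I : MaximalSpectrum T => algebraMap T (Localization.AtPrime I.asIdeal)
  have hΦ : ∀ (t : T) (I : MaximalSpectrum T),
      Φ t I = algebraMap T (Localization.AtPrime I.asIdeal) t := fun _ _ => rfl
  obtain ⟨e, he⟩ := hbij.2 (Pi.single M₀ 1)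
  change Φ e = _ at he
  refine ⟨e, hbij.1 ?_, fun hmem => ?_, fun t ht => ?_, fun I hI hne => ?_⟩
  · show Φ (e * e) = Φ e
    rw [map_mul, he, ← Pi.single_mul, mul_one]
  · have h1 : algebraMap T (Localization.AtPrime M₀.asIdeal) e = 1 := by
      rw [← hΦ, he, Pi.single_eq_same]
    have := (IsLocalization.AtPrime.to_map_mem_maximal_iff
      (Localization.AtPrime M₀.asIdeal) M₀.asIdeal e).2 hmem
    rw [h1] at this
    exact (IsLocalRing.maximalIdeal.isMaximal _).ne_top ((Ideal.eq_top_iff_one _).2 this)
  · have hu : IsUnit (algebraMap T (Localization.AtPrime M₀.asIdeal) t) :=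
      IsLocalization.map_units (Localization.AtPrime M₀.asIdeal) (⟨t, ht⟩ : M₀.asIdeal.primeCompl)
    obtain ⟨v, hv⟩ := hu.exists_left_inv
    obtain ⟨u, hu'⟩ := hbij.2 (Pi.single M₀ v)
    change Φ u = _ at hu'
    refine ⟨u, hbij.1 ?_⟩
    show Φ (u * t) = Φ e
    rw [map_mul, hu', he]
    funext I
    by_cases hI : I = M₀
    · subst hI; rw [Pi.mul_apply, Pi.single_eq_same, Pi.single_eq_same, hΦ, hv]
    · rw [Pi.mul_apply, Pi.single_eq_of_ne hI, Pi.single_eq_of_ne hI, zero_mul]
  · let I₀ : MaximalSpectrum T := ⟨I, hI⟩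
    have hne' : I₀ ≠ M₀ := fun h => hne (congrArg MaximalSpectrum.asIdeal h)
    have h0 : algebraMap T (Localization.AtPrime I₀.asIdeal) e = 0 := by
      rw [← hΦ, he, Pi.single_eq_of_ne hne']
    by_contra hmem
    have hu : IsUnit (algebraMap T (Localization.AtPrime I₀.asIdeal) e) :=
      IsLocalization.map_units (Localization.AtPrime I₀.asIdeal) (⟨e, hmem⟩ : I₀.asIdeal.primeCompl)
    rw [h0] at hu
    exact not_isUnit_zero hu

end Idempotent

section LocalPart

variable {A : Type*} [CommRing A] {T : Type*} [CommRing T] [Algebra A T]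
variable {H : Type*} [AddCommGroup H] [Module A H] [Module T H] [IsScalarTower A T H]

variable (A H) in
/-- The part of `H` cut out by `e`. -/
def cutPart (e : T) : Submodule A H := LinearMap.range (Algebra.lsmul A A H e)

theorem mem_cutPart_iff {e : T} (he : e * e = e) {x : H} : x ∈ cutPart A H e ↔ e • x = x :=
  ⟨fun ⟨y, hy⟩ => by
    have hy' : e • y = x := hy
    rw [← hy', smul_smul, he], fun h => ⟨x, h⟩⟩

/-- Action of `t` on the cut part. -/
def cutSMul {e : T} (t : T) : cutPart A H e →ₗ[A] cutPart A H e :=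
  (Algebra.lsmul A A H t).restrict fun x ⟨y, hy⟩ => ⟨t • y, by
    show e • (t • y) = t • x
    rw [smul_smul, mul_comm, ← smul_smul]
    exact congrArg (t • ·) hy⟩

@[simp] theorem coe_cutSMul {e : T} (t : T) (x : cutPart A H e) :
    (cutSMul t x : H) = t • (x : H) := rfl

theorem cutSMul_bijective {e : T} (he : e * e = e) {t u : T} (hu : u * t = e) :
    Function.Bijective (cutSMul (A := A) (H := H) (e := e) t) := by
  refine Function.bijective_iff_has_inverse.2 ⟨cutSMul u, fun x => Subtype.ext ?_,
    fun x => Subtype.ext ?_⟩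
  · rw [coe_cutSMul, coe_cutSMul, smul_smul, hu, (mem_cutPart_iff he).1 x.2]
  · rw [coe_cutSMul, coe_cutSMul, smul_smul, mul_comm, hu, (mem_cutPart_iff he).1 x.2]

variable {H' : Type*} [AddCommGroup H']

/-- Cutting commutes with base change: a point of the cut part lying in `I H` lies in `I (e H)`. -/
theorem mem_smul_cutPart {e : T} (he : e * e = e) (I : Ideal A) {x : H}
    (hx : x ∈ cutPart A H e) (hI : x ∈ I • (⊤ : Submodule A H)) :
    x ∈ I • cutPart A H e := by
  have := Submodule.mem_map_of_mem (f := (Algebra.lsmul A A H e : H →ₗ[A] H)) hI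
  rw [Submodule.map_smul''] at this
  rw [show (Algebra.lsmul A A H e : H →ₗ[A] H) x = x from (mem_cutPart_iff he).1 hx] at this
  rwa [Submodule.map_top] at this

theorem cutPart_surjective {e : T} (he : e * e = e) (φ : H →+ H') (e' : H' →+ H')
    (hφ : Function.Surjective φ) (hcomm : ∀ x, φ (e • x) = e' (φ x)) {y : H'} (hy : e' y = y) :
    ∃ x ∈ cutPart A H e, φ x = y := by
  obtain ⟨x, rfl⟩ := hφ y
  exact ⟨e • x, (mem_cutPart_iff he).2 (by rw [smul_smul, he]), by rw [hcomm, hy]⟩

variable {Z : Type*} [AddCommGroup Z] [Module A Z]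

/-- The cut part of `Z ⧸ B` is free when an element invertible on it lifts to an endomorphism of
`Z` killing `B`. -/
theorem free_cutPart [IsLocalRing A] [Module.Finite A Z] [Module.Projective A Z]
    (B : Submodule A Z) [Module T (Z ⧸ B)] [IsScalarTower A T (Z ⧸ B)]
    {e τ u : T} (he : e * e = e) (hu : u * τ = e) (t : Z →ₗ[A] Z) (hB : ∀ x ∈ B, t x = 0)
    (hτ : ∀ z, τ • B.mkQ z = B.mkQ (t z)) :
    Module.Free A (cutPart A (Z ⧸ B) e) ∧ Module.Finite A (cutPart A (Z ⧸ B) e) := by
  refine free_of_bijective B t hB (cutPart A (Z ⧸ B) e).subtype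
    ((Algebra.lsmul A A (Z ⧸ B) e).codRestrict _ fun x => LinearMap.mem_range_self _ x)
    (fun x => Subtype.ext ((mem_cutPart_iff he).1 x.2)) (cutSMul τ) (cutSMul_bijective he hu)
    fun x z hz => ?_
  rw [Submodule.subtype_apply] at hz ⊢
  rw [coe_cutSMul, ← hz, hτ]

end LocalPart

end Fermat.Agent.RT.TW

end
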