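import Fermat.Agent.RT.TW.Gamma0
import Fermat.Agent.RT.TW.CoverLevel
import Fermat.Agent.RT.TW.LocalPart
import Mathlib.RingTheory.LocalRing.RingHom.Basic

/-!
# The localised modules `H¹(Γ₀(M), A_Φ)_m`

Over a complete Noetherian local ring, under `CoverHyp`: finiteness, freeness of the part at a
non-Eisenstein maximal ideal, base change along surjections of coefficient rings and change of
the modulus of the nebentypus.
-/

set_option autoImplicit false

noncomputable section

namespace Fermat.Agent.RT.TW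

open scoped MatrixGroups
open CongruenceSubgroup Periods MvPolynomial

/-- The polynomial ring on the primes. -/
abbrev HeckePoly (A : Type) [CommRing A] : Type := MvPolynomial Nat.Primes A

variable {A : Type} [CommRing A] {N N' M : ℕ} {Φ : MulChar (ZMod N) A}

instance level0_finiteIndex [NeZero M] (h : N ∣ M) : (level0 Φ M h).grp.FiniteIndex :=
  inferInstanceAs (Gamma0 M).FiniteIndex

theorem heckeAct_X (h : N ∣ M) (p : Nat.Primes) : heckeAct Φ h (X p) = heckeOp Φ h p := by
  simp [heckeAct]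

theorem heckeAct_C (h : N ∣ M) (a : A) : heckeAct Φ h (C a) = a • 1 := by
  rw [← algebraMap_eq, AlgHom.commutes, Algebra.algebraMap_eq_smul_one]

theorem projective_Z1_level0 [NeZero M] (h : N ∣ M) (hcov : CoverHyp A M) :
    Module.Projective A (level0 Φ M h).Z1 ∧ Module.Finite A (level0 Φ M h).Z1 := by
  obtain ⟨K, hn, hf, hK, hu⟩ := hcov.hasCover (Φ := Φ) h
  letI := Fintype.ofFinite ((level0 Φ M h).CoverIdx K)
  exact (level0 Φ M h).projective_Z1 K hK ((level0 Φ M h).isUnit_card_coverIdx K hu)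

theorem finite_heckeH1 [NeZero M] (h : N ∣ M) (hcov : CoverHyp A M) :
    Module.Finite A (heckeH1 Φ M h) :=
  haveI := (projective_Z1_level0 (Φ := Φ) h hcov).2
  Module.Finite.of_surjective _ (Submodule.mkQ_surjective _)

section Free

variable [IsLocalRing A]

/-- The part at a non-Eisenstein maximal ideal is finite free over the coefficient ring. -/
theorem free_heckePart [NeZero M] (h : N ∣ M) (hcov : CoverHyp A M) {m : Ideal (HeckePoly A)}
    {e : Module.End A (heckeH1 Φ M h)} (he : IsLocalIdem (heckeAct Φ h) m e)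
    (hEis : ∃ ℓ : Nat.Primes, (X ℓ - C (eisensteinValue Φ M ℓ) : HeckePoly A) ∉ m) :
    Module.Free A (LinearMap.range e) ∧ Module.Finite A (LinearMap.range e) := by
  obtain ⟨hproj, hfin⟩ := projective_Z1_level0 (Φ := Φ) h hcov
  obtain ⟨ℓ, hℓ⟩ := hEis
  obtain ⟨t, ht, ht'⟩ := exists_lift_heckeOp_sub (Φ := Φ) h ℓ
  set τ : HeckePoly A := X ℓ - C (eisensteinValue Φ M ℓ) with hτdef
  have hτ : ∀ y, heckeAct Φ h τ y = heckeOp Φ h ℓ y - eisensteinValue Φ M ℓ • y := fun y => by
    rw [hτdef, map_sub, heckeAct_X, heckeAct_C]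
    rfl
  obtain ⟨u, hu⟩ := he.bijective_restrict hℓ
  let tP : LinearMap.range e →ₗ[A] LinearMap.range e :=
    LinearMap.restrict (heckeAct Φ h τ) fun x ⟨y, hy⟩ =>
      ⟨heckeAct Φ h τ y, by rw [he.comm_apply, hy]⟩
  have hfix : ∀ x : LinearMap.range e, e (x : heckeH1 Φ M h) = x := by
    rintro ⟨_, y, rfl⟩; exact he.idem_apply y
  have htP : Function.Bijective tP := by
    refine Function.bijective_iff_has_inverse.2
      ⟨LinearMap.restrict (heckeAct Φ h u) (p := LinearMap.range e) (q := LinearMap.range e)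
        (fun x ⟨y, hy⟩ => ⟨heckeAct Φ h u y, by rw [he.comm_apply, hy]⟩), fun x => Subtype.ext ?_,
        fun x => Subtype.ext ?_⟩
    · exact (hu x (hfix x)).1
    · exact (hu x (hfix x)).2
  refine free_of_bijective (LinearMap.range (coboundary (level0 Φ M h).char)) t ht
    (LinearMap.range e).subtype e.rangeRestrict (fun x => Subtype.ext (hfix x)) tP htP
    fun x z hz => ?_
  rw [Submodule.subtype_apply] at hz ⊢
  show toH1 (level0 Φ M h).char (t z) = heckeAct Φ h τ (x : heckeH1 Φ M h)
  rw [ht', hτ, ← hz]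

end Free

section BaseChange

variable {A' : Type} [CommRing A'] (f : A →+* A')

variable (Φ) in
/-- Base change of coefficients. -/
def heckeBaseChange (h : N ∣ M) : heckeH1 Φ M h →ₛₗ[f] heckeH1 (Φ.ringHomComp f) M h :=
  mapH1 f (level0 Φ M h).char

theorem heckeBaseChange_heckeOp (h : N ∣ M) (p : Nat.Primes) (y : heckeH1 Φ M h) :
    heckeBaseChange Φ f h (heckeOp Φ h p y) =
      heckeOp (Φ.ringHomComp f) h p (heckeBaseChange Φ f h y) := by
  obtain ⟨c, rfl⟩ := Submodule.mkQ_surjective _ y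
  show toH1 (mapChar f (level0 Φ M h).char) (mapCocycle f _ ((heckeFamily Φ h p.2).op c)) =
    toH1 (level0 (Φ.ringHomComp f) M h).char
      ((heckeFamily (Φ.ringHomComp f) h p.2).op (mapCocycle f _ c))
  refine congrArg (toH1 (level0 (Φ.ringHomComp f) M h).char) (Subtype.ext (funext fun γ => ?_))
  refine Eq.trans ?_ ((heckeFamily (Φ.ringHomComp f) h p.2).op_apply_of_step _
    (σ := ((heckeFamily Φ h p.2).exists_step γ).choose) (g := (heckeFamily Φ h p.2).elt γ)
    ((heckeFamily Φ h p.2).isStep_elt γ)).symm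
  rw [mapCocycle_apply, CosetFamily.op_apply, map_sum]
  refine Finset.sum_congr rfl fun i _ => ?_
  rw [map_mul]
  rfl

theorem heckeBaseChange_heckeAct (h : N ∣ M) (P : HeckePoly A) (y : heckeH1 Φ M h) :
    heckeBaseChange Φ f h (heckeAct Φ h P y) =
      heckeAct (Φ.ringHomComp f) h (MvPolynomial.map f P) (heckeBaseChange Φ f h y) := by
  induction P using MvPolynomial.induction_on generalizing y with
  | C a => rw [heckeAct_C, MvPolynomial.map_C, heckeAct_C]; simp
  | add P Q hP hQ => rw [map_add, map_add, map_add]; simp [hP, hQ]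
  | mul_X P p hP =>
    have e1 : heckeAct Φ h (X p) = heckeOp Φ h p := heckeAct_X h p
    have e2 : heckeAct (Φ.ringHomComp f) h (X p) = heckeOp (Φ.ringHomComp f) h p := heckeAct_X h p
    simp only [map_mul, MvPolynomial.map_X, Module.End.mul_apply, hP, e1, e2]
    exact congrArg _ (heckeBaseChange_heckeOp f h p y)

theorem heckeBaseChange_surjective [NeZero M] (h : N ∣ M) (hcov : CoverHyp A M)
    (hf : Function.Surjective f) : Function.Surjective (heckeBaseChange Φ f h) := by
  obtain ⟨K, hn, hfi, hK, hu⟩ := hcov.hasCover (Φ := Φ) h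
  letI := Fintype.ofFinite ((level0 Φ M h).CoverIdx K)
  exact (level0 Φ M h).mapH1_surjective_of_unit K f hK hf
    ((level0 Φ M h).isUnit_card_coverIdx K hu)

theorem mem_ker_smul_of_heckeBaseChange_eq_zero [NeZero M] (h : N ∣ M) (hcov : CoverHyp A M)
    (hf : Function.Surjective f) {y : heckeH1 Φ M h} (hy : heckeBaseChange Φ f h y = 0) :
    y ∈ RingHom.ker f • (⊤ : Submodule A (heckeH1 Φ M h)) := by
  obtain ⟨K, hn, hfi, hK, hu⟩ := hcov.hasCover (Φ := Φ) h
  letI := Fintype.ofFinite ((level0 Φ M h).CoverIdx K)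
  exact (level0 Φ M h).mem_ker_smul_of_mapH1_eq_zero K f hK hf
    ((level0 Φ M h).isUnit_card_coverIdx K hu) hy

/-- The part at `m` base changes to the quotient of itself by the kernel. -/
theorem heckePart_baseChange [IsLocalRing A] [IsLocalRing A'] [IsNoetherianRing A'] [NeZero M]
    (h : N ∣ M) (hcov : CoverHyp A M) (hf : Function.Surjective f) {m : Ideal (HeckePoly A)}
    {m' : Ideal (HeckePoly A')} (hm : m'.comap (MvPolynomial.map f) = m)
    {e : Module.End A (heckeH1 Φ M h)} (he : IsLocalIdem (heckeAct Φ h) m e)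
    {e' : Module.End A' (heckeH1 (Φ.ringHomComp f) M h)}
    (he' : IsLocalIdem (heckeAct (Φ.ringHomComp f) h) m' e') :
    (∀ y, e' y = y → ∃ x, e x = x ∧ heckeBaseChange Φ f h x = y) ∧
      (∀ x, e x = x → (heckeBaseChange Φ f h x = 0 ↔ x ∈ RingHom.ker f • LinearMap.range e)) ∧
      ∀ x, heckeBaseChange Φ f h (e x) = e' (heckeBaseChange Φ f h x) := by
  have : IsLocalHom f := IsLocalHom.of_surjective f hf
  have := finite_heckeH1 (Φ := Φ.ringHomComp f) h (hcov.map f)
  have hm' : ∀ P, MvPolynomial.map f P ∈ m' ↔ P ∈ m := fun P => by rw [← hm]; rfl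
  refine ⟨?_, ?_, fun x => he.natural he' (heckeBaseChange Φ f h) (MvPolynomial.map f)
    (MvPolynomial.map_surjective f hf) (heckeBaseChange_heckeAct f h) hm' x⟩
  all_goals
    have key := he.baseChange he' (heckeBaseChange Φ f h) (MvPolynomial.map f)
      (MvPolynomial.map_surjective f hf) (heckeBaseChange_heckeAct f h) hm'
      (heckeBaseChange_surjective f h hcov hf)
      (fun x hx => mem_ker_smul_of_heckeBaseChange_eq_zero f h hcov hf hx)
  · exact key.1
  · exact key.2

end BaseChange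

section ResidualIdeal

variable {k : Type} [Field k]

/-- The maximal ideal of a residual Hecke system. -/
def residualIdeal (res : A →+* k) (a : Nat.Primes → k) : Ideal (HeckePoly A) :=
  RingHom.ker (eval₂Hom res a)

theorem mem_residualIdeal_iff (res : A →+* k) (a : Nat.Primes → k) (P : HeckePoly A) :
    P ∈ residualIdeal res a ↔ eval₂Hom res a P = 0 := Iff.rfl

theorem X_sub_C_mem_residualIdeal_iff (res : A →+* k) (a : Nat.Primes → k) (p : Nat.Primes)
    (v : A) : (X p - C v : HeckePoly A) ∈ residualIdeal res a ↔ a p = res v := by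
  rw [mem_residualIdeal_iff, map_sub, eval₂Hom_X', eval₂Hom_C, sub_eq_zero]

theorem residualIdeal_isMaximal (res : A →+* k) (hres : Function.Surjective res)
    (a : Nat.Primes → k) : (residualIdeal res a).IsMaximal :=
  RingHom.ker_isMaximal_of_surjective _ fun x => by
    obtain ⟨v, rfl⟩ := hres x
    exact ⟨C v, eval₂Hom_C res a v⟩

theorem residualIdeal_comap {A' : Type} [CommRing A'] (f : A →+* A') (res : A' →+* k)
    (a : Nat.Primes → k) :
    (residualIdeal res a).comap (MvPolynomial.map f) = residualIdeal (res.comp f) a := by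
  ext P
  rw [Ideal.mem_comap, mem_residualIdeal_iff, mem_residualIdeal_iff, coe_eval₂Hom, coe_eval₂Hom,
    eval₂_map]

end ResidualIdeal

section Congr

variable {Γ : Type*} [Group Γ]

/-- Cohomology of equal characters. -/
def twistedH1Congr {χ χ' : Γ →* Aˣ} (hχ : χ = χ') : twistedH1 χ ≃ₗ[A] twistedH1 χ' := by
  subst hχ; exact LinearEquiv.refl _ _

theorem twistedH1Congr_toH1 {χ χ' : Γ →* Aˣ} (hχ : χ = χ') (c : twistedCocycles χ) :
    twistedH1Congr hχ (toH1 χ c) = toH1 χ' ⟨c.1, hχ ▸ c.2⟩ := by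
  subst hχ; rfl

variable {Φ' : MulChar (ZMod N') A}

theorem char_changeModulus (h : N ∣ M) (h' : N' ∣ M)
    (hΦ : ∀ a : ℤ, IsUnit (a : ZMod N') → Φ' a = Φ a) :
    (level0 Φ' M h').char = ((level0 Φ M h).char : Gamma0 M →* Aˣ) := by
  refine MonoidHom.ext fun γ => Units.ext ?_
  have hu := (gammaMat_mem_gamma0Weighting Φ' (Γ := Gamma0 M) γ⁻¹
    ((Int.natCast_dvd_natCast.2 h').trans
      ((ZMod.intCast_zmod_eq_zero_iff_dvd _ M).1 (Gamma0_mem.1 (γ⁻¹).2)))).2
  exact hΦ _ hu

/-- The same module for a character read at a larger modulus. -/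
def changeModulus (h : N ∣ M) (h' : N' ∣ M)
    (hΦ : ∀ a : ℤ, IsUnit (a : ZMod N') → Φ' a = Φ a) :
    heckeH1 Φ' M h' ≃ₗ[A] heckeH1 Φ M h :=
  twistedH1Congr (char_changeModulus h h' hΦ)

theorem changeModulus_heckeOp (h : N ∣ M) (h' : N' ∣ M)
    (hΦ : ∀ a : ℤ, IsUnit (a : ZMod N') → Φ' a = Φ a) (p : Nat.Primes) (y : heckeH1 Φ' M h') :
    changeModulus h h' hΦ (heckeOp Φ' h' p y) = heckeOp Φ h p (changeModulus h h' hΦ y) := by
  obtain ⟨c, rfl⟩ := Submodule.mkQ_surjective _ y
  show twistedH1Congr (char_changeModulus h h' hΦ)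
      (toH1 (level0 Φ' M h').char ((heckeFamily Φ' h' p.2).op c)) =
    heckeOp Φ h p (twistedH1Congr (char_changeModulus h h' hΦ) (toH1 (level0 Φ' M h').char c))
  erw [twistedH1Congr_toH1, twistedH1Congr_toH1]
  refine congrArg (toH1 (level0 Φ M h).char) (Subtype.ext (funext fun γ => ?_))
  refine ((heckeFamily Φ' h' p.2).op_apply c γ).trans ?_
  refine Eq.trans ?_ ((heckeFamily Φ h p.2).op_apply_of_step _
    (σ := ((heckeFamily Φ' h' p.2).exists_step γ).choose) (g := (heckeFamily Φ' h' p.2).elt γ)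
    ((heckeFamily Φ' h' p.2).isStep_elt γ)).symm
  refine Finset.sum_congr rfl fun i _ => congrArg (· * _) ?_
  exact hΦ _ (heckeMat_mem (Φ := Φ') h' p.2 i).2

theorem changeModulus_heckeAct (h : N ∣ M) (h' : N' ∣ M)
    (hΦ : ∀ a : ℤ, IsUnit (a : ZMod N') → Φ' a = Φ a) (P : HeckePoly A) (y : heckeH1 Φ' M h') :
    changeModulus h h' hΦ (heckeAct Φ' h' P y) = heckeAct Φ h P (changeModulus h h' hΦ y) := by
  induction P using MvPolynomial.induction_on generalizing y with
  | C a => rw [heckeAct_C, heckeAct_C]; simp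
  | add P Q hP hQ => rw [map_add, map_add]; simp [hP, hQ]
  | mul_X P p hP =>
    rw [map_mul, map_mul, Module.End.mul_apply, Module.End.mul_apply, hP, heckeAct_X, heckeAct_X,
      changeModulus_heckeOp]

end Congr

end Fermat.Agent.RT.TW

end
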